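import Fermat.Agent.F4.Dict.H90
import Fermat.Agent.F4.Dict.DivFin
import Fermat.Agent.F4.Dict.CapitLevel
import Fermat.Agent.S14.SI.ClassGen

/-!
# S56 / W2-EC / (D) cyclic case, leaf P5 (helper14): `H¹(W, E)` is finite

`W` an open subgroup of `G_S`, `F = ℚ̄^W`, `E = EsRep S` the `S`-units of `ℚ_S`.

* `finA_divClass` : the ideal class of a finitely supported divisor `d` on the primes of `F`;
* `finA_exists_of_divClass_eq` : equal classes ⇒ `d - d' = div a` for some `a ∈ Fˣ`;
* `finA_exists_class` : there is `Φ : T_W → Cl(𝓞 F)` with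
  `Φ t = Φ t' → t - t' ∈ toQS (Fˣ) + E`  (so `T_W / (Fˣ + E)` is finite);
* `finA_exists_TU` : Hilbert 90: every smooth cocycle `c : W → E` is `g ↦ g t - t`, `t ∈ T_W`;
* `finite_H1sm_EsRep` : **`H¹_sm(W, E)` is finite** (it embeds in the class group of `F`).
-/

set_option autoImplicit false

open CategoryTheory groupCohomology ExtCitation
open NumberField IsDedekindDomain FractionalIdeal
open scoped nonZeroDivisors

namespace Fermat.Agent.S56.EC

open Fermat.Agent.F4

section General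

variable {R : Type*} [CommRing R] [IsDedekindDomain R] (K : Type*) [Field K] [Algebra R K]
  [IsFractionRing R K]

/-- The product `∏ v ^ d v` is a nonzero fractional ideal. -/
lemma finA_finprod_ne_zero (d : HeightOneSpectrum R → ℤ) :
    (∏ᶠ v : HeightOneSpectrum R, (v.asIdeal : FractionalIdeal R⁰ K) ^ d v) ≠ 0 := by
  refine finprod_induction (fun I : FractionalIdeal R⁰ K => I ≠ 0) one_ne_zero
    (fun I J hI hJ => mul_ne_zero hI hJ) (fun v => ?_)
  exact zpow_ne_zero _ (coeIdeal_ne_zero.mpr v.ne_bot)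

/-- The fractional ideal of a divisor, as a unit. -/
noncomputable def finA_divIdeal (d : HeightOneSpectrum R → ℤ) : (FractionalIdeal R⁰ K)ˣ :=
  Units.mk0 (∏ᶠ v : HeightOneSpectrum R, (v.asIdeal : FractionalIdeal R⁰ K) ^ d v)
    (finA_finprod_ne_zero K d)

lemma finA_count_divIdeal (d : HeightOneSpectrum R → ℤ) (hd : (Function.support d).Finite)
    (v : HeightOneSpectrum R) :
    count K v ((finA_divIdeal K d : (FractionalIdeal R⁰ K)ˣ) : FractionalIdeal R⁰ K) = d v := by
  have h : ∀ᶠ v : HeightOneSpectrum R in Filter.cofinite, d v = 0 := by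
    rw [Filter.eventually_cofinite]
    exact hd
  exact count_finprod K v d h

/-- The ideal class of a divisor. -/
noncomputable def finA_divClass (d : HeightOneSpectrum R → ℤ) : ClassGroup R :=
  ClassGroup.mk K (finA_divIdeal K d)

/-- Divisors with the same class differ by a principal divisor. -/
theorem finA_exists_of_divClass_eq (d d' : HeightOneSpectrum R → ℤ)
    (hd : (Function.support d).Finite) (hd' : (Function.support d').Finite)
    (h : finA_divClass K d = finA_divClass K d') :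
    ∃ a : Kˣ, ∀ v : HeightOneSpectrum R,
      d v - d' v = count K v (spanSingleton R⁰ (a : K)) := by
  have h1 : ClassGroup.mk K (finA_divIdeal K d * (finA_divIdeal K d')⁻¹) = 1 := by
    rw [map_mul, map_inv]
    unfold finA_divClass at h
    rw [h, mul_inv_cancel]
  rw [ClassGroup.mk_eq_one_iff] at h1
  obtain ⟨x, hx⟩ := h1.principal
  have hx' : ((finA_divIdeal K d * (finA_divIdeal K d')⁻¹ : (FractionalIdeal R⁰ K)ˣ) :
      FractionalIdeal R⁰ K) = spanSingleton R⁰ x := by
    apply Subtype.coe_injective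
    simp only [val_eq_coe, hx, coe_spanSingleton]
  have hx0 : x ≠ 0 := by
    intro h0
    apply Units.ne_zero (finA_divIdeal K d * (finA_divIdeal K d')⁻¹)
    rw [hx', h0, spanSingleton_zero]
  refine ⟨Units.mk0 x hx0, fun v => ?_⟩
  rw [Units.val_mk0, ← hx', Units.val_mul, Units.val_inv_eq_inv_val,
    count_mul K v (Units.ne_zero _) (inv_ne_zero (Units.ne_zero _)), count_inv,
    finA_count_divIdeal K d hd, finA_count_divIdeal K d' hd', sub_eq_add_neg]

end General

section Level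

variable {S : Finset Nat.Primes} (L : OpenS S)

/-- **The class map on `T_W`**: there is a map from `T_W` to the class group of `F = ℚ̄^W` whose
fibres lie in cosets of `toQS (Fˣ) + E`. -/
theorem finA_exists_class :
    ∃ Φ : QSx S → ClassGroup (𝓞 L.field), ∀ t ∈ L.TU, ∀ t' ∈ L.TU, Φ t = Φ t' →
      ∃ a : (L.field)ˣ, t - t' - L.toQS a ∈ sUnitsAdd S := by
  classical
  have key : ∀ t : QSx S, ∃ d : HeightOneSpectrum (𝓞 L.field) → ℤ,
      t ∈ L.TU → (L.IsDivS t d ∧ (Function.support d).Finite) := by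
    intro t
    by_cases ht : t ∈ L.TU
    · obtain ⟨d, hd, hfin, -⟩ := L.exists_isDivS_fin t ht
      exact ⟨d, fun _ => ⟨hd, hfin⟩⟩
    · exact ⟨0, fun h => absurd h ht⟩
  choose D hD using key
  refine ⟨fun t => finA_divClass L.field (D t), fun t ht t' ht' h => ?_⟩
  obtain ⟨hd, hfin⟩ := hD t ht
  obtain ⟨hd', hfin'⟩ := hD t' ht'
  obtain ⟨a, ha⟩ := finA_exists_of_divClass_eq L.field (D t) (D t') hfin hfin' h
  refine ⟨a, ?_⟩
  have h1 : L.IsDivS (t - t' - L.toQS a)
      (D t - D t' - fun v => -(WithZero.log (v.valuation L.field (a : L.field)))) :=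
    (hd.sub hd').sub (L.capit_isDivS_toQS a)
  have h2 : L.IsDivS (t - t' - L.toQS a) 0 := by
    refine h1.congr fun q A hA _ => ?_
    generalize L.primeBelowAt q A hA = v
    show D t v - D t' v - -(WithZero.log (v.valuation L.field (a : L.field))) = 0
    rw [ha v, Fermat.Agent.S14SI.valuation_eq_exp_neg_count v a.ne_zero, WithZero.log_exp]
    ring
  exact h2.mem_sUnitsAdd

/-- **P5, subgroup form**: every subgroup `H ⊇ E + toQS (Fˣ)` has finite index in `T_W`
(`T_W / (E + Fˣ) ≅ H¹(W, E)` embeds in the class group of `F`). -/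
theorem finA_finite_quot (H : AddSubgroup (QSx S)) (hE : sUnitsAdd S ≤ H)
    (hF : ∀ a : (L.field)ˣ, L.toQS a ∈ H) :
    Finite (↥L.TU ⧸ H.addSubgroupOf L.TU) := by
  classical
  obtain ⟨Φ, hΦ⟩ := finA_exists_class L
  refine Finite.of_injective
    (fun x : ↥L.TU ⧸ H.addSubgroupOf L.TU => Φ ((Quotient.out x : ↥L.TU) : QSx S)) ?_
  intro x y hxy
  obtain ⟨a, ha⟩ := hΦ _ (Quotient.out x : ↥L.TU).2 _ (Quotient.out y : ↥L.TU).2 hxy
  have hmem : ((Quotient.out x : ↥L.TU) : QSx S) - ((Quotient.out y : ↥L.TU) : QSx S) ∈ H := by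
    have h1 := H.add_mem (hE ha) (hF a)
    rwa [sub_add_cancel] at h1
  have hq : (QuotientAddGroup.mk (Quotient.out x) : ↥L.TU ⧸ H.addSubgroupOf L.TU) =
      QuotientAddGroup.mk (Quotient.out y) := by
    rw [QuotientAddGroup.eq, AddSubgroup.mem_addSubgroupOf]
    have h2 := H.neg_mem hmem
    rw [neg_sub] at h2
    rw [AddSubgroup.coe_add, AddSubgroup.coe_neg, neg_add_eq_sub]
    exact h2
  have hx : (QuotientAddGroup.mk (Quotient.out x) : ↥L.TU ⧸ H.addSubgroupOf L.TU) = x :=
    Quotient.out_eq x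
  have hy : (QuotientAddGroup.mk (Quotient.out y) : ↥L.TU ⧸ H.addSubgroupOf L.TU) = y :=
    Quotient.out_eq y
  rw [← hx, ← hy, hq]

/-- **P5, index form.** -/
theorem finA_finiteIndex (H : AddSubgroup (QSx S)) (hE : sUnitsAdd S ≤ H)
    (hF : ∀ a : (L.field)ˣ, L.toQS a ∈ H) : (H.addSubgroupOf L.TU).FiniteIndex :=
  haveI := finA_finite_quot L H hE hF
  AddSubgroup.finiteIndex_of_finite_quotient

/-- **P5, `relIndex` form.** -/
theorem finA_relIndex_ne_zero (H : AddSubgroup (QSx S)) (hE : sUnitsAdd S ≤ H)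
    (hF : ∀ a : (L.field)ˣ, L.toQS a ∈ H) : H.relIndex L.TU ≠ 0 :=
  (finA_finiteIndex L H hE hF).index_ne_zero

/-! ### The cohomological form -/

/-- **Hilbert 90**: a smooth cocycle `c : W → E` is `g ↦ g t - t` with `t ∈ T_W`. -/
theorem finA_exists_TU
    (c : ↥L.U → EsRep S)
    (hc : c ∈ Z1 ((levelsS S).sub L.U) (Rep.res L.U.subtype (EsRep S))) :
    ∃ t ∈ L.TU, ∀ g : ↥L.U, (QSx S).ρ (g : GQ) t - t = EsIncl S (c g) := by
  have hc' : (fun g : ↥L.U => EsIncl S (c g)) ∈
      Z1 ((levelsS S).sub L.U) (Rep.res L.U.subtype (QSx S)) := by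
    refine ⟨?_, ?_⟩
    · have h1 := (mem_cocycles₁_iff (A := Rep.res L.U.subtype (EsRep S)) c).1 hc.1
      refine (mem_cocycles₁_iff (A := Rep.res L.U.subtype (QSx S)) _).2 fun g h => ?_
      show EsIncl S (c (g * h)) = (QSx S).ρ (g : GQ) (EsIncl S (c h)) + EsIncl S (c g)
      rw [h1 g h, map_add]
      rfl
    · exact IsLC₁.comp (show IsLC₁ ((levelsS S).sub L.U) c from hc.2) (EsIncl S)
  obtain ⟨t, ht⟩ := h90_QSx S L.U L.isOpen _ hc'
  have ht' : ∀ g : ↥L.U, (QSx S).ρ (g : GQ) t - t = EsIncl S (c g) := by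
    intro g
    have := congrFun ht g
    rw [← this]
    exact (d₀₁_hom_apply (A := Rep.res L.U.subtype (QSx S)) t g).symm
  refine ⟨t, fun g hg => ?_, ht'⟩
  rw [ht' ⟨g, hg⟩]
  exact (c ⟨g, hg⟩).2

/-- **P5, cohomological form: `H¹_sm(W, E)` is finite.** -/
theorem finite_H1sm_EsRep :
    Finite (H1sm ((levelsS S).sub L.U) (Rep.res L.U.subtype (EsRep S))) := by
  classical
  obtain ⟨Φ, hΦ⟩ := finA_exists_class L
  have key : ∀ c : ↥(Z1 ((levelsS S).sub L.U) (Rep.res L.U.subtype (EsRep S))),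
      ∃ t ∈ L.TU, ∀ g : ↥L.U, (QSx S).ρ (g : GQ) t - t = EsIncl S ((c : ↥L.U → EsRep S) g) :=
    fun c => finA_exists_TU L c.1 c.2
  choose T hT hTc using key
  refine Finite.of_injective
    (fun x : H1sm ((levelsS S).sub L.U) (Rep.res L.U.subtype (EsRep S)) =>
      Φ (T (Quotient.out x))) ?_
  intro x y hxy
  obtain ⟨a, ha⟩ := hΦ _ (hT (Quotient.out x)) _ (hT (Quotient.out y)) hxy
  have hq : (Submodule.Quotient.mk (Quotient.out x) :
      H1sm ((levelsS S).sub L.U) (Rep.res L.U.subtype (EsRep S))) =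
      Submodule.Quotient.mk (Quotient.out y) := by
    rw [Submodule.Quotient.eq]
    refine ⟨⟨_, ha⟩, ?_⟩
    funext g
    apply subIncl_injective (QSx S) (sUnitsAdd S) (sUnitsAdd_stable S)
    have h1 := hTc (Quotient.out x) g
    have h2 := hTc (Quotient.out y) g
    have h3 : (QSx S).ρ (g : GQ) (L.toQS a) = L.toQS a := L.toQS_fixed a g g.2
    show (QSx S).ρ (g : GQ) (T (Quotient.out x) - T (Quotient.out y) - L.toQS a)
        - (T (Quotient.out x) - T (Quotient.out y) - L.toQS a)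
      = EsIncl S (((Quotient.out x : ↥(Z1 _ _)) : ↥L.U → EsRep S) g)
        - EsIncl S (((Quotient.out y : ↥(Z1 _ _)) : ↥L.U → EsRep S) g)
    rw [← h1, ← h2, map_sub, map_sub, h3]
    abel
  have hx : (Submodule.Quotient.mk (Quotient.out x) :
      H1sm ((levelsS S).sub L.U) (Rep.res L.U.subtype (EsRep S))) = x := Quotient.out_eq x
  have hy : (Submodule.Quotient.mk (Quotient.out y) :
      H1sm ((levelsS S).sub L.U) (Rep.res L.U.subtype (EsRep S))) = y := Quotient.out_eq y
  rw [← hx, ← hy, hq]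

end Level

end Fermat.Agent.S56.EC
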