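import Fermat.Agent.S56.W2.EC.Cyclic.KummerR
import Fermat.Agent.S56.W2.EC.Cyclic.FinA

/-!
# S56 / W2 / EC / Cyclic / KummerA : the map `R_W → A[p]`, `A = T_W / (E + Fˣ)`
(seat CY-K = N1 of the cyclic case; helper86)

* `L.AQ = ↥L.TU ⧸ (sUnitsAdd S ⊔ L.Fx).addSubgroupOf L.TU` : the group `A ≅ H¹(W, E)`
  (finite: helper14's `finA_finite_quot`);
* `L.kumAlpha hp : ↥(L.RW p) →+ L.AQ`, `t ↦ [t]`;
  `nsmul_kumAlpha` (values in `A[p]`), `kumAlpha_eq_zero_iff` (kernel `(R_W ∩ E) + Fˣ`),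
  `exists_kumAlpha_eq` (onto `A[p]`), `kumAlpha_ρ` (equivariance for the normaliser of `W`).
-/

set_option autoImplicit false
set_option linter.unusedSectionVars false

open CategoryTheory groupCohomology ExtCitation

namespace Fermat.Agent.F4

namespace OpenS

variable {S : Finset Nat.Primes} (L : OpenS S) {p : ℕ}

/-- `E + Fˣ`. -/
noncomputable def EF : AddSubgroup (QSx S) := sUnitsAdd S ⊔ L.Fx

lemma sUnitsAdd_le_EF : sUnitsAdd S ≤ L.EF := le_sup_left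

lemma Fx_le_EF : L.Fx ≤ L.EF := le_sup_right

lemma EF_le_TU : L.EF ≤ L.TU := by
  refine sup_le L.sUnitsAdd_le_TU ?_
  rintro _ ⟨a, rfl⟩
  exact L.toQS_mem_TU a

/-- `E + Fˣ` is stable under the normaliser of `W`. -/
lemma EF_stable (u : GQ) (hu : u ∈ Subgroup.normalizer (L.U : Set GQ)) (t : QSx S)
    (ht : t ∈ L.EF) : (QSx S).ρ u t ∈ L.EF := by
  obtain ⟨e, he, a, ha, rfl⟩ := AddSubgroup.mem_sup.1 ht
  rw [map_add]
  exact AddSubgroup.add_mem _ (L.sUnitsAdd_le_EF (sUnitsAdd_stable S u e he))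
    (L.Fx_le_EF (L.Fx_stable u hu a ha))

/-- `T_W` is stable under the normaliser of `W`. -/
lemma TU_stable (u : GQ) (hu : u ∈ Subgroup.normalizer (L.U : Set GQ)) (t : QSx S)
    (ht : t ∈ L.TU) : (QSx S).ρ u t ∈ L.TU := L.ρ_mem_TU ht u hu

/-- `A = T_W / (E + Fˣ)` (`≅ H¹(W, E)`, a subgroup of the `S`-class group of `F`). -/
abbrev AQ : Type := ↥L.TU ⧸ L.EF.addSubgroupOf L.TU

instance finite_AQ : Finite L.AQ :=
  Fermat.Agent.S56.EC.finA_finite_quot L L.EF L.sUnitsAdd_le_EF fun a => L.Fx_le_EF ⟨a, rfl⟩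

/-- The class in `A` of an element of `T_W`. -/
noncomputable def clsA : ↥L.TU →+ L.AQ := QuotientAddGroup.mk' _

lemma clsA_surjective : Function.Surjective L.clsA := QuotientAddGroup.mk'_surjective _

lemma clsA_eq_zero_iff (t : ↥L.TU) : L.clsA t = 0 ↔ (t : QSx S) ∈ L.EF := by
  unfold clsA
  rw [QuotientAddGroup.mk'_apply, QuotientAddGroup.eq_zero_iff, AddSubgroup.mem_addSubgroupOf]

/-- The map `R_W → A`, `t ↦ [t]`. -/
noncomputable def kumAlpha (hp : p ≠ 0) : ↥(L.RW p) →+ L.AQ :=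
  L.clsA.comp (AddSubgroup.inclusion (L.RW_le_TU hp))

lemma kumAlpha_apply (hp : p ≠ 0) (t : ↥(L.RW p)) :
    L.kumAlpha hp t = L.clsA ⟨(t : QSx S), L.RW_le_TU hp t.2⟩ := rfl

/-- The image of `R_W` lies in `A[p]`. -/
lemma nsmul_kumAlpha (hp : p ≠ 0) (t : ↥(L.RW p)) : p • L.kumAlpha hp t = 0 := by
  rw [← map_nsmul, kumAlpha_apply, clsA_eq_zero_iff]
  exact L.Fx_le_EF t.2

/-- The kernel of `R_W → A` is `(R_W ∩ E) + Fˣ`. -/
lemma kumAlpha_eq_zero_iff (hp : p ≠ 0) (t : ↥(L.RW p)) :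
    L.kumAlpha hp t = 0 ↔ (t : QSx S) ∈ L.RE p ⊔ L.Fx := by
  rw [kumAlpha_apply, clsA_eq_zero_iff, ← L.RW_inf_sup p]
  exact ⟨fun h => ⟨t.2, h⟩, fun h => h.2⟩

/-- `R_W → A[p]` is onto. -/
lemma exists_kumAlpha_eq [Fact p.Prime] (hpS : pPrime p ∈ S) (hp : p ≠ 0) (a : L.AQ)
    (ha : p • a = 0) : ∃ t : ↥(L.RW p), L.kumAlpha hp t = a := by
  obtain ⟨t, rfl⟩ := L.clsA_surjective a
  rw [← map_nsmul, clsA_eq_zero_iff] at ha
  obtain ⟨t₁, ht₁, e, he, hte⟩ := AddSubgroup.mem_sup.1 (L.mem_RW_sup_of_nsmul_mem hpS ha)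
  refine ⟨⟨t₁, ht₁⟩, ?_⟩
  rw [kumAlpha_apply]
  have h0 : L.clsA (t - ⟨t₁, L.RW_le_TU hp ht₁⟩) = 0 := by
    rw [clsA_eq_zero_iff]
    show (t : QSx S) - t₁ ∈ L.EF
    rw [← hte, add_sub_cancel_left]
    exact L.sUnitsAdd_le_EF he
  rw [map_sub, sub_eq_zero] at h0
  exact h0.symm

end OpenS

end Fermat.Agent.F4
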