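import Fermat.Agent.S56.W2.EC.Cyclic.Setup
import Fermat.Agent.S56.W2.EC.Cyclic.KummerA

/-!
# S56 / W2 / EC / Cyclic / AObj : the `Γ`-module `A = T_W / (E + Fˣ)` of the cyclic case
(seat CY-K = N1; helper86)

* `OpenS.actTU u hu`, `OpenS.actAQ u hu` : the action of `u ∈ N_{G_ℚ}(W)` on `T_W` and on
  `A = L.AQ` (`KummerA.lean`); `actAQ_clsA`, `actAQ_of_mem` (`W` acts trivially);
* `𝒮.A : Type` (`= 𝒮.L.AQ`), a finite abelian group with an action of `𝒮.Γ`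
  (instances `AddCommGroup`, `Finite`, `DistribMulAction 𝒮.Γ`);
* `𝒮.clsA : ↥𝒮.L.TU →+ 𝒮.A` : the class; `clsA_surjective`, `clsA_eq_zero_iff` (kernel `E + Fˣ`),
  `proj_smul_clsA` : `𝒮.proj u • 𝒮.clsA t = 𝒮.clsA (u t)`.
-/

set_option autoImplicit false
set_option linter.unusedSectionVars false

noncomputable section

open CategoryTheory groupCohomology ExtCitation

namespace Fermat.Agent.F4

namespace OpenS

variable {S : Finset Nat.Primes} (L : OpenS S)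

/-- The action of `u ∈ N(W)` on `T_W`. -/
def actTU (u : GQ) (hu : u ∈ Subgroup.normalizer (L.U : Set GQ)) : ↥L.TU →+ ↥L.TU where
  toFun t := ⟨(QSx S).ρ u (t : QSx S), L.TU_stable u hu _ t.2⟩
  map_zero' := Subtype.ext (by
    show (QSx S).ρ u ((0 : ↥L.TU) : QSx S) = 0
    rw [AddSubgroup.coe_zero, map_zero])
  map_add' a b := Subtype.ext (by
    show (QSx S).ρ u ((a + b : ↥L.TU) : QSx S) = (QSx S).ρ u (a : QSx S) + (QSx S).ρ u (b : QSx S)
    rw [AddSubgroup.coe_add, map_add])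

@[simp] lemma actTU_coe (u : GQ) (hu : u ∈ Subgroup.normalizer (L.U : Set GQ)) (t : ↥L.TU) :
    ((L.actTU u hu t : ↥L.TU) : QSx S) = (QSx S).ρ u (t : QSx S) := rfl

/-- The action of `u ∈ N(W)` on `A = T_W / (E + Fˣ)`. -/
def actAQ (u : GQ) (hu : u ∈ Subgroup.normalizer (L.U : Set GQ)) : L.AQ →+ L.AQ :=
  QuotientAddGroup.map _ _ (L.actTU u hu) (fun t ht => by
    rw [AddSubgroup.mem_comap, AddSubgroup.mem_addSubgroupOf]
    rw [AddSubgroup.mem_addSubgroupOf] at ht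
    exact L.EF_stable u hu _ ht)

lemma actAQ_clsA (u : GQ) (hu : u ∈ Subgroup.normalizer (L.U : Set GQ)) (t : ↥L.TU) :
    L.actAQ u hu (L.clsA t) = L.clsA (L.actTU u hu t) := rfl

/-- `W` acts trivially on `A`. -/
lemma actAQ_of_mem (u : GQ) (hu : u ∈ Subgroup.normalizer (L.U : Set GQ)) (huW : u ∈ L.U)
    (a : L.AQ) : L.actAQ u hu a = a := by
  obtain ⟨t, rfl⟩ := L.clsA_surjective a
  rw [actAQ_clsA, ← sub_eq_zero]
  have h : L.clsA (L.actTU u hu t) - L.clsA t = L.clsA (L.actTU u hu t - t) :=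
    (map_sub L.clsA _ _).symm
  rw [h, clsA_eq_zero_iff]
  exact L.sUnitsAdd_le_EF (t.2 u huW)

lemma actAQ_one (hu : (1 : GQ) ∈ Subgroup.normalizer (L.U : Set GQ)) (a : L.AQ) :
    L.actAQ 1 hu a = a := by
  obtain ⟨t, rfl⟩ := L.clsA_surjective a
  rw [actAQ_clsA]
  have e : L.actTU 1 hu t = t := by
    apply Subtype.ext
    rw [actTU_coe, map_one]
    rfl
  rw [e]

lemma actAQ_mul (u v : GQ) (hu : u ∈ Subgroup.normalizer (L.U : Set GQ))
    (hv : v ∈ Subgroup.normalizer (L.U : Set GQ))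
    (huv : u * v ∈ Subgroup.normalizer (L.U : Set GQ)) (a : L.AQ) :
    L.actAQ (u * v) huv a = L.actAQ u hu (L.actAQ v hv a) := by
  obtain ⟨t, rfl⟩ := L.clsA_surjective a
  rw [actAQ_clsA, actAQ_clsA, actAQ_clsA]
  have e : L.actTU (u * v) huv t = L.actTU u hu (L.actTU v hv t) := by
    apply Subtype.ext
    rw [actTU_coe, actTU_coe, actTU_coe, map_mul]
    rfl
  rw [e]

end OpenS

end Fermat.Agent.F4

namespace Fermat.Agent.S56.EC

open Fermat.Agent.F4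

namespace CycSetup

variable {p : ℕ} [Fact p.Prime] {S : Finset Nat.Primes} (𝒮 : CycSetup p S)

/-- Every element of `G_ℚ` normalises `W`. -/
lemma mem_normalizer (u : GQ) : u ∈ Subgroup.normalizer (𝒮.L.U : Set GQ) := by
  have h : Subgroup.normalizer ((𝒮.W : Subgroup GQ) : Set GQ) = ⊤ :=
    Subgroup.normalizer_eq_top_iff.2 𝒮.normal_W
  show u ∈ Subgroup.normalizer ((𝒮.W : Subgroup GQ) : Set GQ)
  rw [h]
  exact Subgroup.mem_top u

/-- The action of `U` on `A`. -/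
def actAU : ↥𝒮.U →* AddMonoid.End 𝒮.L.AQ where
  toFun u := 𝒮.L.actAQ (u : GQ) (𝒮.mem_normalizer _)
  map_one' := AddMonoidHom.ext fun a => 𝒮.L.actAQ_one _ a
  map_mul' u v := AddMonoidHom.ext fun a =>
    𝒮.L.actAQ_mul (u : GQ) (v : GQ) (𝒮.mem_normalizer _) (𝒮.mem_normalizer _) _ a

/-- The action of `Γ` on `A`. -/
def actAΓ : 𝒮.Γ →* AddMonoid.End 𝒮.L.AQ :=
  QuotientGroup.lift 𝒮.N 𝒮.actAU (fun n hn => by
    rw [MonoidHom.mem_ker]
    refine AddMonoidHom.ext fun a => ?_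
    exact 𝒮.L.actAQ_of_mem (n : GQ) (𝒮.mem_normalizer _) ((𝒮.mem_N n).mp hn) a)

/-- **`A = T_W / (E + Fˣ)`** (`≅ H¹(W, E)`), a finite `Γ`-module. -/
def A : Type := 𝒮.L.AQ

instance instAddCommGroupA : AddCommGroup 𝒮.A := inferInstanceAs (AddCommGroup 𝒮.L.AQ)

instance instFiniteA : Finite 𝒮.A := inferInstanceAs (Finite 𝒮.L.AQ)

instance instActionA : DistribMulAction 𝒮.Γ 𝒮.A where
  smul γ a := 𝒮.actAΓ γ a
  one_smul a := by
    show 𝒮.actAΓ 1 a = a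
    rw [map_one]
    rfl
  mul_smul γ γ' a := by
    show 𝒮.actAΓ (γ * γ') a = 𝒮.actAΓ γ (𝒮.actAΓ γ' a)
    rw [map_mul]
    rfl
  smul_zero γ := map_zero (𝒮.actAΓ γ)
  smul_add γ a b := map_add (𝒮.actAΓ γ) a b

/-- The class in `A` of an element of `T_W`. -/
def clsA : ↥𝒮.L.TU →+ 𝒮.A := 𝒮.L.clsA

lemma clsA_surjective : Function.Surjective 𝒮.clsA := 𝒮.L.clsA_surjective

lemma clsA_eq_zero_iff (t : ↥𝒮.L.TU) : 𝒮.clsA t = 0 ↔ (t : QSx S) ∈ 𝒮.L.EF :=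
  𝒮.L.clsA_eq_zero_iff t

/-- Equivariance of the class map. -/
lemma proj_smul_clsA (u : ↥𝒮.U) (t : ↥𝒮.L.TU) :
    𝒮.proj u • 𝒮.clsA t = 𝒮.clsA (𝒮.L.actTU (u : GQ) (𝒮.mem_normalizer _) t) := rfl

lemma proj_smul_clsA' (u : ↥𝒮.U) (t t' : ↥𝒮.L.TU)
    (h : (t' : QSx S) = (QSx S).ρ (u : GQ) (t : QSx S)) :
    𝒮.clsA t' = 𝒮.proj u • 𝒮.clsA t := by
  rw [proj_smul_clsA]
  congr 1
  exact Subtype.ext h

end CycSetup

end Fermat.Agent.S56.EC
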