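import Fermat.Agent.S56.W2.EC.Cyclic.KummerK0

/-!
# S56 / W2 / EC / Cyclic / KummerK0Q : the Kummer sequence in `K₀`, universal form over a quotient
(seat CY-K = N1 of the cyclic case; helper86)

Same as `kummer_universal` (`KummerK0.lean`), for modules over a quotient `qH : H ↠ C` of the group
`H` which acts on `(ℚ_S)ˣ` through `r : H →* G_ℚ` (application: `H = ↥U`, `C = Γ = U ⧸ W`,
`qH = 𝒮.proj`, `r = U.subtype`).
-/

set_option autoImplicit false
set_option linter.unusedSectionVars false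

open CategoryTheory groupCohomology ExtCitation

namespace Fermat.Agent.S56.EC

open Fermat.Agent.F4

variable {S : Finset Nat.Primes} (L : OpenS S) {p : ℕ} [Fact p.Prime] {C : Type} [Group C]

/-- **The Kummer sequence in `K₀`, universal form**, for a quotient `qH : H ↠ C` of a group
`H` acting through `r : H →* G_ℚ` (in the application `H = ↥U`, `C = Γ = U ⧸ W`). -/
theorem kummer_universalQ (hpS : pPrime p ∈ S)
    (hμ : ∀ g ∈ L.U, ∀ t : AlgebraicClosure ℚ, t ^ p = 1 → g t = t)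
    {H : Type} [Group H] (qH : H →* C) (hqH : Function.Surjective qH)
    (r : H →* GQ) (hstab : ∀ c : H, r c ∈ Subgroup.normalizer (L.U : Set GQ))
    (Hobj Eobj Aobj : FinCMod p C)
    (κ : ↥(L.RW p) →+ Hobj.carrier) (hκs : Function.Surjective κ)
    (hκk : ∀ t : ↥(L.RW p), κ t = 0 ↔ (t : QSx S) ∈ L.Fx)
    (hκe : ∀ (c : H) (t t' : ↥(L.RW p)), (t' : QSx S) = (QSx S).ρ (r c) t → κ t' = qH c • κ t)
    (πE : ↥L.EW →+ Eobj.carrier) (hπs : Function.Surjective πE)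
    (hπk : ∀ e : ↥L.EW, πE e = 0 ↔ ∃ e' ∈ L.EW, p • e' = (e : QSx S))
    (hπe : ∀ (c : H) (e e' : ↥L.EW), (e' : QSx S) = (QSx S).ρ (r c) e → πE e' = qH c • πE e)
    (α : ↥(L.RW p) →+ Aobj.carrier) (hαs : Function.Surjective α)
    (hαk : ∀ t : ↥(L.RW p), α t = 0 ↔ (t : QSx S) ∈ L.RE p ⊔ L.Fx)
    (hαe : ∀ (c : H) (t t' : ↥(L.RW p)), (t' : QSx S) = (QSx S).ρ (r c) t → α t' = qH c • α t)
    {d : FinCMod p C → ℤ} (hd : IsAdditive d) : d Hobj = d Eobj + d Aobj := by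
  have hp : p.Prime := Fact.out
  -- the two maps out of `R_W ∩ E`
  let incl : ↥(L.RE p) →+ ↥(L.RW p) := AddSubgroup.inclusion inf_le_left
  have hincl : ∀ t : ↥(L.RE p), ((incl t : ↥(L.RW p)) : QSx S) = (t : QSx S) := fun _ => rfl
  let fE : ↥(L.RE p) →+ Eobj.carrier := πE.comp (kumMulP L p)
  let gE : ↥(L.RE p) →+ Hobj.carrier := κ.comp incl
  have hfE : Function.Surjective fE := hπs.comp (kumMulP_surjective L hpS)
  have hfE0 : ∀ t : ↥(L.RE p), fE t = 0 ↔ (t : QSx S) ∈ L.EW := by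
    intro t
    show πE (kumMulP L p t) = 0 ↔ _
    rw [hπk]
    constructor
    · rintro ⟨e', he', h⟩
      exact L.mem_EW_of_nsmul_eq hμ t.2.2 he' h.symm
    · intro h
      exact ⟨(t : QSx S), h, rfl⟩
  have hker : fE.ker ≤ gE.ker := by
    intro t ht
    rw [AddMonoidHom.mem_ker] at ht ⊢
    show κ (incl t) = 0
    rw [hκk, hincl]
    exact ((hfE0 t).1 ht).2
  let i : Eobj.carrier →+ Hobj.carrier := fE.liftOfSurjective hfE ⟨gE, hker⟩
  have hi : ∀ t : ↥(L.RE p), i (fE t) = κ (incl t) := fun t =>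
    AddMonoidHom.liftOfRightInverse_comp_apply _ _ _ ⟨gE, hker⟩ t
  -- the map `Hobj → Aobj`
  have hker' : κ.ker ≤ α.ker := by
    intro t ht
    rw [AddMonoidHom.mem_ker] at ht ⊢
    rw [hαk]
    exact AddSubgroup.mem_sup_right ((hκk t).1 ht)
  let q : Hobj.carrier →+ Aobj.carrier := κ.liftOfSurjective hκs ⟨α, hker'⟩
  have hq : ∀ t : ↥(L.RW p), q (κ t) = α t := fun t =>
    AddMonoidHom.liftOfRightInverse_comp_apply _ _ _ ⟨α, hker'⟩ t
  -- stability
  have hRE : ∀ (c : H) (t : QSx S), t ∈ L.RE p → (QSx S).ρ (r c) t ∈ L.RE p := fun c t ht =>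
    ⟨L.RW_stable p (r c) (hstab c) t ht.1, sUnitsAdd_stable S (r c) t ht.2⟩
  refine hd Eobj Hobj Aobj i q ?_ ?_ ?_ ?_ ?_
  · -- `i` equivariant
    intro c' x
    obtain ⟨c, rfl⟩ := hqH c'
    obtain ⟨t, rfl⟩ := hfE x
    let t' : ↥(L.RE p) := ⟨(QSx S).ρ (r c) (t : QSx S), hRE c _ t.2⟩
    have h1 : fE t' = qH c • fE t := by
      show πE (kumMulP L p t') = qH c • πE (kumMulP L p t)
      refine hπe c _ _ ?_
      show p • (QSx S).ρ (r c) (t : QSx S) = (QSx S).ρ (r c) (p • (t : QSx S))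
      rw [map_nsmul]
    rw [← h1, hi, hi]
    exact hκe c _ _ rfl
  · -- `q` equivariant
    intro c' h
    obtain ⟨c, rfl⟩ := hqH c'
    obtain ⟨t, rfl⟩ := hκs h
    let t' : ↥(L.RW p) := ⟨(QSx S).ρ (r c) (t : QSx S), L.RW_stable p (r c) (hstab c) _ t.2⟩
    have h1 : κ t' = qH c • κ t := hκe c _ _ rfl
    rw [← h1, hq, hq]
    exact hαe c _ _ rfl
  · -- `i` injective
    rw [injective_iff_map_eq_zero]
    intro x hx
    obtain ⟨t, rfl⟩ := hfE x
    rw [hi, hκk, hincl] at hx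
    exact (hfE0 t).2 ⟨t.2.2, hx⟩
  · -- `q` surjective
    intro a
    obtain ⟨t, rfl⟩ := hαs a
    exact ⟨κ t, hq t⟩
  · -- exactness
    intro h
    obtain ⟨t, rfl⟩ := hκs h
    rw [hq, hαk]
    constructor
    · intro ht
      obtain ⟨t₁, ht₁, a, ha, hta⟩ := AddSubgroup.mem_sup.1 ht
      refine ⟨fE ⟨t₁, ht₁⟩, ?_⟩
      rw [hi]
      have h0 : κ (t - incl ⟨t₁, ht₁⟩) = 0 := by
        rw [hκk]
        show (t : QSx S) - t₁ ∈ L.Fx
        rw [← hta, add_sub_cancel_left]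
        exact ha
      rw [map_sub, sub_eq_zero] at h0
      exact h0.symm
    · rintro ⟨x, hx⟩
      obtain ⟨t₁, rfl⟩ := hfE x
      rw [hi] at hx
      have h0 : κ (t - incl t₁) = 0 := by rw [map_sub, hx, sub_self]
      rw [hκk] at h0
      have e : (t : QSx S) = (t₁ : QSx S) + ((t : QSx S) - (t₁ : QSx S)) := by abel
      rw [e]
      exact AddSubgroup.add_mem _ (AddSubgroup.mem_sup_left t₁.2) (AddSubgroup.mem_sup_right h0)

end Fermat.Agent.S56.EC
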