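import Fermat.Agent.S56.W2.EC.Cyclic.KummerR
import Fermat.Agent.F4.Cf.RecipDefs

/-!
# S56 / W2 / EC / Cyclic / KummerLog : the Kummer symbol with values in `𝔽_p`
(seat CY-K = N1 of the cyclic case; helper86)

`φ : Fp1 p →+ EsRep S` a root map (`IsRootMap φ`: injective, equivariant, onto `E[p]`).

* `kumLog φ x` : the logarithm of `x ∈ (ℚ_S)ˣ[p]` with respect to `φ` (`0` outside `(ℚ_S)ˣ[p]`);
  `kumLog_spec`, `kumLog_add`, `kumLog_ρ` (`kumLog (g x) = ω(g) * kumLog x`), `kumLog_eq_zero_iff`;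
* `kumZ φ t g = kumLog φ (kum t g)` : the `𝔽_p`-valued Kummer symbol;
  `kumZ_add` (additive in `t ∈ R_W`), `kumZ_mul` (a homomorphism on `W`), `kumZ_smooth`,
  `kumZ_eq_zero_iff` (kernel `Fˣ`), `kumZ_conj` (`kumZ (u t) (u g u⁻¹) = ω(u) * kumZ t g`),
  `exists_kumZ_eq` (**surjectivity** onto the smooth homomorphisms `W → 𝔽_p`).
-/

set_option autoImplicit false
set_option linter.unusedSectionVars false

open CategoryTheory groupCohomology ExtCitation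

namespace Fermat.Agent.F4

open Fermat.Agent.F4Cf

variable {S : Finset Nat.Primes} {p : ℕ} [Fact p.Prime]

/-- The logarithm `(ℚ_S)ˣ[p] → 𝔽_p` attached to a root map. -/
noncomputable def kumLog (φ : Fp1 p →+ EsRep S) (x : QSx S) : ZMod p :=
  open Classical in
  if h : ∃ z : Fp1 p, ((φ z : EsRep S) : QSx S) = x then (h.choose : ZMod p) else 0

section Log

variable {φ : Fp1 p →+ EsRep S} (hφ : IsRootMap φ)

include hφ

lemma kumLog_apply (z : Fp1 p) : kumLog φ ((φ z : EsRep S) : QSx S) = (z : ZMod p) := by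
  have h : ∃ z' : Fp1 p, ((φ z' : EsRep S) : QSx S) = ((φ z : EsRep S) : QSx S) := ⟨z, rfl⟩
  unfold kumLog
  rw [dif_pos h]
  exact hφ.inj (Subtype.ext h.choose_spec)

lemma exists_eq_of_nsmul_eq_zero {x : QSx S} (hx : p • x = 0) :
    ∃ z : Fp1 p, ((φ z : EsRep S) : QSx S) = x := by
  have hp : p.Prime := Fact.out
  have hxE : x ∈ sUnitsAdd S := OpenS.mem_sUnitsAdd_of_nsmul_eq_zero hp.ne_zero hx
  have h0 : (p : ℤ) • (⟨x, hxE⟩ : EsRep S) = 0 := by
    apply Subtype.ext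
    show (p : ℤ) • x = 0
    rw [natCast_zsmul, hx]
  obtain ⟨z, hz⟩ := hφ.surj _ h0
  exact ⟨z, congrArg Subtype.val hz⟩

lemma kumLog_spec {x : QSx S} (hx : p • x = 0) :
    ((φ (kumLog φ x : Fp1 p) : EsRep S) : QSx S) = x := by
  obtain ⟨z, rfl⟩ := exists_eq_of_nsmul_eq_zero hφ hx
  rw [kumLog_apply hφ]

lemma kumLog_zero : kumLog φ (0 : QSx S) = 0 := by
  have h := kumLog_apply hφ (0 : Fp1 p)
  rw [map_zero] at h
  exact h

lemma kumLog_add {x y : QSx S} (hx : p • x = 0) (hy : p • y = 0) :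
    kumLog φ (x + y) = kumLog φ x + kumLog φ y := by
  obtain ⟨z, rfl⟩ := exists_eq_of_nsmul_eq_zero hφ hx
  obtain ⟨z', rfl⟩ := exists_eq_of_nsmul_eq_zero hφ hy
  have e : ((φ z : EsRep S) : QSx S) + ((φ z' : EsRep S) : QSx S) =
      ((φ (z + z') : EsRep S) : QSx S) := by
    rw [map_add]
    rfl
  rw [e, kumLog_apply hφ, kumLog_apply hφ, kumLog_apply hφ]

lemma kumLog_eq_zero_iff {x : QSx S} (hx : p • x = 0) : kumLog φ x = 0 ↔ x = 0 := by
  constructor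
  · intro h
    have := kumLog_spec hφ hx
    rw [h] at this
    rw [← this]
    show ((φ (0 : Fp1 p) : EsRep S) : QSx S) = 0
    rw [map_zero]
    rfl
  · rintro rfl
    exact kumLog_zero hφ

/-- Equivariance of the logarithm: `log (g x) = ω(g) * log x`. -/
lemma kumLog_ρ (g : GQ) {x : QSx S} (hx : p • x = 0) :
    kumLog φ ((QSx S).ρ g x) = ((cycloChar p g : (ZMod p)ˣ) : ZMod p) * kumLog φ x := by
  obtain ⟨z, rfl⟩ := exists_eq_of_nsmul_eq_zero hφ hx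
  have e : (QSx S).ρ g ((φ z : EsRep S) : QSx S) = ((φ ((Fp1 p).ρ g z) : EsRep S) : QSx S) := by
    rw [hφ.comm]
    rfl
  rw [e, kumLog_apply hφ, kumLog_apply hφ, br_smooth_Fp1_ρ]
  rfl

end Log

/-- The `𝔽_p`-valued Kummer symbol. -/
noncomputable def kumZ (φ : Fp1 p →+ EsRep S) (t : QSx S) (g : GQ) : ZMod p :=
  kumLog φ (OpenS.kum t g)

namespace OpenS

variable (L : OpenS S) {φ : Fp1 p →+ EsRep S} (hφ : IsRootMap φ)

include hφ

lemma kumZ_add {t t' : QSx S} (ht : t ∈ L.RW p) (ht' : t' ∈ L.RW p) {g : GQ} (hg : g ∈ L.U) :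
    kumZ φ (t + t') g = kumZ φ t g + kumZ φ t' g := by
  unfold kumZ
  rw [kum_add, kumLog_add hφ (L.kum_p_smul ht hg) (L.kum_p_smul ht' hg)]

lemma kumZ_mul (hμ : ∀ g ∈ L.U, ∀ t : AlgebraicClosure ℚ, t ^ p = 1 → g t = t)
    {t : QSx S} (ht : t ∈ L.RW p) {g h : GQ} (hg : g ∈ L.U) (hh : h ∈ L.U) :
    kumZ φ t (g * h) = kumZ φ t g + kumZ φ t h := by
  unfold kumZ
  rw [L.kum_mul hμ ht hg hh, kumLog_add hφ (L.kum_p_smul ht hg) (L.kum_p_smul ht hh)]

lemma kumZ_eq_zero_iff {t : QSx S} (ht : t ∈ L.RW p) :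
    (∀ g ∈ L.U, kumZ φ t g = 0) ↔ t ∈ L.Fx := by
  rw [← L.kum_eq_zero_iff]
  refine forall₂_congr fun g hg => ?_
  unfold kumZ
  exact kumLog_eq_zero_iff hφ (L.kum_p_smul ht hg)

lemma kumZ_smooth (t : QSx S) : ∃ V ∈ (levelsS S).sets, ∀ g ∈ V, kumZ φ t g = 0 := by
  obtain ⟨V, hV, h⟩ := kum_smooth t
  refine ⟨V, hV, fun g hg => ?_⟩
  unfold kumZ
  rw [h g hg]
  exact kumLog_zero hφ

/-- Equivariance: `kumZ (u t) (u g u⁻¹) = ω(u) * kumZ t g`. -/
lemma kumZ_conj {t : QSx S} (ht : t ∈ L.RW p) (u : GQ) {g : GQ} (hg : g ∈ L.U) :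
    kumZ φ ((QSx S).ρ u t) (u * g * u⁻¹) =
      ((cycloChar p u : (ZMod p)ˣ) : ZMod p) * kumZ φ t g := by
  unfold kumZ
  rw [kum_conj, kumLog_ρ hφ u (L.kum_p_smul ht hg)]

/-- **Surjectivity**: every smooth homomorphism `f : W → 𝔽_p` is the symbol of some
`t ∈ R_W`. -/
theorem exists_kumZ_eq (hμ : ∀ g ∈ L.U, ∀ t : AlgebraicClosure ℚ, t ^ p = 1 → g t = t)
    (f : GQ → ZMod p) (hmul : ∀ g ∈ L.U, ∀ h ∈ L.U, f (g * h) = f g + f h)
    (hsm : ∃ V ∈ (levelsS S).sets, ∀ g ∈ V, g ∈ L.U → f g = 0) :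
    ∃ t ∈ L.RW p, ∀ g ∈ L.U, f g = kumZ φ t g := by
  have hp : p.Prime := Fact.out
  let χ : GQ → QSx S := fun g => ((φ (f g : Fp1 p) : EsRep S) : QSx S)
  have hχp : ∀ g, p • χ g = 0 := by
    intro g
    have h1 : (p : ℤ) • (φ (f g : Fp1 p) : EsRep S) = 0 := by
      rw [← map_zsmul]
      have : (p : ℤ) • (f g : Fp1 p) = 0 := by
        show (p : ℤ) • (f g : ZMod p) = 0
        rw [zsmul_eq_mul]
        have : ((p : ℤ) : ZMod p) = 0 := by
          rw [Int.cast_natCast]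
          exact ZMod.natCast_self p
        rw [this, zero_mul]
      rw [this, map_zero]
    have h2 := congrArg (fun z : EsRep S => (z : QSx S)) h1
    beta_reduce at h2
    rw [← natCast_zsmul]
    exact h2
  obtain ⟨t, ht, hk⟩ := L.exists_kum_eq hμ χ (fun g hg h hh => by
      show ((φ (f (g * h) : Fp1 p) : EsRep S) : QSx S) = _
      rw [hmul g hg h hh, map_add]
      rfl) (fun g _ => hχp g) (by
      obtain ⟨V, hV, h⟩ := hsm
      refine ⟨V, hV, fun g hg hgU => ?_⟩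
      show ((φ (f g : Fp1 p) : EsRep S) : QSx S) = 0
      rw [h g hg hgU, map_zero]
      rfl)
  refine ⟨t, ht, fun g hg => ?_⟩
  unfold kumZ
  rw [← hk g hg]
  exact (kumLog_apply hφ _).symm

end OpenS

end Fermat.Agent.F4
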