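import Fermat.Agent.S56.W2.EC.Cyclic.KummerR
import Fermat.Agent.S14.SI.SUnitRankZ
import Fermat.Agent.S56.W2.EC.UnitLog

/-!
# S56 / W2 / EC / Cyclic / UnitBridge : `E^W` is the group of `T`-units of `F`
(seat CY-U = N6 of the cyclic case, the units bridge; helper86, spec of helper54)

`L : OpenS S`, `F = L.field`, `T = L.T` the primes of `F` over `S`.

* `OpenS.toQS_mem_sUnitsAdd_iff` : `a ∈ Fˣ` is an `S`-unit of `ℚ_S` iff it is a `T`-unit of `F`
  (`a ∈ S14SI.sUnits F T`);
* `cyT L : GalStableSet L.field`, carrier `= ↑L.T` (`cyT_carrier`, by `rfl`);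
* `cyBeta L : Additive ↥(sUnits L.field (cyT L).carrier) →+ QSx S`, `a ↦ L.toQS a`
  (`cyBeta_apply`), injective (`cyBeta_injective`), with range
  `{t ∈ sUnitsAdd S | ∀ g ∈ L.U, ρ g t = t} = L.EW` (`mem_range_cyBeta_iff`, `range_cyBeta`);
* `cyBeta_galU` : `ρ u (cyBeta L a) = cyBeta L (galU (cyT L) (u|_F) a)` for `F/ℚ` normal;
* `cyUnitsEquiv L : Additive ↥(sUnits L.field (cyT L).carrier) ≃+ ↥L.EW`;
* `OpenS.moduleFinite_EW` : `E^W` is a finitely generated abelian group (the `S`-unit theorem).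
-/

set_option autoImplicit false
set_option linter.unusedSectionVars false

open CategoryTheory groupCohomology ExtCitation
open NumberField IsDedekindDomain

namespace Fermat.Agent.F4

namespace OpenS

variable {S : Finset Nat.Primes} (L : OpenS S)

/-- `a ∈ Fˣ` is an `S`-unit of `ℚ_S` iff it is a `T`-unit of `F`. -/
theorem toQS_mem_sUnitsAdd_iff (a : (L.field)ˣ) :
    L.toQS a ∈ sUnitsAdd S ↔
      a ∈ S14SI.sUnits L.field (L.T : Set (HeightOneSpectrum (𝓞 L.field))) := by
  have hdiv := L.capit_isDivS_toQS a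
  constructor
  · intro h v hv
    have hvT : v ∉ L.T := fun h' => hv (Finset.mem_coe.2 h')
    obtain ⟨q, hq, A, hA, rfl⟩ := L.exists_primeBelowAt v hvT
    have h0 : L.IsDivS (L.toQS a) 0 := L.isDivS_of_mem_sUnitsAdd h
    have e := hdiv.eq_of_primeBelow h0 q hq A hA (L.primeBelowAt q A hA) rfl
    have e' : WithZero.log ((L.primeBelowAt q A hA).valuation L.field (a : L.field)) = 0 := by
      have : -(WithZero.log ((L.primeBelowAt q A hA).valuation L.field (a : L.field))) = 0 := e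
      exact neg_eq_zero.1 this
    have hne : (L.primeBelowAt q A hA).valuation L.field (a : L.field) ≠ 0 :=
      (Valuation.ne_zero_iff _).2 a.ne_zero
    rw [← WithZero.exp_log hne, e']
    rfl
  · intro h
    refine IsDivS.mem_sUnitsAdd (L := L) (hdiv.congr fun q A hA hq => ?_)
    have hvT : L.primeBelowAt q A hA ∉ (L.T : Set (HeightOneSpectrum (𝓞 L.field))) := fun h' =>
      L.primeBelowAt_not_mem_T q hq A hA (Finset.mem_coe.1 h')
    have h1 := h _ hvT
    show -(WithZero.log ((L.primeBelowAt q A hA).valuation L.field (a : L.field))) = 0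
    rw [h1]
    simp

end OpenS

end Fermat.Agent.F4

namespace Fermat.Agent.S56.EC

open Fermat.Agent.F4 Fermat.Agent.S14SI

variable {S : Finset Nat.Primes} (L : OpenS S)

/-- The primes of `F = L.field` over `S`, as a set of primes stable under the automorphisms
of `F`. -/
noncomputable def cyT : GalStableSet L.field where
  carrier := (L.T : Set (HeightOneSpectrum (𝓞 L.field)))
  finite := Finset.finite_toSet _
  stable := by
    intro σ v hv
    rw [Finset.mem_coe, L.mem_T] at hv ⊢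
    obtain ⟨q, hq, hqv⟩ := hv
    refine ⟨q, hq, ?_⟩
    rw [← HeightOneSpectrum.valuation_lt_one_iff_mem (K := L.field)] at hqv ⊢
    have h := galPr_valuation σ v
      (algebraMap (𝓞 L.field) L.field (((q : ℕ) : ℕ) : 𝓞 L.field))
    have e : σ (algebraMap (𝓞 L.field) L.field (((q : ℕ) : ℕ) : 𝓞 L.field)) =
        algebraMap (𝓞 L.field) L.field (((q : ℕ) : ℕ) : 𝓞 L.field) := by
      rw [map_natCast, map_natCast]
    rw [e] at h
    rw [h]
    exact hqv

@[simp] lemma cyT_carrier :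
    (cyT L).carrier = (L.T : Set (HeightOneSpectrum (𝓞 L.field))) := rfl

/-- `E_T(F) → (ℚ_S)ˣ`, `a ↦ a`. -/
noncomputable def cyBeta : Additive ↥(sUnits L.field (cyT L).carrier) →+ QSx S where
  toFun u := L.toQS ((Additive.toMul u : ↥(sUnits L.field (cyT L).carrier)) : (L.field)ˣ)
  map_zero' := L.toQS_one
  map_add' a b := L.toQS_mul _ _

lemma cyBeta_apply (u : Additive ↥(sUnits L.field (cyT L).carrier)) :
    cyBeta L u =
      L.toQS ((Additive.toMul u : ↥(sUnits L.field (cyT L).carrier)) : (L.field)ˣ) := rfl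

lemma cyBeta_ofMul (a : ↥(sUnits L.field (cyT L).carrier)) :
    cyBeta L (Additive.ofMul a) = L.toQS (a : (L.field)ˣ) := rfl

lemma cyBeta_injective : Function.Injective (cyBeta L) := by
  intro a b h
  have h2 := L.toQS_injective h
  exact Additive.toMul.injective (Subtype.ext h2)

lemma cyBeta_mem_sUnitsAdd (u : Additive ↥(sUnits L.field (cyT L).carrier)) :
    cyBeta L u ∈ sUnitsAdd S :=
  (L.toQS_mem_sUnitsAdd_iff _).2 (Additive.toMul u).2

lemma cyBeta_fixed (u : Additive ↥(sUnits L.field (cyT L).carrier)) (g : GQ) (hg : g ∈ L.U) :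
    (QSx S).ρ g (cyBeta L u) = cyBeta L u :=
  L.toQS_fixed _ g hg

lemma cyBeta_mem_EW (u : Additive ↥(sUnits L.field (cyT L).carrier)) : cyBeta L u ∈ L.EW :=
  ⟨cyBeta_mem_sUnitsAdd L u, L.toQS_mem_Fx _⟩

/-- The range of `cyBeta` is `E^W`. -/
lemma exists_cyBeta_eq_of_mem_EW {t : QSx S} (ht : t ∈ L.EW) :
    ∃ u : Additive ↥(sUnits L.field (cyT L).carrier), cyBeta L u = t := by
  obtain ⟨a, ha⟩ := ht.2
  have hmem : a ∈ sUnits L.field (cyT L).carrier := by
    have := (L.toQS_mem_sUnitsAdd_iff a).1 (by rw [ha]; exact ht.1)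
    exact this
  exact ⟨Additive.ofMul ⟨a, hmem⟩, ha⟩

lemma range_cyBeta : (cyBeta L).range = L.EW := by
  ext t
  constructor
  · rintro ⟨u, rfl⟩
    exact cyBeta_mem_EW L u
  · intro ht
    exact exists_cyBeta_eq_of_mem_EW L ht

/-- The range of `cyBeta` is `{t ∈ E | t fixed by W}`. -/
lemma mem_range_cyBeta_iff (t : QSx S) :
    (∃ u : Additive ↥(sUnits L.field (cyT L).carrier), cyBeta L u = t) ↔
      t ∈ sUnitsAdd S ∧ ∀ g ∈ L.U, (QSx S).ρ g t = t := by
  constructor
  · rintro ⟨u, rfl⟩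
    exact ⟨cyBeta_mem_sUnitsAdd L u, fun g hg => cyBeta_fixed L u g hg⟩
  · rintro ⟨h1, h2⟩
    exact exists_cyBeta_eq_of_mem_EW L ⟨h1, (L.mem_Fx_iff t).2 h2⟩

/-- Equivariance of `cyBeta`: `u (β a) = β (u|_F a)`. -/
lemma cyBeta_galU [Normal ℚ L.field] (u : GQ)
    (a : Additive ↥(sUnits L.field (cyT L).carrier)) :
    (QSx S).ρ u (cyBeta L a) =
      cyBeta L (galU (cyT L) (AlgEquiv.restrictNormalHom L.field u) a) := by
  apply smUnits.val_injective
  apply Units.ext
  rw [smUnits.val_ρ]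
  have h := AlgEquiv.restrictNormal_commutes u L.field
    (((Additive.toMul a : ↥(sUnits L.field (cyT L).carrier)) : (L.field)ˣ) : L.field)
  exact h.symm

/-- Equivariance of `cyBeta` for any automorphism `σ` of `F` restricting `g`. -/
lemma cyBeta_galU' (σ : L.field ≃ₐ[ℚ] L.field) (g : GQ)
    (hσ : ∀ x : L.field, ((σ x : L.field) : AlgebraicClosure ℚ) = g (x : AlgebraicClosure ℚ))
    (a : Additive ↥(sUnits L.field (cyT L).carrier)) :
    (QSx S).ρ g (cyBeta L a) = cyBeta L (galU (cyT L) σ a) := by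
  apply smUnits.val_injective
  apply Units.ext
  rw [smUnits.val_ρ]
  exact (hσ _).symm

/-- `E_T(F) → E^W`. -/
noncomputable def cyUnitsHom : Additive ↥(sUnits L.field (cyT L).carrier) →+ ↥L.EW :=
  (cyBeta L).codRestrict L.EW (cyBeta_mem_EW L)

@[simp] lemma cyUnitsHom_coe (u : Additive ↥(sUnits L.field (cyT L).carrier)) :
    ((cyUnitsHom L u : ↥L.EW) : QSx S) = cyBeta L u := rfl

/-- `E_T(F) ≃ E^W`. -/
noncomputable def cyUnitsEquiv : Additive ↥(sUnits L.field (cyT L).carrier) ≃+ ↥L.EW :=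
  AddEquiv.ofBijective (cyUnitsHom L)
    ⟨fun a b h => cyBeta_injective L (congrArg Subtype.val h),
      fun e => by
        obtain ⟨u, hu⟩ := exists_cyBeta_eq_of_mem_EW L e.2
        exact ⟨u, Subtype.ext hu⟩⟩

@[simp] lemma cyUnitsEquiv_coe (u : Additive ↥(sUnits L.field (cyT L).carrier)) :
    ((cyUnitsEquiv L u : ↥L.EW) : QSx S) = cyBeta L u := rfl

lemma cyBeta_symm (e : ↥L.EW) : cyBeta L ((cyUnitsEquiv L).symm e) = (e : QSx S) := by
  rw [← cyUnitsEquiv_coe, AddEquiv.apply_symm_apply]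

end Fermat.Agent.S56.EC

namespace Fermat.Agent.F4.OpenS

variable {S : Finset Nat.Primes} (L : OpenS S)

/-- `E^W` is a finitely generated abelian group (the `S`-unit theorem). -/
instance moduleFinite_EW : Module.Finite ℤ ↥L.EW := by
  obtain ⟨hfin, -⟩ := S14SI.sUnitRankZ L.field (Fermat.Agent.S56.EC.cyT L).carrier
    (Fermat.Agent.S56.EC.cyT L).finite
  haveI := hfin
  exact Module.Finite.equiv (Fermat.Agent.S56.EC.cyUnitsEquiv L).toIntLinearEquiv

end Fermat.Agent.F4.OpenS
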