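import Fermat.Agent.S56.W2.EC.Cyclic.HmuObj
import Fermat.Agent.S56.W2.EC.Cyclic.AObj
import Fermat.Agent.S56.W2.EC.Cyclic.KummerK0Q
import Fermat.Agent.S56.W2.EC.Cyclic.KummerLog
import Fermat.Agent.S56.W2.EC.Cyclic.UnitBridge
import Fermat.Agent.F4.Dict.TwoNT

/-!
# S56 / W2 / EC / Cyclic / KummerObj : the Kummer identity (N1) for the concrete objects
(seat CY-K = N1 of the cyclic case; helper86)

`𝒮 : CycSetup p S`, `p ∈ S`.  **(N1)** `CycSetup.kummer_K0`: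

  `d(Hμ) = d(E_T / p) + d(A[p])`

for every additive `d`, with `Hμ = 𝒮.Hmu` (`HmuObj.lean`), `E_T / p = modObj (UnitMod 𝒮.T 𝒮.ρ)`
(the object of helper54's `units_K0`), `A = 𝒮.A` (`AObj.lean`).

The three presentations used in `kummer_universalQ`:
* `𝒮.kumKappa hφ : ↥(R_W) →+ Hμ`, `t ↦ (w ↦ kumZ φ t w)` (`hmuVal_kumKappa`);
* `𝒮.kumPi : ↥E^W →+ E_T / p`;
* `𝒮.kumAl : ↥(R_W) →+ A[p]`.
-/

set_option autoImplicit false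
set_option linter.unusedSectionVars false
set_option linter.style.haveILetI false

noncomputable section

open CategoryTheory groupCohomology ExtCitation

namespace Fermat.Agent.S56.EC

open Fermat.Agent.F4 Fermat.Agent.F4Cf Fermat.Agent.S14SI

namespace CycSetup

variable {p : ℕ} [Fact p.Prime] {S : Finset Nat.Primes} (𝒮 : CycSetup p S)

/-- `W` fixes the `p`-th roots of unity. -/
lemma fix_mu : ∀ g ∈ 𝒮.L.U, ∀ t : AlgebraicClosure ℚ, t ^ p = 1 → g t = t :=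
  two_fix_mu (p := p) (U := 𝒮.L.U) 𝒮.hω

/-! ### `κ : R_W → Hμ` -/

section Kappa

variable {φ : Fp1 p →+ EsRep S} (hφ : IsRootMap φ)

/-- The Kummer character of `t ∈ R_W`. -/
def kumChar (t : ↥(𝒮.L.RW p)) : ↥(cyHomW (p := p) S 𝒮.W) :=
  ⟨fun w => (kumZ φ (t : QSx S) (w : GQ) : ZMod p),
    fun w w' => 𝒮.L.kumZ_mul hφ 𝒮.fix_mu t.2 w.2 w'.2, by
      obtain ⟨V, hV, h⟩ := OpenS.kumZ_smooth hφ (t : QSx S)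
      exact ⟨V, hV, fun w hw => h (w : GQ) hw⟩⟩

lemma kumChar_apply (t : ↥(𝒮.L.RW p)) (w : ↥𝒮.W) :
    ((𝒮.kumChar hφ t : ↥(cyHomW (p := p) S 𝒮.W)) : ↥𝒮.W → Fp1 p) w =
      (kumZ φ (t : QSx S) (w : GQ) : ZMod p) := rfl

/-- **`κ : R_W → Hμ`**, `t ↦ (w ↦ kumZ φ t w)`. -/
def kumKappa : ↥(𝒮.L.RW p) →+ 𝒮.Hmu.carrier :=
  𝒮.hmuOf.comp
    { toFun := 𝒮.kumChar hφ
      map_zero' := Subtype.ext (funext fun w => by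
        show (kumZ φ ((0 : ↥(𝒮.L.RW p)) : QSx S) (w : GQ) : ZMod p) = 0
        rw [AddSubgroup.coe_zero]
        unfold kumZ
        rw [OpenS.kum_zero]
        exact kumLog_zero hφ)
      map_add' := fun t t' => Subtype.ext (funext fun w => by
        show (kumZ φ ((t + t' : ↥(𝒮.L.RW p)) : QSx S) (w : GQ) : ZMod p) =
          kumZ φ (t : QSx S) (w : GQ) + kumZ φ (t' : QSx S) (w : GQ)
        rw [AddSubgroup.coe_add]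
        exact 𝒮.L.kumZ_add hφ t.2 t'.2 w.2) }

lemma hmuVal_kumKappa (t : ↥(𝒮.L.RW p)) (w : ↥𝒮.W) :
    (𝒮.hmuVal (𝒮.kumKappa hφ t) w : ZMod p) = kumZ φ (t : QSx S) (w : GQ) := rfl

lemma kumKappa_surjective : Function.Surjective (𝒮.kumKappa hφ) := by
  classical
  intro h
  let f : GQ → ZMod p := fun g => if hg : g ∈ 𝒮.W then (𝒮.hmuVal h ⟨g, hg⟩ : ZMod p) else 0
  have hf : ∀ (g : GQ) (hg : g ∈ 𝒮.W), f g = (𝒮.hmuVal h ⟨g, hg⟩ : ZMod p) := fun g hg =>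
    dif_pos hg
  obtain ⟨t, ht, htf⟩ := 𝒮.L.exists_kumZ_eq hφ 𝒮.fix_mu f (fun g hg g' hg' => by
      rw [hf g hg, hf g' hg', hf (g * g') (𝒮.W.mul_mem hg hg')]
      exact 𝒮.hmuVal_mul h ⟨g, hg⟩ ⟨g', hg'⟩) (by
      obtain ⟨V, hV, hV0⟩ := 𝒮.hmuVal_smooth h
      refine ⟨V, hV, fun g hg hgW => ?_⟩
      rw [hf g hgW]
      exact hV0 ⟨g, hgW⟩ hg)
  refine ⟨⟨t, ht⟩, ?_⟩
  apply 𝒮.hmuVal_injective
  funext w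
  show (kumZ φ t (w : GQ) : ZMod p) = (𝒮.hmuVal h w : ZMod p)
  rw [← htf (w : GQ) w.2, hf (w : GQ) w.2]

lemma kumKappa_eq_zero_iff (t : ↥(𝒮.L.RW p)) :
    𝒮.kumKappa hφ t = 0 ↔ (t : QSx S) ∈ 𝒮.L.Fx := by
  rw [← 𝒮.L.kumZ_eq_zero_iff hφ t.2]
  constructor
  · intro h g hg
    have h1 := congrArg (fun x => (𝒮.hmuVal x ⟨g, hg⟩ : ZMod p)) h
    exact h1
  · intro h
    apply 𝒮.hmuVal_injective
    funext w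
    exact h (w : GQ) w.2

lemma kumKappa_equivariant (u : ↥𝒮.U) (t t' : ↥(𝒮.L.RW p))
    (h : (t' : QSx S) = (QSx S).ρ (u : GQ) (t : QSx S)) :
    𝒮.kumKappa hφ t' = 𝒮.proj u • 𝒮.kumKappa hφ t := by
  apply 𝒮.hmuVal_injective
  funext w
  have hw : (u : GQ)⁻¹ * (w : GQ) * (u : GQ) ∈ 𝒮.W := by
    have := 𝒮.normal_W.conj_mem w w.2 (u : GQ)⁻¹
    rwa [inv_inv] at this
  have e : (w : GQ) = (u : GQ) * ((u : GQ)⁻¹ * (w : GQ) * (u : GQ)) * (u : GQ)⁻¹ := by group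
  show (kumZ φ (t' : QSx S) (w : GQ) : ZMod p) =
    ((cycloChar p (u : GQ) : (ZMod p)ˣ) : ZMod p) *
      kumZ φ (t : QSx S) ((u : GQ)⁻¹ * (w : GQ) * (u : GQ))
  rw [h, ← 𝒮.L.kumZ_conj hφ t.2 (u : GQ) hw, ← e]

end Kappa

/-! ### `π : E^W → E_T / p` -/

/-- The subquotient `E_T / p E_T`. -/
abbrev unitQ : SubQ p 𝒮.Γ (UnitMod 𝒮.T 𝒮.ρ) := (StabSub.top 𝒮.Γ (UnitMod 𝒮.T 𝒮.ρ)).modQ p

/-- `E_T → E_T / p`. -/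
def unitCls : Additive ↥(sUnits 𝒮.L.field 𝒮.T.carrier) →+
    (modObj (C := 𝒮.Γ) (UnitMod 𝒮.T 𝒮.ρ) (NeZero.ne p)).carrier :=
  𝒮.unitQ.cls.comp
    { toFun := fun a => (⟨UnitMod.of 𝒮.T 𝒮.ρ a, AddSubgroup.mem_top _⟩ : ↥𝒮.unitQ.top)
      map_zero' := rfl
      map_add' := fun _ _ => rfl }

lemma unitCls_surjective : Function.Surjective 𝒮.unitCls := by
  intro x
  obtain ⟨y, rfl⟩ := 𝒮.unitQ.cls_surjective x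
  exact ⟨UnitMod.val 𝒮.T 𝒮.ρ y.1, rfl⟩

lemma unitCls_eq_zero_iff (a : Additive ↥(sUnits 𝒮.L.field 𝒮.T.carrier)) :
    𝒮.unitCls a = 0 ↔ ∃ b : Additive ↥(sUnits 𝒮.L.field 𝒮.T.carrier), p • b = a := by
  show 𝒮.unitQ.cls _ = 0 ↔ _
  rw [SubQ.cls_eq_zero_iff]
  show UnitMod.of 𝒮.T 𝒮.ρ a ∈ pMul p (⊤ : AddSubgroup (UnitMod 𝒮.T 𝒮.ρ)) ↔ _
  rw [mem_pMul]
  constructor
  · rintro ⟨b, -, hb⟩
    exact ⟨UnitMod.val 𝒮.T 𝒮.ρ b, hb⟩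
  · rintro ⟨b, hb⟩
    exact ⟨UnitMod.of 𝒮.T 𝒮.ρ b, AddSubgroup.mem_top _, hb⟩

lemma unitCls_smul (γ : 𝒮.Γ) (a : Additive ↥(sUnits 𝒮.L.field 𝒮.T.carrier)) :
    γ • 𝒮.unitCls a = 𝒮.unitCls (galU 𝒮.T (𝒮.ρ γ) a) := rfl

/-- `E_T ≃ E^W` (`UnitBridge.lean`), for the set `𝒮.T`. -/
def unitsEquivT : Additive ↥(sUnits 𝒮.L.field 𝒮.T.carrier) ≃+ ↥𝒮.L.EW := cyUnitsEquiv 𝒮.L

lemma unitsEquivT_coe (a : Additive ↥(sUnits 𝒮.L.field 𝒮.T.carrier)) :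
    ((𝒮.unitsEquivT a : ↥𝒮.L.EW) : QSx S) =
      𝒮.L.toQS ((Additive.toMul a : ↥(sUnits 𝒮.L.field 𝒮.T.carrier)) : (𝒮.L.field)ˣ) := rfl

lemma unitsEquivT_galU (u : GQ) (a : Additive ↥(sUnits 𝒮.L.field 𝒮.T.carrier)) :
    ((𝒮.unitsEquivT (galU 𝒮.T (𝒮.res u) a) : ↥𝒮.L.EW) : QSx S) =
      (QSx S).ρ u ((𝒮.unitsEquivT a : ↥𝒮.L.EW) : QSx S) :=
  (cyBeta_galU 𝒮.L u a).symm

/-- **`π : E^W → E_T / p`**. -/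
def kumPi : ↥𝒮.L.EW →+ (modObj (C := 𝒮.Γ) (UnitMod 𝒮.T 𝒮.ρ) (NeZero.ne p)).carrier :=
  𝒮.unitCls.comp 𝒮.unitsEquivT.symm.toAddMonoidHom

lemma kumPi_apply (e : ↥𝒮.L.EW) : 𝒮.kumPi e = 𝒮.unitCls (𝒮.unitsEquivT.symm e) := rfl

lemma kumPi_unitsEquivT (a : Additive ↥(sUnits 𝒮.L.field 𝒮.T.carrier)) :
    𝒮.kumPi (𝒮.unitsEquivT a) = 𝒮.unitCls a := by
  rw [kumPi_apply, AddEquiv.symm_apply_apply]

lemma kumPi_surjective : Function.Surjective 𝒮.kumPi := by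
  intro x
  obtain ⟨a, rfl⟩ := 𝒮.unitCls_surjective x
  exact ⟨𝒮.unitsEquivT a, 𝒮.kumPi_unitsEquivT a⟩

lemma kumPi_eq_zero_iff (e : ↥𝒮.L.EW) :
    𝒮.kumPi e = 0 ↔ ∃ e' ∈ 𝒮.L.EW, p • e' = (e : QSx S) := by
  rw [kumPi_apply, unitCls_eq_zero_iff]
  constructor
  · rintro ⟨b, hb⟩
    refine ⟨((𝒮.unitsEquivT b : ↥𝒮.L.EW) : QSx S), (𝒮.unitsEquivT b).2, ?_⟩
    have h1 : p • 𝒮.unitsEquivT b = e := by
      rw [← map_nsmul, hb, AddEquiv.apply_symm_apply]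
    rw [← h1]
    rfl
  · rintro ⟨e', he', h⟩
    refine ⟨𝒮.unitsEquivT.symm ⟨e', he'⟩, ?_⟩
    rw [← map_nsmul]
    congr 1
    exact Subtype.ext h

lemma kumPi_equivariant (u : ↥𝒮.U) (e e' : ↥𝒮.L.EW)
    (h : (e' : QSx S) = (QSx S).ρ (u : GQ) (e : QSx S)) :
    𝒮.kumPi e' = 𝒮.proj u • 𝒮.kumPi e := by
  obtain ⟨a, rfl⟩ := 𝒮.unitsEquivT.surjective e
  rw [kumPi_unitsEquivT, unitCls_smul, ← kumPi_unitsEquivT]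
  congr 1
  apply Subtype.ext
  rw [h]
  exact (𝒮.unitsEquivT_galU (u : GQ) a).symm

/-! ### `α : R_W → A[p]` -/

/-- The subquotient `A[p]`. -/
abbrev torA : SubQ p 𝒮.Γ 𝒮.A := (StabSub.top 𝒮.Γ 𝒮.A).torQ p

/-- **`α : R_W → A[p]`**, `t ↦ [t]`. -/
def kumAl : ↥(𝒮.L.RW p) →+ (torObj (C := 𝒮.Γ) 𝒮.A (NeZero.ne p)).carrier :=
  𝒮.torA.cls.comp
    { toFun := fun t => (⟨(𝒮.L.kumAlpha (NeZero.ne p) t : 𝒮.A),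
        mem_pTor.mpr ⟨AddSubgroup.mem_top _, 𝒮.L.nsmul_kumAlpha (NeZero.ne p) t⟩⟩ : ↥𝒮.torA.top)
      map_zero' := Subtype.ext (map_zero (𝒮.L.kumAlpha (NeZero.ne p)))
      map_add' := fun t t' => Subtype.ext (map_add (𝒮.L.kumAlpha (NeZero.ne p)) t t') }

lemma kumAl_surjective (hpS : pPrime p ∈ S) : Function.Surjective 𝒮.kumAl := by
  intro x
  obtain ⟨y, rfl⟩ := 𝒮.torA.cls_surjective x
  obtain ⟨t, ht⟩ := 𝒮.L.exists_kumAlpha_eq hpS (NeZero.ne p) (y.1 : 𝒮.L.AQ) (mem_pTor.mp y.2).2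
  refine ⟨t, ?_⟩
  show 𝒮.torA.cls _ = 𝒮.torA.cls y
  congr 1
  exact Subtype.ext ht

lemma kumAl_eq_zero_iff (t : ↥(𝒮.L.RW p)) :
    𝒮.kumAl t = 0 ↔ (t : QSx S) ∈ 𝒮.L.RE p ⊔ 𝒮.L.Fx := by
  show 𝒮.torA.cls _ = 0 ↔ _
  rw [SubQ.cls_eq_zero_iff, ← 𝒮.L.kumAlpha_eq_zero_iff (NeZero.ne p)]
  exact AddSubgroup.mem_bot

lemma kumAl_equivariant (u : ↥𝒮.U) (t t' : ↥(𝒮.L.RW p))
    (h : (t' : QSx S) = (QSx S).ρ (u : GQ) (t : QSx S)) :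
    𝒮.kumAl t' = 𝒮.proj u • 𝒮.kumAl t := by
  show 𝒮.torA.cls _ = 𝒮.proj u • 𝒮.torA.cls _
  rw [SubQ.smul_cls]
  congr 1
  apply Subtype.ext
  exact 𝒮.proj_smul_clsA' u ⟨(t : QSx S), 𝒮.L.RW_le_TU (NeZero.ne p) t.2⟩
    ⟨(t' : QSx S), 𝒮.L.RW_le_TU (NeZero.ne p) t'.2⟩ h

/-! ### (N1) -/

/-- **(N1) The Kummer identity in `K₀`**: `d(Hμ) = d(E_T / p) + d(A[p])`. -/
theorem kummer_K0 (hpS : pPrime p ∈ S) {d : FinCMod p 𝒮.Γ → ℤ} (hd : IsAdditive d) :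
    d 𝒮.Hmu = d (modObj (C := 𝒮.Γ) (UnitMod 𝒮.T 𝒮.ρ) (NeZero.ne p)) +
      d (torObj (C := 𝒮.Γ) 𝒮.A (NeZero.ne p)) := by
  obtain ⟨φ, h1, h2, h3⟩ := exists_rootMap (p := p) (S := S) hpS
  have hφ : IsRootMap φ := ⟨h1, h2, h3⟩
  exact kummer_universalQ 𝒮.L hpS 𝒮.fix_mu 𝒮.proj 𝒮.proj_surjective 𝒮.U.subtype
    (fun u => 𝒮.mem_normalizer _) 𝒮.Hmu _ _
    (𝒮.kumKappa hφ) (𝒮.kumKappa_surjective hφ) (𝒮.kumKappa_eq_zero_iff hφ)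
    (𝒮.kumKappa_equivariant hφ)
    𝒮.kumPi 𝒮.kumPi_surjective 𝒮.kumPi_eq_zero_iff 𝒮.kumPi_equivariant
    𝒮.kumAl (𝒮.kumAl_surjective hpS) 𝒮.kumAl_eq_zero_iff 𝒮.kumAl_equivariant hd

end CycSetup

end Fermat.Agent.S56.EC
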