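/-
S56, wall W2-EC, step (D) (helper56): the locally trivial characters of a level `W`, `V`-form.
DEFINITIONS (interface between the seats N3 and N4).  FIXED.

`cyShaV S W` : the smooth homomorphisms `χ : W → μ_p = 𝔽_p` which vanish on every decomposition
group `W ∩ g D_q g⁻¹`, `q ∈ S`, `g ∈ G_ℚ` (`D_q` the image of `primeLocalToGlobal q`).
`G_ℚ` acts by `(γ ⋆ χ)(w) = ω(γ) χ(γ⁻¹ w γ)` (`W` normal): `cyConj`.
-/
import Fermat.Agent.F4.Datum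

set_option autoImplicit false

namespace Fermat.Agent.S56.EC

open Fermat.Agent.F4 ExtCitation

variable {p : ℕ} [Fact p.Prime] (S : Finset Nat.Primes) (W : Subgroup GQ)

/-- The smooth characters `W → μ_p`. -/
def cyHomW : AddSubgroup (↥W → Fp1 p) where
  carrier := {χ | (∀ w w' : ↥W, χ (w * w') = χ w + χ w') ∧
    ∃ V ∈ (levelsS S).sets, ∀ w : ↥W, (w : GQ) ∈ V → χ w = 0}
  zero_mem' := by
    obtain ⟨V, hV⟩ := (levelsS S).nonempty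
    exact ⟨fun _ _ => (add_zero _).symm, V, hV, fun _ _ => rfl⟩
  add_mem' := by
    rintro χ χ' ⟨h1, V, hV, h2⟩ ⟨h1', V', hV', h2'⟩
    refine ⟨fun w w' => ?_, ?_⟩
    · simp only [Pi.add_apply, h1, h1']
      abel
    · obtain ⟨V'', hV'', hle⟩ := (levelsS S).directed V hV V' hV'
      refine ⟨V'', hV'', fun w hw => ?_⟩
      simp only [Pi.add_apply, h2 w (hle hw).1, h2' w (hle hw).2, add_zero]
  neg_mem' := by
    rintro χ ⟨h1, V, hV, h2⟩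
    refine ⟨fun w w' => ?_, V, hV, fun w hw => ?_⟩
    · simp only [Pi.neg_apply, h1, neg_add]
    · simp only [Pi.neg_apply, h2 w hw, neg_zero]

/-- The locally trivial smooth characters `W → μ_p` (`V`-form). -/
def cyShaV : AddSubgroup (↥W → Fp1 p) where
  carrier := {χ | χ ∈ cyHomW S W ∧
    ∀ (q : ↥S) (g : GQ) (d : primeLocalGaloisGroup q.1)
      (h : g * primeLocalToGlobal q.1 d * g⁻¹ ∈ W), χ ⟨_, h⟩ = 0}
  zero_mem' := ⟨(cyHomW S W).zero_mem, fun _ _ _ _ => rfl⟩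
  add_mem' := by
    rintro χ χ' ⟨h1, h2⟩ ⟨h1', h2'⟩
    refine ⟨(cyHomW S W).add_mem h1 h1', fun q g d h => ?_⟩
    simp only [Pi.add_apply, h2 q g d h, h2' q g d h, add_zero]
  neg_mem' := by
    rintro χ ⟨h1, h2⟩
    refine ⟨(cyHomW S W).neg_mem h1, fun q g d h => ?_⟩
    simp only [Pi.neg_apply, h2 q g d h, neg_zero]

lemma mem_cyHomW (χ : ↥W → Fp1 p) :
    χ ∈ cyHomW S W ↔ (∀ w w' : ↥W, χ (w * w') = χ w + χ w') ∧
      ∃ V ∈ (levelsS S).sets, ∀ w : ↥W, (w : GQ) ∈ V → χ w = 0 := Iff.rfl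

lemma mem_cyShaV (χ : ↥W → Fp1 p) :
    χ ∈ cyShaV S W ↔ χ ∈ cyHomW S W ∧
      ∀ (q : ↥S) (g : GQ) (d : primeLocalGaloisGroup q.1)
        (h : g * primeLocalToGlobal q.1 d * g⁻¹ ∈ W), χ ⟨_, h⟩ = 0 := Iff.rfl

lemma cyShaV_le : cyShaV (p := p) S W ≤ cyHomW S W := fun _ h => h.1

/-- The twisted conjugation action of `γ ∈ G_ℚ` on functions `W → μ_p` (`W` normal):
`(γ ⋆ χ)(w) = ω(γ) χ(γ⁻¹ w γ)`. -/
noncomputable def cyConj (hWn : W.Normal) (γ : GQ) (χ : ↥W → Fp1 p) : ↥W → Fp1 p := fun w =>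
  (Fp1 p).ρ γ (χ ⟨γ⁻¹ * (w : GQ) * γ, by
    have := hWn.conj_mem w w.2 γ⁻¹
    rwa [inv_inv] at this⟩)

lemma cyConj_apply (hWn : W.Normal) (γ : GQ) (χ : ↥W → Fp1 p) (w : ↥W) (h : γ⁻¹ * (w : GQ) * γ ∈ W) :
    cyConj W hWn γ χ w = (Fp1 p).ρ γ (χ ⟨γ⁻¹ * (w : GQ) * γ, h⟩) := rfl

end Fermat.Agent.S56.EC
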