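import Fermat.Agent.S56.W2.EC.Cyclic.Setup
import Fermat.Agent.S56.W2.EC.Cyclic.ShaDefs
import Fermat.Agent.F4.Glob.Fin.Main
import Fermat.Agent.F4.BR.Smooth

/-!
# S56 / W2 / EC / Cyclic / HmuObj : the object `Hμ = Hom_sm(W, μ_p)` of the cyclic case
(seat CY-K = N1; helper86)

`𝒮 : CycSetup p S`.

* `cyConj_mem_cyHomW`, `cyConj_one`, `cyConj_mul`, `cyConj_add`, `cyConj_of_mem` : the twisted
  conjugation action `cyConj` on the smooth characters `cyHomW S W` (`ShaDefs.lean`);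
* `finite_cyHomW` : `Hom_sm(W, μ_p)` is finite (`F4Fin.finSmoothChars_levelsS`);
* `𝒮.HmuU : FinCMod p ↥𝒮.U` : carrier `↥(cyHomW S 𝒮.W)`, `u • χ = cyConj u χ`;
* `𝒮.Hmu : FinCMod p 𝒮.Γ` : the same over `Γ = U ⧸ W`;
* `𝒮.hmuVal : 𝒮.Hmu.carrier →+ (↥𝒮.W → Fp1 p)` : the underlying function; injective
  (`hmuVal_injective`), with range `cyHomW S 𝒮.W` (`hmuVal_mem`, `exists_hmuVal_eq`),
  `hmuVal (𝒮.proj u • h) = cyConj 𝒮.W _ ↑u (hmuVal h)` (`hmuVal_smul`),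
  `hmuVal (𝒮.proj u • h) w = ω(u) * hmuVal h (u⁻¹ w u)` (`hmuVal_smul_apply`).
-/

set_option autoImplicit false
set_option linter.unusedSectionVars false

noncomputable section

namespace Fermat.Agent.S56.EC

open Fermat.Agent.F4 ExtCitation

section Conj

variable {p : ℕ} [Fact p.Prime] (S : Finset Nat.Primes) (W : Subgroup GQ)

lemma cyHomW_map_one {χ : ↥W → Fp1 p} (hχ : χ ∈ cyHomW S W) : χ 1 = 0 := by
  have h := hχ.1 1 1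
  rw [mul_one] at h
  exact left_eq_add.mp h

lemma cyHomW_map_inv {χ : ↥W → Fp1 p} (hχ : χ ∈ cyHomW S W) (w : ↥W) : χ w⁻¹ = -χ w := by
  have h := hχ.1 w w⁻¹
  rw [mul_inv_cancel, cyHomW_map_one S W hχ] at h
  exact eq_neg_of_add_eq_zero_right h.symm

/-- `cyConj` preserves the smooth characters. -/
lemma cyConj_mem_cyHomW (hWn : W.Normal) (γ : GQ) {χ : ↥W → Fp1 p} (hχ : χ ∈ cyHomW S W) :
    cyConj W hWn γ χ ∈ cyHomW S W := by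
  obtain ⟨h1, V, hV, h2⟩ := hχ
  have hVn : V.Normal := (levelsS S).normal V hV
  refine ⟨fun w w' => ?_, V, hV, fun w hw => ?_⟩
  · have hw : γ⁻¹ * (w : GQ) * γ ∈ W := by
      have := hWn.conj_mem w w.2 γ⁻¹
      rwa [inv_inv] at this
    have hw' : γ⁻¹ * (w' : GQ) * γ ∈ W := by
      have := hWn.conj_mem w' w'.2 γ⁻¹
      rwa [inv_inv] at this
    have e : (⟨γ⁻¹ * ((w * w' : ↥W) : GQ) * γ, by
        have := hWn.conj_mem (w * w') (w * w').2 γ⁻¹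
        rwa [inv_inv] at this⟩ : ↥W) = ⟨_, hw⟩ * ⟨_, hw'⟩ := by
      apply Subtype.ext
      show γ⁻¹ * ((w : GQ) * (w' : GQ)) * γ = (γ⁻¹ * (w : GQ) * γ) * (γ⁻¹ * (w' : GQ) * γ)
      group
    show (Fp1 p).ρ γ (χ _) = (Fp1 p).ρ γ (χ ⟨_, hw⟩) + (Fp1 p).ρ γ (χ ⟨_, hw'⟩)
    rw [e, h1, map_add]
  · have hv : γ⁻¹ * (w : GQ) * γ ∈ V := by
      have := hVn.conj_mem (w : GQ) hw γ⁻¹
      rwa [inv_inv] at this
    show (Fp1 p).ρ γ (χ _) = 0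
    rw [h2 _ hv, map_zero]

lemma cyConj_one (hWn : W.Normal) (χ : ↥W → Fp1 p) : cyConj W hWn 1 χ = χ := by
  funext w
  show (Fp1 p).ρ 1 (χ _) = χ w
  rw [map_one]
  show χ _ = χ w
  congr 1

lemma cyConj_mul (hWn : W.Normal) (γ γ' : GQ) (χ : ↥W → Fp1 p) :
    cyConj W hWn (γ * γ') χ = cyConj W hWn γ (cyConj W hWn γ' χ) := by
  funext w
  show (Fp1 p).ρ (γ * γ') (χ _) = (Fp1 p).ρ γ ((Fp1 p).ρ γ' (χ _))
  rw [map_mul]
  show (Fp1 p).ρ γ ((Fp1 p).ρ γ' (χ _)) = (Fp1 p).ρ γ ((Fp1 p).ρ γ' (χ _))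
  congr 3

lemma cyConj_add (hWn : W.Normal) (γ : GQ) (χ χ' : ↥W → Fp1 p) :
    cyConj W hWn γ (χ + χ') = cyConj W hWn γ χ + cyConj W hWn γ χ' := by
  funext w
  show (Fp1 p).ρ γ (χ _ + χ' _) = (Fp1 p).ρ γ (χ _) + (Fp1 p).ρ γ (χ' _)
  rw [map_add]

lemma cyConj_zero (hWn : W.Normal) (γ : GQ) : cyConj W hWn γ (0 : ↥W → Fp1 p) = 0 := by
  funext w
  show (Fp1 p).ρ γ 0 = 0
  rw [map_zero]

/-- `cyConj` in terms of the cyclotomic character. -/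
lemma cyConj_apply_eq (hWn : W.Normal) (γ : GQ) (χ : ↥W → Fp1 p) (w : ↥W)
    (h : γ⁻¹ * (w : GQ) * γ ∈ W) :
    (cyConj W hWn γ χ w : ZMod p) =
      ((cycloChar p γ : (ZMod p)ˣ) : ZMod p) * (χ ⟨γ⁻¹ * (w : GQ) * γ, h⟩ : ZMod p) := rfl

/-- `W` acts trivially on the smooth characters of `W`. -/
lemma cyConj_of_mem (hWn : W.Normal) (hWω : W ≤ MonoidHom.ker (cycloChar p)) {γ : GQ}
    (hγ : γ ∈ W) {χ : ↥W → Fp1 p} (hχ : χ ∈ cyHomW S W) : cyConj W hWn γ χ = χ := by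
  funext w
  have e : (⟨γ⁻¹ * (w : GQ) * γ, by
      have := hWn.conj_mem w w.2 γ⁻¹
      rwa [inv_inv] at this⟩ : ↥W) = (⟨γ, hγ⟩ : ↥W)⁻¹ * w * ⟨γ, hγ⟩ := by
    apply Subtype.ext
    rfl
  show (Fp1 p).ρ γ (χ _) = χ w
  rw [e, hχ.1, hχ.1, cyHomW_map_inv S W hχ, br_smooth_Fp1_ρ, MonoidHom.mem_ker.1 (hWω hγ),
    Units.val_one, one_smul]
  abel

/-- `Hom_sm(W, μ_p)` is finite. -/
lemma finite_cyHomW (hW : W ∈ (levelsS S).sets) : Finite ↥(cyHomW (p := p) S W) := by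
  have hfin : Finite ↥(Fermat.Agent.F4Fin.smoothChars (levelsS S) p W) :=
    (Fermat.Agent.F4Fin.finSmoothChars_levelsS (p := p) S W hW).to_subtype
  let Φ : ↥(cyHomW (p := p) S W) → ↥(Fermat.Agent.F4Fin.smoothChars (levelsS S) p W) :=
    fun χ => ⟨{ toFun := fun w => Multiplicative.ofAdd ((χ.1 w : Fp1 p) : ZMod p)
                map_one' := by
                  show Multiplicative.ofAdd ((χ.1 1 : Fp1 p) : ZMod p) = 1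
                  rw [cyHomW_map_one S W χ.2]
                  rfl
                map_mul' := fun w w' => by
                  show Multiplicative.ofAdd ((χ.1 (w * w') : Fp1 p) : ZMod p) = _
                  rw [χ.2.1 w w']
                  rfl }, by
      obtain ⟨V, hV, h⟩ := χ.2.2
      refine ⟨V, hV, fun v hv => ?_⟩
      show Multiplicative.ofAdd ((χ.1 v : Fp1 p) : ZMod p) = 1
      rw [h v hv]
      rfl⟩
  refine Finite.of_injective Φ fun χ χ' h => ?_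
  apply Subtype.ext
  funext w
  have h1 := congrArg (fun F : ↥(Fermat.Agent.F4Fin.smoothChars (levelsS S) p W) =>
    (F : ↥W →* Multiplicative (ZMod p)) w) h
  exact Multiplicative.ofAdd.injective h1

end Conj

namespace CycSetup

variable {p : ℕ} [Fact p.Prime] {S : Finset Nat.Primes} (𝒮 : CycSetup p S)

/-- `Hom_sm(W, μ_p)` as a `U`-module: `u • χ = cyConj u χ`. -/
def HmuU : FinCMod p ↥𝒮.U :=
  { carrier := ↥(cyHomW (p := p) S 𝒮.W)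
    isAction :=
      { smul := fun u χ => ⟨cyConj 𝒮.W 𝒮.normal_W (u : GQ) χ.1,
          cyConj_mem_cyHomW S 𝒮.W 𝒮.normal_W (u : GQ) χ.2⟩
        one_smul := fun χ => Subtype.ext (cyConj_one 𝒮.W 𝒮.normal_W χ.1)
        mul_smul := fun u u' χ => Subtype.ext (cyConj_mul 𝒮.W 𝒮.normal_W (u : GQ) (u' : GQ) χ.1)
        smul_zero := fun u => Subtype.ext (cyConj_zero 𝒮.W 𝒮.normal_W (u : GQ))
        smul_add := fun u χ χ' => Subtype.ext (cyConj_add 𝒮.W 𝒮.normal_W (u : GQ) χ.1 χ'.1) }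
    isFinite := finite_cyHomW S 𝒮.W 𝒮.hW
    killed := fun χ => Subtype.ext (by
      funext w
      show (p • (χ : ↥𝒮.W → Fp1 p)) w = 0
      rw [Pi.smul_apply]
      show p • ((χ.1 w : Fp1 p) : ZMod p) = 0
      rw [nsmul_eq_mul, ZMod.natCast_self, zero_mul]) }

lemma HmuU_smul_coe (u : ↥𝒮.U) (χ : 𝒮.HmuU.carrier) :
    (cyHomW (p := p) S 𝒮.W).subtype (u • χ : 𝒮.HmuU.carrier) =
      cyConj 𝒮.W 𝒮.normal_W (u : GQ) ((cyHomW (p := p) S 𝒮.W).subtype χ) := rfl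

lemma HmuU_triv (u : ↥𝒮.U) (hu : (u : GQ) ∈ 𝒮.W) (χ : 𝒮.HmuU.carrier) : u • χ = χ :=
  Subtype.ext (cyConj_of_mem S 𝒮.W 𝒮.normal_W 𝒮.hω hu χ.2)

/-- **`Hμ = Hom_sm(W, μ_p)`** as a `Γ`-module. -/
def Hmu : FinCMod p 𝒮.Γ := 𝒮.descObj 𝒮.HmuU 𝒮.HmuU_triv

/-- The underlying function `W → μ_p` of an element of `Hμ`. -/
def hmuVal : 𝒮.Hmu.carrier →+ (↥𝒮.W → Fp1 p) :=
  (cyHomW (p := p) S 𝒮.W).subtype.comp (DescMod.val 𝒮.N 𝒮.HmuU.carrier)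

/-- The element of `Hμ` attached to a smooth character. -/
def hmuOf : ↥(cyHomW (p := p) S 𝒮.W) →+ 𝒮.Hmu.carrier := DescMod.of 𝒮.N 𝒮.HmuU.carrier

@[simp] lemma hmuVal_hmuOf (χ : ↥(cyHomW (p := p) S 𝒮.W)) :
    𝒮.hmuVal (𝒮.hmuOf χ) = (χ : ↥𝒮.W → Fp1 p) := rfl

lemma hmuVal_injective : Function.Injective 𝒮.hmuVal := fun _ _ h => Subtype.ext h

lemma hmuVal_mem (h : 𝒮.Hmu.carrier) : 𝒮.hmuVal h ∈ cyHomW (p := p) S 𝒮.W :=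
  (DescMod.val 𝒮.N 𝒮.HmuU.carrier h).2

lemma exists_hmuVal_eq {χ : ↥𝒮.W → Fp1 p} (hχ : χ ∈ cyHomW (p := p) S 𝒮.W) :
    ∃ h : 𝒮.Hmu.carrier, 𝒮.hmuVal h = χ := ⟨𝒮.hmuOf ⟨χ, hχ⟩, rfl⟩

/-- `Hμ ≃ Hom_sm(W, μ_p)`. -/
def hmuEquiv : 𝒮.Hmu.carrier ≃+ ↥(cyHomW (p := p) S 𝒮.W) :=
  { toFun := DescMod.val 𝒮.N 𝒮.HmuU.carrier
    invFun := DescMod.of 𝒮.N 𝒮.HmuU.carrier
    left_inv := fun _ => rfl
    right_inv := fun _ => rfl
    map_add' := fun _ _ => rfl }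

@[simp] lemma hmuEquiv_coe (h : 𝒮.Hmu.carrier) :
    ((𝒮.hmuEquiv h : ↥(cyHomW (p := p) S 𝒮.W)) : ↥𝒮.W → Fp1 p) = 𝒮.hmuVal h := rfl

/-- Equivariance: `proj u • h` is the twisted conjugate of `h`. -/
lemma hmuVal_smul (u : ↥𝒮.U) (h : 𝒮.Hmu.carrier) :
    𝒮.hmuVal (𝒮.proj u • h) = cyConj 𝒮.W 𝒮.normal_W (u : GQ) (𝒮.hmuVal h) := rfl

lemma hmuVal_smul_apply (u : ↥𝒮.U) (h : 𝒮.Hmu.carrier) (w : ↥𝒮.W)
    (hw : (u : GQ)⁻¹ * (w : GQ) * (u : GQ) ∈ 𝒮.W) :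
    (𝒮.hmuVal (𝒮.proj u • h) w : ZMod p) =
      ((cycloChar p (u : GQ) : (ZMod p)ˣ) : ZMod p) *
        (𝒮.hmuVal h ⟨(u : GQ)⁻¹ * (w : GQ) * (u : GQ), hw⟩ : ZMod p) := rfl

lemma hmuVal_mul (h : 𝒮.Hmu.carrier) (w w' : ↥𝒮.W) :
    𝒮.hmuVal h (w * w') = 𝒮.hmuVal h w + 𝒮.hmuVal h w' := (𝒮.hmuVal_mem h).1 w w'

lemma hmuVal_smooth (h : 𝒮.Hmu.carrier) :
    ∃ V ∈ (levelsS S).sets, ∀ w : ↥𝒮.W, (w : GQ) ∈ V → 𝒮.hmuVal h w = 0 := (𝒮.hmuVal_mem h).2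

end CycSetup

end Fermat.Agent.S56.EC
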