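/-
S56, wall W2-EC, step (D), seat N3 (torsion sequence), part 2 (helper56): the sequence
`0 → μ_p → (ker d_J)^W → (ker d_C)^W → Sha → 0` in `K₀`, universal form.

For **any** group `C` acting through `r : C →* G_ℚ` and **any** finite `𝔽_p[C]`-modules
`Zobj`, `Jobj`, `Mobj`, `Sobj` presented as

* `ζ : cyZt → Zobj` surjective with kernel `ε(μ_p)`      (`Zobj ≅ (ker d_C)^W`, `ζ = ` class mod `ε μ_p`),
* `jb : cyJW → Jobj` bijective                            (`Jobj ≅ (ker d_J)^W`),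
* `μ : μ_p → Mobj` bijective,
* `σ : cyZt → Sobj` surjective with kernel `cyJW`        (`Sobj ≅ Sha`, `σ = ` connecting map),

all equivariant, every additive function `d` satisfies `d Zobj + d Mobj = d Jobj + d Sobj`.
-/
import Fermat.Agent.S56.W2.EC.Cyclic.TorsDefs
import Fermat.Agent.S56.W2.EC.FinCMod

set_option autoImplicit false

namespace Fermat.Agent.S56.EC

open Fermat.Agent.F4 Fermat.Agent.F4Cf ExtCitation

variable {p : ℕ} [Fact p.Prime] {S : Finset Nat.Primes} {hpS : pPrime p ∈ S}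
  (Pk : ECPack p S hpS) (W : Subgroup GQ) {C : Type} [Group C]

/-- A `C`-stable subgroup of a finite module, as a finite module. -/
noncomputable def FinCMod.subObj (A : FinCMod p C) (B : AddSubgroup A.carrier)
    (hB : ∀ (c : C) (x : A.carrier), x ∈ B → c • x ∈ B) : FinCMod p C :=
  letI : DistribMulAction C ↥B :=
    { smul := fun c x => ⟨c • (x : A.carrier), hB c _ x.2⟩
      one_smul := fun x => Subtype.ext (one_smul C (x : A.carrier))
      mul_smul := fun c c' x => Subtype.ext (mul_smul c c' (x : A.carrier))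
      smul_zero := fun c => Subtype.ext (smul_zero c)
      smul_add := fun c x y => Subtype.ext (smul_add c (x : A.carrier) (y : A.carrier)) }
  { carrier := ↥B
    isFinite := inferInstance
    killed := fun x => Subtype.ext (by
      rw [AddSubgroup.coe_nsmul, AddSubgroup.coe_zero]
      exact A.killed _) }

/-- **The torsion sequence in `K₀`, universal form.** -/
theorem tors_universal (hWω : W ≤ MonoidHom.ker (cycloChar p)) (r : C →* GQ)
    (Zobj Jobj Mobj Sobj : FinCMod p C)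
    (ζ : ↥(cyZt Pk W) →+ Zobj.carrier) (hζs : Function.Surjective ζ)
    (hζk : ∀ j : ↥(cyZt Pk W), ζ j = 0 ↔ ∃ m : Fp1 p, cyEps Pk m = (j : Pk.KJ.K0))
    (hζe : ∀ (c : C) (j j' : ↥(cyZt Pk W)),
      (j' : Pk.KJ.K0) = Pk.KJ.K0.ρ (r c) (j : Pk.KJ.K0) → ζ j' = c • ζ j)
    (jb : ↥(cyJW Pk W) →+ Jobj.carrier) (hjb : Function.Bijective jb)
    (hje : ∀ (c : C) (j j' : ↥(cyJW Pk W)),
      (j' : Pk.KJ.K0) = Pk.KJ.K0.ρ (r c) (j : Pk.KJ.K0) → jb j' = c • jb j)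
    (μ : Fp1 p →+ Mobj.carrier) (hμb : Function.Bijective μ)
    (hμe : ∀ (c : C) (m : Fp1 p), μ ((Fp1 p).ρ (r c) m) = c • μ m)
    (σ : ↥(cyZt Pk W) →+ Sobj.carrier) (hσs : Function.Surjective σ)
    (hσk : ∀ j : ↥(cyZt Pk W), σ j = 0 ↔ (j : Pk.KJ.K0) ∈ cyJW Pk W)
    (hσe : ∀ (c : C) (j j' : ↥(cyZt Pk W)),
      (j' : Pk.KJ.K0) = Pk.KJ.K0.ρ (r c) (j : Pk.KJ.K0) → σ j' = c • σ j)
    (hstabZ : ∀ (c : C) (j : Pk.KJ.K0), j ∈ cyZt Pk W → Pk.KJ.K0.ρ (r c) j ∈ cyZt Pk W)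
    (hstabJ : ∀ (c : C) (j : Pk.KJ.K0), j ∈ cyJW Pk W → Pk.KJ.K0.ρ (r c) j ∈ cyJW Pk W)
    {d : FinCMod p C → ℤ} (hd : IsAdditive d) : d Zobj + d Mobj = d Jobj + d Sobj := by
  classical
  -- the inclusion `cyJW → cyZt`
  let incl : ↥(cyJW Pk W) →+ ↥(cyZt Pk W) := AddSubgroup.inclusion (cyJW_le_cyZt Pk W)
  have hincl : ∀ j : ↥(cyJW Pk W), ((incl j : ↥(cyZt Pk W)) : Pk.KJ.K0) = (j : Pk.KJ.K0) :=
    fun _ => rfl
  -- the image `B` of `cyJW` in `Zobj`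
  let B : AddSubgroup Zobj.carrier := (ζ.comp incl).range
  have hB : ∀ (c : C) (x : Zobj.carrier), x ∈ B → c • x ∈ B := by
    rintro c _ ⟨j, rfl⟩
    refine ⟨⟨Pk.KJ.K0.ρ (r c) (j : Pk.KJ.K0), hstabJ c _ j.2⟩, ?_⟩
    exact hζe c (incl j) _ rfl
  let Bobj : FinCMod p C := Zobj.subObj B hB
  -- (b) `0 → B → Zobj → Sobj → 0`
  have hker : ζ.ker ≤ σ.ker := by
    intro j hj
    rw [AddMonoidHom.mem_ker] at hj ⊢
    obtain ⟨m, hm⟩ := (hζk j).1 hj
    rw [hσk, ← hm]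
    exact cyEps_mem_cyJW Pk W hWω m
  let q : Zobj.carrier →+ Sobj.carrier := ζ.liftOfSurjective hζs ⟨σ, hker⟩
  have hq : ∀ j : ↥(cyZt Pk W), q (ζ j) = σ j := fun j =>
    AddMonoidHom.liftOfRightInverse_comp_apply _ _ _ ⟨σ, hker⟩ j
  have hb : d Zobj = d Bobj + d Sobj := by
    refine hd Bobj Zobj Sobj B.subtype q (fun c x => rfl) ?_ Subtype.val_injective ?_ ?_
    · intro c x
      obtain ⟨j, rfl⟩ := hζs x
      have h1 : ζ ⟨Pk.KJ.K0.ρ (r c) (j : Pk.KJ.K0), hstabZ c _ j.2⟩ = c • ζ j := hζe c j _ rfl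
      rw [← h1, hq, hq]
      exact hσe c j _ rfl
    · intro s
      obtain ⟨j, rfl⟩ := hσs s
      exact ⟨ζ j, hq j⟩
    · intro x
      obtain ⟨j, rfl⟩ := hζs x
      rw [hq, hσk]
      constructor
      · intro hj
        exact ⟨⟨ζ j, ⟨⟨(j : Pk.KJ.K0), hj⟩, rfl⟩⟩, rfl⟩
      · rintro ⟨⟨_, ⟨j', rfl⟩⟩, hj'⟩
        have h0 : ζ (j - incl j') = 0 := by
          rw [map_sub, sub_eq_zero]
          exact hj'.symm
        obtain ⟨m, hm⟩ := (hζk _).1 h0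
        have e : (j : Pk.KJ.K0) = cyEps Pk m + (j' : Pk.KJ.K0) := by
          rw [hm]
          show (j : Pk.KJ.K0) = ((j : Pk.KJ.K0) - (j' : Pk.KJ.K0)) + (j' : Pk.KJ.K0)
          abel
        rw [e]
        exact (cyJW Pk W).add_mem (cyEps_mem_cyJW Pk W hWω m) j'.2
  -- (a) `0 → Mobj → Jobj → B → 0`
  let eJ : ↥(cyJW Pk W) ≃+ Jobj.carrier := AddEquiv.ofBijective jb hjb
  let eM : Fp1 p ≃+ Mobj.carrier := AddEquiv.ofBijective μ hμb
  let εJ : Fp1 p →+ ↥(cyJW Pk W) :=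
    { toFun := fun m => ⟨cyEps Pk m, cyEps_mem_cyJW Pk W hWω m⟩
      map_zero' := Subtype.ext (map_zero _)
      map_add' := fun a b => Subtype.ext (map_add _ a b) }
  let i : Mobj.carrier →+ Jobj.carrier := (jb.comp εJ).comp eM.symm.toAddMonoidHom
  let πB : ↥(cyJW Pk W) →+ ↥B :=
    { toFun := fun j => ⟨ζ (incl j), ⟨j, rfl⟩⟩
      map_zero' := Subtype.ext (by simp)
      map_add' := fun a b => Subtype.ext (by simp) }
  let π : Jobj.carrier →+ Bobj.carrier := πB.comp eJ.symm.toAddMonoidHom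
  have hi : ∀ m : Fp1 p, i (μ m) = jb (εJ m) := fun m => by
    show jb (εJ (eM.symm (μ m))) = jb (εJ m)
    rw [show eM.symm (μ m) = m from eM.symm_apply_apply m]
  have hπ : ∀ j : ↥(cyJW Pk W), π (jb j) = πB j := fun j => by
    show πB (eJ.symm (jb j)) = πB j
    rw [show eJ.symm (jb j) = j from eJ.symm_apply_apply j]
  have ha : d Jobj = d Mobj + d Bobj := by
    refine hd Mobj Jobj Bobj i π ?_ ?_ ?_ ?_ ?_
    · intro c x
      obtain ⟨m, rfl⟩ := hμb.2 x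
      rw [← hμe, hi, hi]
      refine hje c _ _ ?_
      exact cyEps_comm Pk (r c) m
    · intro c x
      obtain ⟨j, rfl⟩ := hjb.2 x
      have h1 : jb ⟨Pk.KJ.K0.ρ (r c) (j : Pk.KJ.K0), hstabJ c _ j.2⟩ = c • jb j := hje c j _ rfl
      rw [← h1, hπ, hπ]
      refine Subtype.ext ?_
      exact hζe c (incl j) _ rfl
    · intro x y hxy
      obtain ⟨m, rfl⟩ := hμb.2 x
      obtain ⟨m', rfl⟩ := hμb.2 y
      rw [hi, hi] at hxy
      have h1 := hjb.1 hxy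
      have h2 : cyEps Pk m = cyEps Pk m' := congrArg Subtype.val h1
      rw [cyEps_injective Pk h2]
    · rintro ⟨_, ⟨j, rfl⟩⟩
      exact ⟨jb j, hπ j⟩
    · intro x
      obtain ⟨j, rfl⟩ := hjb.2 x
      rw [hπ]
      constructor
      · intro h
        have h1 : ζ (incl j) = 0 := congrArg Subtype.val h
        obtain ⟨m, hm⟩ := (hζk _).1 h1
        refine ⟨μ m, ?_⟩
        rw [hi]
        congr 1
        exact Subtype.ext hm
      · rintro ⟨y, hy⟩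
        obtain ⟨m, rfl⟩ := hμb.2 y
        rw [hi] at hy
        have h1 := hjb.1 hy
        refine Subtype.ext ?_
        show ζ (incl j) = 0
        rw [hζk]
        exact ⟨m, congrArg Subtype.val h1⟩
  rw [hb, ha]
  ring

/-- **The torsion sequence in `K₀`, universal form over a quotient**: `C` is a quotient
`pr : H → C` of a group `H` acting through `r : H →* G_ℚ` (final use: `H = ↥U`, `C = U / W`). -/
theorem tors_universalQ (hWω : W ≤ MonoidHom.ker (cycloChar p)) {H : Type} [Group H]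
    (pr : H →* C) (hpr : Function.Surjective pr) (r : H →* GQ)
    (Zobj Jobj Mobj Sobj : FinCMod p C)
    (ζ : ↥(cyZt Pk W) →+ Zobj.carrier) (hζs : Function.Surjective ζ)
    (hζk : ∀ j : ↥(cyZt Pk W), ζ j = 0 ↔ ∃ m : Fp1 p, cyEps Pk m = (j : Pk.KJ.K0))
    (hζe : ∀ (h : H) (j j' : ↥(cyZt Pk W)),
      (j' : Pk.KJ.K0) = Pk.KJ.K0.ρ (r h) (j : Pk.KJ.K0) → ζ j' = pr h • ζ j)
    (jb : ↥(cyJW Pk W) →+ Jobj.carrier) (hjb : Function.Bijective jb)
    (hje : ∀ (h : H) (j j' : ↥(cyJW Pk W)),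
      (j' : Pk.KJ.K0) = Pk.KJ.K0.ρ (r h) (j : Pk.KJ.K0) → jb j' = pr h • jb j)
    (μ : Fp1 p →+ Mobj.carrier) (hμb : Function.Bijective μ)
    (hμe : ∀ (h : H) (m : Fp1 p), μ ((Fp1 p).ρ (r h) m) = pr h • μ m)
    (σ : ↥(cyZt Pk W) →+ Sobj.carrier) (hσs : Function.Surjective σ)
    (hσk : ∀ j : ↥(cyZt Pk W), σ j = 0 ↔ (j : Pk.KJ.K0) ∈ cyJW Pk W)
    (hσe : ∀ (h : H) (j j' : ↥(cyZt Pk W)),
      (j' : Pk.KJ.K0) = Pk.KJ.K0.ρ (r h) (j : Pk.KJ.K0) → σ j' = pr h • σ j)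
    (hstabZ : ∀ (h : H) (j : Pk.KJ.K0), j ∈ cyZt Pk W → Pk.KJ.K0.ρ (r h) j ∈ cyZt Pk W)
    (hstabJ : ∀ (h : H) (j : Pk.KJ.K0), j ∈ cyJW Pk W → Pk.KJ.K0.ρ (r h) j ∈ cyJW Pk W)
    {d : FinCMod p C → ℤ} (hd : IsAdditive d) : d Zobj + d Mobj = d Jobj + d Sobj := by
  classical
  -- the inclusion `cyJW → cyZt`
  let incl : ↥(cyJW Pk W) →+ ↥(cyZt Pk W) := AddSubgroup.inclusion (cyJW_le_cyZt Pk W)
  have hincl : ∀ j : ↥(cyJW Pk W), ((incl j : ↥(cyZt Pk W)) : Pk.KJ.K0) = (j : Pk.KJ.K0) :=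
    fun _ => rfl
  -- the image `B` of `cyJW` in `Zobj`
  let B : AddSubgroup Zobj.carrier := (ζ.comp incl).range
  have hB : ∀ (c : C) (x : Zobj.carrier), x ∈ B → c • x ∈ B := by
    rintro c _ ⟨j, rfl⟩
    obtain ⟨h, rfl⟩ := hpr c
    refine ⟨⟨Pk.KJ.K0.ρ (r h) (j : Pk.KJ.K0), hstabJ h _ j.2⟩, ?_⟩
    exact hζe h (incl j) _ rfl
  let Bobj : FinCMod p C := Zobj.subObj B hB
  -- (b) `0 → B → Zobj → Sobj → 0`
  have hker : ζ.ker ≤ σ.ker := by
    intro j hj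
    rw [AddMonoidHom.mem_ker] at hj ⊢
    obtain ⟨m, hm⟩ := (hζk j).1 hj
    rw [hσk, ← hm]
    exact cyEps_mem_cyJW Pk W hWω m
  let qS : Zobj.carrier →+ Sobj.carrier := ζ.liftOfSurjective hζs ⟨σ, hker⟩
  have hq : ∀ j : ↥(cyZt Pk W), qS (ζ j) = σ j := fun j =>
    AddMonoidHom.liftOfRightInverse_comp_apply _ _ _ ⟨σ, hker⟩ j
  have hb : d Zobj = d Bobj + d Sobj := by
    refine hd Bobj Zobj Sobj B.subtype qS (fun c x => rfl) ?_ Subtype.val_injective ?_ ?_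
    · intro c x
      obtain ⟨h, rfl⟩ := hpr c
      obtain ⟨j, rfl⟩ := hζs x
      have h1 : ζ ⟨Pk.KJ.K0.ρ (r h) (j : Pk.KJ.K0), hstabZ h _ j.2⟩ = pr h • ζ j := hζe h j _ rfl
      rw [← h1, hq, hq]
      exact hσe h j _ rfl
    · intro s
      obtain ⟨j, rfl⟩ := hσs s
      exact ⟨ζ j, hq j⟩
    · intro x
      obtain ⟨j, rfl⟩ := hζs x
      rw [hq, hσk]
      constructor
      · intro hj
        exact ⟨⟨ζ j, ⟨⟨(j : Pk.KJ.K0), hj⟩, rfl⟩⟩, rfl⟩
      · rintro ⟨⟨_, ⟨j', rfl⟩⟩, hj'⟩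
        have h0 : ζ (j - incl j') = 0 := by
          rw [map_sub, sub_eq_zero]
          exact hj'.symm
        obtain ⟨m, hm⟩ := (hζk _).1 h0
        have e : (j : Pk.KJ.K0) = cyEps Pk m + (j' : Pk.KJ.K0) := by
          rw [hm]
          show (j : Pk.KJ.K0) = ((j : Pk.KJ.K0) - (j' : Pk.KJ.K0)) + (j' : Pk.KJ.K0)
          abel
        rw [e]
        exact (cyJW Pk W).add_mem (cyEps_mem_cyJW Pk W hWω m) j'.2
  -- (a) `0 → Mobj → Jobj → B → 0`
  let eJ : ↥(cyJW Pk W) ≃+ Jobj.carrier := AddEquiv.ofBijective jb hjb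
  let eM : Fp1 p ≃+ Mobj.carrier := AddEquiv.ofBijective μ hμb
  let εJ : Fp1 p →+ ↥(cyJW Pk W) :=
    { toFun := fun m => ⟨cyEps Pk m, cyEps_mem_cyJW Pk W hWω m⟩
      map_zero' := Subtype.ext (map_zero _)
      map_add' := fun a b => Subtype.ext (map_add _ a b) }
  let i : Mobj.carrier →+ Jobj.carrier := (jb.comp εJ).comp eM.symm.toAddMonoidHom
  let πB : ↥(cyJW Pk W) →+ ↥B :=
    { toFun := fun j => ⟨ζ (incl j), ⟨j, rfl⟩⟩
      map_zero' := Subtype.ext (by simp)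
      map_add' := fun a b => Subtype.ext (by simp) }
  let π : Jobj.carrier →+ Bobj.carrier := πB.comp eJ.symm.toAddMonoidHom
  have hi : ∀ m : Fp1 p, i (μ m) = jb (εJ m) := fun m => by
    show jb (εJ (eM.symm (μ m))) = jb (εJ m)
    rw [show eM.symm (μ m) = m from eM.symm_apply_apply m]
  have hπ : ∀ j : ↥(cyJW Pk W), π (jb j) = πB j := fun j => by
    show πB (eJ.symm (jb j)) = πB j
    rw [show eJ.symm (jb j) = j from eJ.symm_apply_apply j]
  have ha : d Jobj = d Mobj + d Bobj := by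
    refine hd Mobj Jobj Bobj i π ?_ ?_ ?_ ?_ ?_
    · intro c x
      obtain ⟨h, rfl⟩ := hpr c
      obtain ⟨m, rfl⟩ := hμb.2 x
      rw [← hμe, hi, hi]
      refine hje h _ _ ?_
      exact cyEps_comm Pk (r h) m
    · intro c x
      obtain ⟨h, rfl⟩ := hpr c
      obtain ⟨j, rfl⟩ := hjb.2 x
      have h1 : jb ⟨Pk.KJ.K0.ρ (r h) (j : Pk.KJ.K0), hstabJ h _ j.2⟩ = pr h • jb j :=
        hje h j _ rfl
      rw [← h1, hπ, hπ]
      refine Subtype.ext ?_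
      exact hζe h (incl j) _ rfl
    · intro x y hxy
      obtain ⟨m, rfl⟩ := hμb.2 x
      obtain ⟨m', rfl⟩ := hμb.2 y
      rw [hi, hi] at hxy
      have h1 := hjb.1 hxy
      have h2 : cyEps Pk m = cyEps Pk m' := congrArg Subtype.val h1
      rw [cyEps_injective Pk h2]
    · rintro ⟨_, ⟨j, rfl⟩⟩
      exact ⟨jb j, hπ j⟩
    · intro x
      obtain ⟨j, rfl⟩ := hjb.2 x
      rw [hπ]
      constructor
      · intro h
        have h1 : ζ (incl j) = 0 := congrArg Subtype.val h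
        obtain ⟨m, hm⟩ := (hζk _).1 h1
        refine ⟨μ m, ?_⟩
        rw [hi]
        congr 1
        exact Subtype.ext hm
      · rintro ⟨y, hy⟩
        obtain ⟨m, rfl⟩ := hμb.2 y
        rw [hi] at hy
        have h1 := hjb.1 hy
        refine Subtype.ext ?_
        show ζ (incl j) = 0
        rw [hζk]
        exact ⟨m, congrArg Subtype.val h1⟩
  rw [hb, ha]
  ring


end Fermat.Agent.S56.EC
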