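/-
S56, wall W2-EC, step (D) (architect of the `K₀` side: helper54): the SETTING of the cyclic case.
FIXED.

`𝒮 : CycSetup p S` : `W ∈ levelsS S`, `W ≤ U`, `W ≤ ker ω`, `p ∤ [U : W]`.

* `𝒮.N = W.subgroupOf U ⊴ ↥U`, `𝒮.Γ = ↥U ⧸ 𝒮.N` (finite, `𝒮.card_coprime`), `𝒮.proj : ↥U →* 𝒮.Γ`;
* `𝒮.ω : 𝒮.Γ →* (ZMod p)ˣ` : the cyclotomic character;
* `𝒮.L : OpenS S` (`L.U = W`), `L.field = ℚ̄^W` is normal over `ℚ`;
  `𝒮.ρ : 𝒮.Γ →* (L.field ≃ₐ[ℚ] L.field)` : restriction;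
* `FinCMod.ofRep X hfin` : a finite `𝔽_p[H]`-module `X : Rep (ZMod p) H` as a `FinCMod p H`;
  `𝒮.obj X hfin htriv : FinCMod p 𝒮.Γ` for `X : Rep (ZMod p) ↥U` with trivial action of `W`;
  `𝒮.descObj A htriv` for any `A : FinCMod p ↥U` with trivial action of `W`;
* `𝒮.T : GalStableSet L.field` (the primes over `S`), `𝒮.actf`, `𝒮.acti` : the actions of `Γ` on the
  primes of `L` over `S` and on the infinite places of `L` (`Ωf = ↥𝒮.T.carrier`,
  `Ωi = InfinitePlace L.field`).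
-/
import Fermat.Agent.S56.W2.EC.Cyclic.K0.Main
import Fermat.Agent.S56.W2.EC.Pack
import Fermat.Agent.F4.Dict.Level
import Fermat.Agent.S56.W2.EC.UnitClass

set_option autoImplicit false
set_option linter.unusedSectionVars false
set_option linter.style.haveILetI false

noncomputable section

namespace Fermat.Agent.S56.EC

open Fermat.Agent.F4 ExtCitation NumberField IsDedekindDomain

/-- **The setting of the cyclic case**: `W ≤ U`, `W` a level fixing `μ_p`, `p ∤ [U : W]`. -/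
structure CycSetup (p : ℕ) [Fact p.Prime] (S : Finset Nat.Primes) where
  W : Subgroup GQ
  U : Subgroup GQ
  hW : W ∈ (levelsS S).sets
  hWU : W ≤ U
  hω : W ≤ MonoidHom.ker (cycloChar p)
  hidx : ¬ p ∣ (W.subgroupOf U).index

namespace CycSetup

variable {p : ℕ} [Fact p.Prime] {S : Finset Nat.Primes} (𝒮 : CycSetup p S)

instance normal_W : 𝒮.W.Normal := (levelsS S).normal _ 𝒮.hW

instance finiteIndex_W : 𝒮.W.FiniteIndex := (levelsS S).finiteIndex _ 𝒮.hW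

/-- `W` as a subgroup of `U`. -/
abbrev N : Subgroup ↥𝒮.U := 𝒮.W.subgroupOf 𝒮.U

lemma mem_N (u : ↥𝒮.U) : u ∈ 𝒮.N ↔ (u : GQ) ∈ 𝒮.W := Subgroup.mem_subgroupOf

instance normal_N : 𝒮.N.Normal := Subgroup.normal_subgroupOf

instance finiteIndex_N : 𝒮.N.FiniteIndex := inferInstance

/-- **`Γ = U / W`**. -/
abbrev Γ : Type := ↥𝒮.U ⧸ 𝒮.N

instance finite_Γ : Finite 𝒮.Γ := Subgroup.finite_quotient_of_finiteIndex

/-- The projection `U → Γ`. -/
abbrev proj : ↥𝒮.U →* 𝒮.Γ := QuotientGroup.mk' 𝒮.N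

lemma proj_surjective : Function.Surjective 𝒮.proj := QuotientGroup.mk'_surjective _

lemma card_coprime : (Nat.card 𝒮.Γ).Coprime p := by
  rw [← Subgroup.index_eq_card]
  exact (((Fact.out : p.Prime).coprime_iff_not_dvd).mpr 𝒮.hidx).symm

/-- **The cyclotomic character of `Γ`**. -/
def ω : 𝒮.Γ →* (ZMod p)ˣ :=
  QuotientGroup.lift 𝒮.N ((cycloChar p).comp 𝒮.U.subtype) (fun n hn => by
    rw [MonoidHom.mem_ker]
    exact MonoidHom.mem_ker.mp (𝒮.hω ((𝒮.mem_N n).mp hn)))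

lemma ω_proj (u : ↥𝒮.U) : 𝒮.ω (𝒮.proj u) = cycloChar p (u : GQ) := rfl

/-- The level `W` as an open subgroup. -/
def L : OpenS S := ⟨𝒮.W, (levelsS S).isOpen_of_mem 𝒮.hW⟩

lemma L_U : 𝒮.L.U = 𝒮.W := rfl

instance isGalois_field : IsGalois ℚ 𝒮.L.field := by
  haveI := isGalois_Qbar
  refine (InfiniteGalois.normal_iff_isGalois 𝒮.L.field).mp ?_
  rw [𝒮.L.fixingSubgroup_field]
  exact 𝒮.normal_W

instance normal_field : Normal ℚ 𝒮.L.field := inferInstance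

/-- Restriction `G_ℚ → Gal(L/ℚ)`. -/
def res : GQ →* (𝒮.L.field ≃ₐ[ℚ] 𝒮.L.field) := AlgEquiv.restrictNormalHom 𝒮.L.field

lemma res_apply (g : GQ) (x : 𝒮.L.field) :
    ((𝒮.res g x : 𝒮.L.field) : AlgebraicClosure ℚ) = g (x : AlgebraicClosure ℚ) :=
  AlgEquiv.restrictNormal_commutes g 𝒮.L.field x

lemma res_eq_one_of_mem {g : GQ} (hg : g ∈ 𝒮.W) : 𝒮.res g = 1 := by
  refine AlgEquiv.ext fun x => Subtype.ext ?_
  rw [res_apply]
  exact (𝒮.L.mem_field_iff _).mp x.2 g hg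

/-- **The action of `Γ` on `L`**. -/
def ρ : 𝒮.Γ →* (𝒮.L.field ≃ₐ[ℚ] 𝒮.L.field) :=
  QuotientGroup.lift 𝒮.N (𝒮.res.comp 𝒮.U.subtype) (fun n hn => by
    rw [MonoidHom.mem_ker]
    exact 𝒮.res_eq_one_of_mem ((𝒮.mem_N n).mp hn))

lemma ρ_proj (u : ↥𝒮.U) : 𝒮.ρ (𝒮.proj u) = 𝒮.res (u : GQ) := rfl

end CycSetup

/-! ### The action on a Galois-stable set of primes -/

/-- The action of `Gal(L/ℚ)` on a Galois-stable set of primes. -/
def GalStableSet.finAct {L : Type} [Field L] [NumberField L] (T : GalStableSet L) :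
    (L ≃ₐ[ℚ] L) →* Equiv.Perm ↥T.carrier where
  toFun σ :=
    { toFun := fun v => ⟨galPr σ v.1, T.stable σ v.1 v.2⟩
      invFun := fun v => ⟨galPr σ⁻¹ v.1, T.stable σ⁻¹ v.1 v.2⟩
      left_inv := fun v => Subtype.ext (by
        show galPr σ⁻¹ (galPr σ v.1) = v.1
        rw [← galPr_mul, inv_mul_cancel, galPr_one])
      right_inv := fun v => Subtype.ext (by
        show galPr σ (galPr σ⁻¹ v.1) = v.1
        rw [← galPr_mul, mul_inv_cancel, galPr_one]) }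
  map_one' := Equiv.ext fun v => Subtype.ext (galPr_one v.1)
  map_mul' σ τ := Equiv.ext fun v => Subtype.ext (galPr_mul σ τ v.1)

lemma GalStableSet.finAct_apply {L : Type} [Field L] [NumberField L] (T : GalStableSet L)
    (σ : L ≃ₐ[ℚ] L) (v : ↥T.carrier) : ((T.finAct σ v : ↥T.carrier) : HeightOneSpectrum (𝓞 L)) =
      galPr σ v.1 := rfl

/-! ### Representations as `FinCMod` -/

section OfRep

variable {p : ℕ} [Fact p.Prime] {H : Type} [Group H]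

/-- The carrier of `FinCMod.ofRep`. -/
def RepMod (X : Rep.{0} (ZMod p) H) : Type := X

namespace RepMod

variable (X : Rep.{0} (ZMod p) H)

instance : AddCommGroup (RepMod X) := inferInstanceAs (AddCommGroup X)

/-- `X → RepMod X`. -/
def of : X →+ RepMod X := AddMonoidHom.id _

/-- `RepMod X → X`. -/
def val : RepMod X →+ X := AddMonoidHom.id _

variable {X}

@[simp] lemma val_of (x : X) : val X (of X x) = x := rfl

@[simp] lemma of_val (x : RepMod X) : of X (val X x) = x := rfl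

lemma val_injective : Function.Injective (val X) := fun _ _ h => h

variable (X)

instance : DistribMulAction H (RepMod X) where
  smul h x := of X (X.ρ h (val X x))
  one_smul x := by
    show of X (X.ρ 1 (val X x)) = x
    rw [map_one]
    rfl
  mul_smul g h x := by
    show of X (X.ρ (g * h) (val X x)) = of X (X.ρ g (val X (of X (X.ρ h (val X x)))))
    rw [map_mul]
    rfl
  smul_zero h := by
    show of X (X.ρ h (val X 0)) = 0
    rw [map_zero, map_zero, map_zero]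
  smul_add h x y := by
    show of X (X.ρ h (val X (x + y))) = of X (X.ρ h (val X x)) + of X (X.ρ h (val X y))
    rw [map_add, map_add, map_add]

variable {X}

lemma val_smul (h : H) (x : RepMod X) : val X (h • x) = X.ρ h (val X x) := rfl

end RepMod

/-- A finite `𝔽_p[H]`-module as a `FinCMod`. -/
def FinCMod.ofRep (X : Rep.{0} (ZMod p) H) (hfin : Module.Finite (ZMod p) X) : FinCMod p H :=
  { carrier := RepMod X
    isFinite := by
      haveI := hfin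
      exact (Module.finite_of_finite (ZMod p) : Finite X)
    killed := fun x => by
      apply RepMod.val_injective
      rw [map_nsmul, map_zero, ← Nat.cast_smul_eq_nsmul (ZMod p), ZMod.natCast_self, zero_smul] }

end OfRep

namespace CycSetup

variable {p : ℕ} [Fact p.Prime] {S : Finset Nat.Primes} (𝒮 : CycSetup p S)

/-- A finite `U`-module with trivial action of `W`, as a `Γ`-module. -/
def descObj (A : FinCMod p ↥𝒮.U)
    (htriv : ∀ (u : ↥𝒮.U), (u : GQ) ∈ 𝒮.W → ∀ a : A.carrier, u • a = a) : FinCMod p 𝒮.Γ :=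
  A.descend 𝒮.N (fun n hn a => htriv n ((𝒮.mem_N n).mp hn) a)

lemma descObj_smul (A : FinCMod p ↥𝒮.U)
    (htriv : ∀ (u : ↥𝒮.U), (u : GQ) ∈ 𝒮.W → ∀ a : A.carrier, u • a = a) (u : ↥𝒮.U)
    (a : (𝒮.descObj A htriv).carrier) :
    (𝒮.proj u) • a = DescMod.of 𝒮.N A.carrier (u • DescMod.val 𝒮.N A.carrier a) := rfl

/-- **`X̄`**: a finite `𝔽_p[U]`-module with trivial action of `W`, as a `Γ`-module. -/
def obj (X : Rep.{0} (ZMod p) ↥𝒮.U) (hfin : Module.Finite (ZMod p) X)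
    (htriv : ∀ (u : ↥𝒮.U), (u : GQ) ∈ 𝒮.W → ∀ x : X, X.ρ u x = x) : FinCMod p 𝒮.Γ :=
  𝒮.descObj (FinCMod.ofRep X hfin) (fun u hu _ => htriv u hu _)

/-- The underlying element of `X`. -/
def objVal (X : Rep.{0} (ZMod p) ↥𝒮.U) (hfin : Module.Finite (ZMod p) X)
    (htriv : ∀ (u : ↥𝒮.U), (u : GQ) ∈ 𝒮.W → ∀ x : X, X.ρ u x = x) :
    (𝒮.obj X hfin htriv).carrier →+ X :=
  (RepMod.val X).comp (DescMod.val 𝒮.N (RepMod X))

/-- The element of `X̄` attached to `x : X`. -/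
def objOf (X : Rep.{0} (ZMod p) ↥𝒮.U) (hfin : Module.Finite (ZMod p) X)
    (htriv : ∀ (u : ↥𝒮.U), (u : GQ) ∈ 𝒮.W → ∀ x : X, X.ρ u x = x) :
    X →+ (𝒮.obj X hfin htriv).carrier :=
  (DescMod.of 𝒮.N (RepMod X)).comp (RepMod.of X)

lemma objVal_objOf (X : Rep.{0} (ZMod p) ↥𝒮.U) (hfin : Module.Finite (ZMod p) X)
    (htriv : ∀ (u : ↥𝒮.U), (u : GQ) ∈ 𝒮.W → ∀ x : X, X.ρ u x = x) (x : X) :
    𝒮.objVal X hfin htriv (𝒮.objOf X hfin htriv x) = x := rfl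

lemma objOf_objVal (X : Rep.{0} (ZMod p) ↥𝒮.U) (hfin : Module.Finite (ZMod p) X)
    (htriv : ∀ (u : ↥𝒮.U), (u : GQ) ∈ 𝒮.W → ∀ x : X, X.ρ u x = x)
    (x : (𝒮.obj X hfin htriv).carrier) :
    𝒮.objOf X hfin htriv (𝒮.objVal X hfin htriv x) = x := rfl

lemma objVal_smul (X : Rep.{0} (ZMod p) ↥𝒮.U) (hfin : Module.Finite (ZMod p) X)
    (htriv : ∀ (u : ↥𝒮.U), (u : GQ) ∈ 𝒮.W → ∀ x : X, X.ρ u x = x) (u : ↥𝒮.U)
    (x : (𝒮.obj X hfin htriv).carrier) :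
    𝒮.objVal X hfin htriv ((𝒮.proj u) • x) = X.ρ u (𝒮.objVal X hfin htriv x) := rfl

/-! ### Places -/

/-- The primes of `L` over `S`, as a Galois-stable set. -/
def T : GalStableSet 𝒮.L.field where
  carrier := {v | v ∈ 𝒮.L.T}
  finite := 𝒮.L.T.finite_toSet
  stable := by
    intro σ v hv
    obtain ⟨q, hq, hqv⟩ := (𝒮.L.mem_T v).mp hv
    refine (𝒮.L.mem_T _).mpr ⟨q, hq, ?_⟩
    have h0 := (HeightOneSpectrum.valuation_lt_one_iff_mem (K := 𝒮.L.field) v _).mpr hqv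
    refine (HeightOneSpectrum.valuation_lt_one_iff_mem (K := 𝒮.L.field) (galPr σ v) _).mp ?_
    have h1 : σ ((((q : ℕ) : 𝓞 𝒮.L.field) : 𝒮.L.field)) =
        ((((q : ℕ) : 𝓞 𝒮.L.field) : 𝒮.L.field)) := by
      simp
    have h2 := galPr_valuation σ v ((((q : ℕ) : 𝓞 𝒮.L.field) : 𝒮.L.field))
    rw [h1] at h2
    exact lt_of_eq_of_lt h2 h0

lemma mem_T_carrier (v : HeightOneSpectrum (𝓞 𝒮.L.field)) : v ∈ 𝒮.T.carrier ↔ v ∈ 𝒮.L.T :=
  Iff.rfl

/-- The action of `Γ` on the places `T ⊔ S_∞` of `L`. -/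
abbrev actX : 𝒮.Γ →* Equiv.Perm (PlaceX 𝒮.T) := placeAct 𝒮.T 𝒮.ρ

/-- The action of `Γ` on the primes of `L` over `S`. -/
def actf : 𝒮.Γ →* Equiv.Perm ↥𝒮.T.carrier := 𝒮.T.finAct.comp 𝒮.ρ

lemma actf_apply (γ : 𝒮.Γ) (v : ↥𝒮.T.carrier) :
    ((𝒮.actf γ v : ↥𝒮.T.carrier) : HeightOneSpectrum (𝓞 𝒮.L.field)) = galPr (𝒮.ρ γ) v.1 := rfl

instance finite_T : Finite ↥𝒮.T.carrier := 𝒮.T.finite

/-- The action of `Γ` on the infinite places of `L`. -/
def acti : 𝒮.Γ →* Equiv.Perm (InfinitePlace 𝒮.L.field) :=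
  (MulAction.toPermHom (𝒮.L.field ≃ₐ[ℚ] 𝒮.L.field) (InfinitePlace 𝒮.L.field)).comp 𝒮.ρ

lemma acti_apply (γ : 𝒮.Γ) (w : InfinitePlace 𝒮.L.field) : 𝒮.acti γ w = 𝒮.ρ γ • w := rfl

/-- **`𝔽_p[T ⊔ S_∞] = 𝔽_p[T] ⊕ 𝔽_p[S_∞]`** in `K₀`. -/
theorem d_permObj_actX {d : FinCMod p 𝒮.Γ → ℤ} (hd : IsAdditive d) :
    d (permObj p 𝒮.actX) = d (permObj p 𝒮.actf) + d (permObj p 𝒮.acti) := by
  rw [← hd.d_permObj_sum 𝒮.actf 𝒮.acti]
  refine hd.d_permObj_congr _ _ (PlaceX.equivSum 𝒮.T) ?_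
  rintro c (v | w)
  · rfl
  · rfl

end CycSetup

end Fermat.Agent.S56.EC
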