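/-
S56, wall W2-EC, step (D), leaf (CL) (helper95): the `W`-invariants of `ker d_J`, abstract form.

`G` a group with levels `𝓤`, `W` a level, `ω : G → 𝔽_p^×` trivial on `W`; local groups
`r i : D i → G`, complexes `K i` of `D i`-modules with `ε i : μ_p → (K i)⁰` injective, equivariant,
with image `ker d_i`; `KJ = ∏ coInd (K i)`.  `Ω = ⨆ᵢ D i \ G / W` (given by `π i : G → Ω`).  Then
`j ↦ (π i g ↦ ω(g)⁻¹ ε⁻¹ (j_i g))` is an additive bijection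

  `Θ : (ker d_J)^W ≃ (Ω → 𝔽_p)`,   `Θ (γ j) (π i g) = ω(γ) Θ j (π i (g γ))`.
-/
import Fermat.Agent.F4.Coind.Prod

set_option autoImplicit false

noncomputable section

namespace Fermat.Agent.S56.EC

open Fermat.Agent.F4

variable {p : ℕ} [Fact p.Prime] {G : Type} [Group G] {ι : Type} {D : ι → Type}
  [∀ i, Group (D i)]

/-- The data of the finite places. -/
structure FinPlSetup (𝓤 : Levels G) (W : Subgroup G) (ω : G →* (ZMod p)ˣ)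
    (r : ∀ i, D i →* G) (K : ∀ i, Cx (ZMod p) (D i)) (Ω : Type) where
  hW : W ∈ 𝓤.sets
  hωW : ∀ w ∈ W, ω w = 1
  ε : ∀ i, ZMod p →ₗ[ZMod p] (K i).K0
  ε_inj : ∀ i, Function.Injective (ε i)
  ε_ρ : ∀ (i : ι) (d : D i) (m : ZMod p),
    (K i).K0.ρ d (ε i m) = ε i (((ω (r i d) : (ZMod p)ˣ) : ZMod p) * m)
  ε_ker : ∀ (i : ι) (t : (K i).K0), (K i).d t = 0 → ∃ m, ε i m = t
  ε_d : ∀ (i : ι) (m : ZMod p), (K i).d (ε i m) = 0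
  π : ∀ _ : ι, G → Ω
  π_surj : ∀ y, ∃ i g, π i g = y
  π_idx : ∀ i i' g g', π i g = π i' g' → i = i'
  π_eq : ∀ i g g', π i g = π i g' ↔ ∃ (d : D i) (u : G), u ∈ W ∧ g' = r i d * g * u

namespace FinPlSetup

variable {𝓤 : Levels G} {W : Subgroup G} {ω : G →* (ZMod p)ˣ} {r : ∀ i, D i →* G}
  {K : ∀ i, Cx (ZMod p) (D i)} {Ω : Type}

/-! ### The components of an element of `KJ⁰` -/

lemma pf_ρ (γ : G) (j : (coindPiCx r 𝓤 K).K0) (i : ι) (g : G) :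
    coindPiFun0 r 𝓤 K ((coindPiCx r 𝓤 K).K0.ρ γ j) i g = coindPiFun0 r 𝓤 K j i (g * γ) := rfl

lemma pf_d (j : (coindPiCx r 𝓤 K).K0) (i : ι) (g : G) :
    coindPiFun1 r 𝓤 K ((coindPiCx r 𝓤 K).d j) i g = (K i).d (coindPiFun0 r 𝓤 K j i g) := rfl

lemma pf_add (j j' : (coindPiCx r 𝓤 K).K0) (i : ι) (g : G) :
    coindPiFun0 r 𝓤 K (j + j') i g = coindPiFun0 r 𝓤 K j i g + coindPiFun0 r 𝓤 K j' i g := rfl

lemma pf_zero (i : ι) (g : G) : coindPiFun0 r 𝓤 K 0 i g = 0 := rfl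

lemma pf_mul_left (j : (coindPiCx r 𝓤 K).K0) (i : ι) (d : D i) (g : G) :
    coindPiFun0 r 𝓤 K j i (r i d * g) = (K i).K0.ρ d (coindPiFun0 r 𝓤 K j i g) :=
  coIndSub_equivariant ((show ∀ j, ((K j).coInd (r j) 𝓤).K0 from j) i) d g

lemma pf_ext {j j' : (coindPiCx r 𝓤 K).K0}
    (h : ∀ i g, coindPiFun0 r 𝓤 K j i g = coindPiFun0 r 𝓤 K j' i g) : j = j' :=
  funext fun i => Subtype.ext (funext fun g => h i g)

lemma pf_d_eq_zero {j : (coindPiCx r 𝓤 K).K0} (hj : (coindPiCx r 𝓤 K).d j = 0) (i : ι)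
    (g : G) : (K i).d (coindPiFun0 r 𝓤 K j i g) = 0 := by
  rw [← pf_d, hj]
  rfl

lemma d_eq_zero_of_pf {j : (coindPiCx r 𝓤 K).K0}
    (h : ∀ i g, (K i).d (coindPiFun0 r 𝓤 K j i g) = 0) : (coindPiCx r 𝓤 K).d j = 0 :=
  funext fun i => Subtype.ext (funext fun g => h i g)

lemma pf_mul_W {j : (coindPiCx r 𝓤 K).K0} (hj : ∀ w ∈ W, (coindPiCx r 𝓤 K).K0.ρ w j = j)
    (i : ι) (g : G) {w : G} (hw : w ∈ W) :
    coindPiFun0 r 𝓤 K j i (g * w) = coindPiFun0 r 𝓤 K j i g := by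
  rw [← pf_ρ, hj w hw]

/-- An element of `KJ⁰` from its components. -/
def mkJ (f : ∀ i, G → (K i).K0) (hf : ∀ i, f i ∈ coIndSub (r i) 𝓤 (K i).K0) :
    (coindPiCx r 𝓤 K).K0 :=
  fun i => ⟨f i, hf i⟩

lemma pf_mkJ (f : ∀ i, G → (K i).K0) (hf : ∀ i, f i ∈ coIndSub (r i) 𝓤 (K i).K0) (i : ι)
    (g : G) : coindPiFun0 r 𝓤 K (mkJ f hf) i g = f i g := rfl

/-! ### The map `Θ` -/

/-- A linear left inverse of `ε i`. -/
def sec (T : FinPlSetup 𝓤 W ω r K Ω) (i : ι) : (K i).K0 →ₗ[ZMod p] ZMod p :=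
  Classical.choose ((T.ε i).exists_leftInverse_of_injective
    (LinearMap.ker_eq_bot.2 (T.ε_inj i)))

lemma sec_ε (T : FinPlSetup 𝓤 W ω r K Ω) (i : ι) (m : ZMod p) : T.sec i (T.ε i m) = m :=
  LinearMap.congr_fun (Classical.choose_spec ((T.ε i).exists_leftInverse_of_injective
    (LinearMap.ker_eq_bot.2 (T.ε_inj i)))) m

lemma ε_sec (T : FinPlSetup 𝓤 W ω r K Ω) (i : ι) {t : (K i).K0} (ht : (K i).d t = 0) :
    T.ε i (T.sec i t) = t := by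
  obtain ⟨m, rfl⟩ := T.ε_ker i t ht
  rw [T.sec_ε]

/-- `ω(g)⁻¹ ε⁻¹ (j_i g)`. -/
def valAt (T : FinPlSetup 𝓤 W ω r K Ω) (j : (coindPiCx r 𝓤 K).K0) (i : ι) (g : G) : ZMod p :=
  (((ω g)⁻¹ : (ZMod p)ˣ) : ZMod p) * T.sec i (coindPiFun0 r 𝓤 K j i g)

lemma valAt_add (T : FinPlSetup 𝓤 W ω r K Ω) (j j' : (coindPiCx r 𝓤 K).K0) (i : ι) (g : G) :
    T.valAt (j + j') i g = T.valAt j i g + T.valAt j' i g := by
  unfold valAt
  rw [pf_add, map_add, mul_add]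

lemma valAt_zero (T : FinPlSetup 𝓤 W ω r K Ω) (i : ι) (g : G) :
    T.valAt (0 : (coindPiCx r 𝓤 K).K0) i g = 0 := by
  unfold valAt
  rw [pf_zero, map_zero, mul_zero]

lemma ε_valAt (T : FinPlSetup 𝓤 W ω r K Ω) {j : (coindPiCx r 𝓤 K).K0}
    (hd : (coindPiCx r 𝓤 K).d j = 0) (i : ι) (g : G) :
    T.ε i (((ω g : (ZMod p)ˣ) : ZMod p) * T.valAt j i g) = coindPiFun0 r 𝓤 K j i g := by
  unfold valAt
  rw [← mul_assoc, ← Units.val_mul, mul_inv_cancel, Units.val_one, one_mul]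
  exact T.ε_sec i (pf_d_eq_zero hd i g)

/-- `valAt` is constant on the double cosets `D_i g W`. -/
lemma valAt_dc (T : FinPlSetup 𝓤 W ω r K Ω) {j : (coindPiCx r 𝓤 K).K0}
    (hd : (coindPiCx r 𝓤 K).d j = 0) (hW : ∀ w ∈ W, (coindPiCx r 𝓤 K).K0.ρ w j = j)
    (i : ι) (d : D i) (g : G) {u : G} (hu : u ∈ W) :
    T.valAt j i (r i d * g * u) = T.valAt j i g := by
  have h1 : coindPiFun0 r 𝓤 K j i (r i d * g * u) =
      T.ε i (((ω (r i d) : (ZMod p)ˣ) : ZMod p) * T.sec i (coindPiFun0 r 𝓤 K j i g)) := by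
    rw [pf_mul_W hW i _ hu, pf_mul_left, ← T.ε_ρ, T.ε_sec i (pf_d_eq_zero hd i g)]
  unfold valAt
  rw [h1, T.sec_ε, map_mul ω, map_mul ω, T.hωW u hu, mul_one, mul_inv_rev, Units.val_mul,
    ← mul_assoc, mul_assoc _ _ (((ω (r i d) : (ZMod p)ˣ) : ZMod p)), ← Units.val_mul,
    inv_mul_cancel, Units.val_one, mul_one]

/-- The index of a chosen representative. -/
def idxOf (T : FinPlSetup 𝓤 W ω r K Ω) (y : Ω) : ι := (T.π_surj y).choose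

/-- A chosen representative. -/
def repOf (T : FinPlSetup 𝓤 W ω r K Ω) (y : Ω) : G := (T.π_surj y).choose_spec.choose

lemma π_repOf (T : FinPlSetup 𝓤 W ω r K Ω) (y : Ω) : T.π (T.idxOf y) (T.repOf y) = y :=
  (T.π_surj y).choose_spec.choose_spec

/-- **`Θ`** `: KJ⁰ → (Ω → 𝔽_p)`. -/
def theta (T : FinPlSetup 𝓤 W ω r K Ω) : (coindPiCx r 𝓤 K).K0 →+ (Ω → ZMod p) where
  toFun j y := T.valAt j (T.idxOf y) (T.repOf y)
  map_zero' := funext fun y => T.valAt_zero _ _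
  map_add' j j' := funext fun y => T.valAt_add j j' _ _

lemma theta_apply (T : FinPlSetup 𝓤 W ω r K Ω) (j : (coindPiCx r 𝓤 K).K0) (y : Ω) :
    T.theta j y = T.valAt j (T.idxOf y) (T.repOf y) := rfl

/-- `Θ j (π i g) = ω(g)⁻¹ ε⁻¹ (j_i g)` on `(ker d_J)^W`. -/
lemma theta_π (T : FinPlSetup 𝓤 W ω r K Ω) {j : (coindPiCx r 𝓤 K).K0}
    (hd : (coindPiCx r 𝓤 K).d j = 0) (hW : ∀ w ∈ W, (coindPiCx r 𝓤 K).K0.ρ w j = j)
    (i : ι) (g : G) : T.theta j (T.π i g) = T.valAt j i g := by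
  rw [theta_apply]
  have h := T.π_repOf (T.π i g)
  generalize T.repOf (T.π i g) = g' at h ⊢
  generalize T.idxOf (T.π i g) = i' at h ⊢
  obtain rfl := T.π_idx _ _ _ _ h
  obtain ⟨d, u, hu, rfl⟩ := (T.π_eq i' g' g).1 h
  exact (T.valAt_dc hd hW i' d g' hu).symm

/-- `ε (ω(g) Θ j (π i g)) = j_i g`. -/
lemma ε_theta (T : FinPlSetup 𝓤 W ω r K Ω) {j : (coindPiCx r 𝓤 K).K0}
    (hd : (coindPiCx r 𝓤 K).d j = 0) (hW : ∀ w ∈ W, (coindPiCx r 𝓤 K).K0.ρ w j = j)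
    (i : ι) (g : G) :
    T.ε i (((ω g : (ZMod p)ˣ) : ZMod p) * T.theta j (T.π i g)) = coindPiFun0 r 𝓤 K j i g := by
  rw [T.theta_π hd hW, T.ε_valAt hd]

/-- **Injectivity** of `Θ` on `(ker d_J)^W`. -/
theorem theta_eq_zero (T : FinPlSetup 𝓤 W ω r K Ω) {j : (coindPiCx r 𝓤 K).K0}
    (hd : (coindPiCx r 𝓤 K).d j = 0) (hW : ∀ w ∈ W, (coindPiCx r 𝓤 K).K0.ρ w j = j)
    (h : T.theta j = 0) : j = 0 := by
  refine pf_ext fun i g => ?_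
  rw [← T.ε_theta hd hW i g, h, Pi.zero_apply, mul_zero, map_zero]
  rfl

/-- The family of functions attached to `x : Ω → 𝔽_p`. -/
def ofFun (T : FinPlSetup 𝓤 W ω r K Ω) (x : Ω → ZMod p) (i : ι) (g : G) : (K i).K0 :=
  T.ε i (((ω g : (ZMod p)ˣ) : ZMod p) * x (T.π i g))

lemma π_mul_left (T : FinPlSetup 𝓤 W ω r K Ω) (i : ι) (d : D i) (g : G) :
    T.π i (r i d * g) = T.π i g :=
  ((T.π_eq i g (r i d * g)).2 ⟨d, 1, W.one_mem, (mul_one _).symm⟩).symm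

lemma π_mul_W (T : FinPlSetup 𝓤 W ω r K Ω) (i : ι) (g : G) {u : G} (hu : u ∈ W) :
    T.π i (g * u) = T.π i g :=
  ((T.π_eq i g (g * u)).2 ⟨1, u, hu, by rw [map_one, one_mul]⟩).symm

lemma ofFun_mem (T : FinPlSetup 𝓤 W ω r K Ω) (x : Ω → ZMod p) (i : ι) :
    T.ofFun x i ∈ coIndSub (r i) 𝓤 (K i).K0 := by
  refine ⟨fun d g => ?_, W, T.hW, fun g u hu => ?_⟩
  · show T.ε i (((ω (r i d * g) : (ZMod p)ˣ) : ZMod p) * x (T.π i (r i d * g))) =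
      (K i).K0.ρ d (T.ε i (((ω g : (ZMod p)ˣ) : ZMod p) * x (T.π i g)))
    rw [T.ε_ρ, T.π_mul_left, map_mul ω, Units.val_mul, mul_assoc]
  · show T.ε i (((ω (g * u) : (ZMod p)ˣ) : ZMod p) * x (T.π i (g * u))) =
      T.ε i (((ω g : (ZMod p)ˣ) : ZMod p) * x (T.π i g))
    rw [T.π_mul_W i g hu, map_mul ω, T.hωW u hu, mul_one]

/-- The element of `KJ⁰` attached to `x : Ω → 𝔽_p`. -/
def ofFunJ (T : FinPlSetup 𝓤 W ω r K Ω) (x : Ω → ZMod p) : (coindPiCx r 𝓤 K).K0 :=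
  mkJ (T.ofFun x) (T.ofFun_mem x)

lemma ofFunJ_d (T : FinPlSetup 𝓤 W ω r K Ω) (x : Ω → ZMod p) :
    (coindPiCx r 𝓤 K).d (T.ofFunJ x) = 0 :=
  d_eq_zero_of_pf fun i g => T.ε_d i _

lemma ofFunJ_fixed (T : FinPlSetup 𝓤 W ω r K Ω) (x : Ω → ZMod p) (w : G) (hw : w ∈ W) :
    (coindPiCx r 𝓤 K).K0.ρ w (T.ofFunJ x) = T.ofFunJ x := by
  refine pf_ext fun i g => ?_
  rw [pf_ρ]
  show T.ε i (((ω (g * w) : (ZMod p)ˣ) : ZMod p) * x (T.π i (g * w))) =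
    T.ε i (((ω g : (ZMod p)ˣ) : ZMod p) * x (T.π i g))
  rw [T.π_mul_W i g hw, map_mul ω, T.hωW w hw, mul_one]

/-- **Surjectivity** of `Θ` on `(ker d_J)^W`. -/
theorem theta_ofFunJ (T : FinPlSetup 𝓤 W ω r K Ω) (x : Ω → ZMod p) :
    T.theta (T.ofFunJ x) = x := by
  funext y
  obtain ⟨i, g, rfl⟩ := T.π_surj y
  rw [T.theta_π (T.ofFunJ_d x) (T.ofFunJ_fixed x)]
  unfold valAt
  show (((ω g)⁻¹ : (ZMod p)ˣ) : ZMod p) *
    T.sec i (T.ε i (((ω g : (ZMod p)ˣ) : ZMod p) * x (T.π i g))) = x (T.π i g)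
  rw [T.sec_ε, ← mul_assoc, ← Units.val_mul, inv_mul_cancel, Units.val_one, one_mul]

/-- `ker d_J` is stable. -/
lemma d_ρ_eq_zero {j : (coindPiCx r 𝓤 K).K0} (hd : (coindPiCx r 𝓤 K).d j = 0) (γ : G) :
    (coindPiCx r 𝓤 K).d ((coindPiCx r 𝓤 K).K0.ρ γ j) = 0 := by
  rw [(coindPiCx r 𝓤 K).comm, hd, map_zero]

/-- The `W`-invariants are stable (`W` is normal). -/
lemma fixed_ρ (T : FinPlSetup 𝓤 W ω r K Ω) {j : (coindPiCx r 𝓤 K).K0}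
    (hW : ∀ w ∈ W, (coindPiCx r 𝓤 K).K0.ρ w j = j) (γ : G) (w : G) (hw : w ∈ W) :
    (coindPiCx r 𝓤 K).K0.ρ w ((coindPiCx r 𝓤 K).K0.ρ γ j) = (coindPiCx r 𝓤 K).K0.ρ γ j := by
  have hn : W.Normal := 𝓤.normal W T.hW
  have hw' : γ⁻¹ * w * γ ∈ W := by
    have := hn.conj_mem w hw γ⁻¹
    rwa [inv_inv] at this
  refine pf_ext fun i g => ?_
  rw [pf_ρ, pf_ρ, pf_ρ]
  have e : g * w * γ = g * γ * (γ⁻¹ * w * γ) := by group
  rw [e, pf_mul_W hW i _ hw']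

/-- **Equivariance**: `Θ (γ j) (π i g) = ω(γ) Θ j (π i (g γ))`. -/
theorem theta_ρ (T : FinPlSetup 𝓤 W ω r K Ω) {j : (coindPiCx r 𝓤 K).K0}
    (hd : (coindPiCx r 𝓤 K).d j = 0) (hW : ∀ w ∈ W, (coindPiCx r 𝓤 K).K0.ρ w j = j)
    (γ : G) (i : ι) (g : G) :
    T.theta ((coindPiCx r 𝓤 K).K0.ρ γ j) (T.π i g) =
      ((ω γ : (ZMod p)ˣ) : ZMod p) * T.theta j (T.π i (g * γ)) := by
  rw [T.theta_π (d_ρ_eq_zero hd γ) (T.fixed_ρ hW γ), T.theta_π hd hW]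
  unfold valAt
  rw [pf_ρ, map_mul ω, mul_inv_rev, ← mul_assoc, ← Units.val_mul, ← mul_assoc,
    mul_inv_cancel, one_mul]

end FinPlSetup

end Fermat.Agent.S56.EC
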