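/-
S56, wall W2-EC, step (D), leaf (CL) (helper95): `(ker d_J)^W ≅ μ_p[S_f(L)]`.

`Pk : ECPack p S hpS`, `L : OpenS S` with `W = L.U` a level of `G_S`, `W ≤ ker ω`, `F = L.field`,
`T` the primes of `F` over `S`.  Then there is an additive bijection

  `Θ : cyJW Pk W = (ker d_J)^W → (T → 𝔽_p)`,   `Θ (γ j) x = ω(γ) Θ j (γ⁻¹ x)`   (`γ ∈ G_ℚ`)

(`cyJW_perm`).  The prime of `F` attached to `(q, g)` is `L.prAt q g = {a | ‖ι_q (g a)‖ < 1}`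
(`= g⁻¹ 𝔮₀`), and `Θ j (L.prAt q g) = ω(g)⁻¹ ε_q⁻¹ (j_q g)`.
-/
import Fermat.Agent.S56.W2.EC.Cyclic.TorsPermAbs
import Fermat.Agent.S56.W2.EC.Cyclic.TorsDefs
import Fermat.Agent.S56.W2.EC.Rich.LocH0
import Fermat.Agent.S56.W2.EC.Cyclic.Setup
import Fermat.Agent.F4.Dict.PlacesB

set_option autoImplicit false

noncomputable section

open NumberField IsDedekindDomain

namespace Fermat.Agent.S56.EC

open Fermat.Agent.F4 Fermat.Agent.F4Cf ExtCitation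

variable {p : ℕ} [Fact p.Prime] {S : Finset Nat.Primes}

/-! ### The primes of `F` over `S` -/

/-- The prime of `F = L.field` cut out by `a ↦ ι_q (g a)`. -/
def prAt (L : OpenS S) (q : Nat.Primes) (g : GQ) : HeightOneSpectrum (𝓞 L.field) :=
  letI : Fact (q : ℕ).Prime := ⟨q.2⟩
  F4G.primeOf (L.emb q g)

lemma prAt_mem_T (L : OpenS S) {q : Nat.Primes} (hq : q ∈ S) (g : GQ) : prAt L q g ∈ L.T :=
  L.primeOf_emb_mem_T_of_mem q hq g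

lemma exists_prAt_eq (L : OpenS S) (v : HeightOneSpectrum (𝓞 L.field)) (hv : v ∈ L.T) :
    ∃ q ∈ S, ∃ g : GQ, prAt L q g = v :=
  L.exists_primeOf_emb_eq v hv

lemma prAt_eq_iff (L : OpenS S) (q : Nat.Primes) (g g' : GQ) :
    prAt L q g = prAt L q g' ↔ L.InDC q g g' :=
  L.primeOf_emb_eq_iff q g g'

lemma natCast_mem_prAt (L : OpenS S) (q : Nat.Primes) (g : GQ) :
    (((q : ℕ) : ℕ) : 𝓞 L.field) ∈ (prAt L q g).asIdeal := by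
  letI : Fact (q : ℕ).Prime := ⟨q.2⟩
  exact F4G.natCast_mem_primeOf (L.emb q g)

lemma valuation_lt_one_prAt_iff (L : OpenS S) (q : Nat.Primes) (g : GQ) (x : L.field) :
    (prAt L q g).valuation L.field x < 1 ↔
      ‖(L.emb q g x : @PadicAlgCl (q : ℕ) ⟨q.2⟩)‖ < 1 := by
  letI : Fact (q : ℕ).Prime := ⟨q.2⟩
  exact (F4G.norm_lt_one_iff (L.emb q g) x).symm

/-- Primes over different rational primes are different. -/
lemma prAt_idx (L : OpenS S) {q q' : Nat.Primes} {g g' : GQ} (h : prAt L q g = prAt L q' g') :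
    q = q' := by
  by_contra hne
  have h1 := natCast_mem_prAt L q g
  have h2 := natCast_mem_prAt L q' g'
  rw [← h] at h2
  have hcop : Nat.Coprime (q : ℕ) (q' : ℕ) :=
    (Nat.coprime_primes q.2 q'.2).2 fun e => hne (Subtype.ext e)
  have hZ : IsCoprime ((q : ℕ) : ℤ) ((q' : ℕ) : ℤ) := Nat.isCoprime_iff_coprime.2 hcop
  obtain ⟨a, b, hab⟩ := hZ
  have h3 : ((a : 𝓞 L.field) * (((q : ℕ) : ℕ) : 𝓞 L.field) +
      (b : 𝓞 L.field) * (((q' : ℕ) : ℕ) : 𝓞 L.field)) = 1 := by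
    have := congrArg (Int.cast : ℤ → 𝓞 L.field) hab
    push_cast at this
    exact this
  have h4 : (1 : 𝓞 L.field) ∈ (prAt L q g).asIdeal := by
    rw [← h3]
    exact Ideal.add_mem _ (Ideal.mul_mem_left _ _ h1) (Ideal.mul_mem_left _ _ h2)
  exact (prAt L q g).isPrime.ne_top ((Ideal.eq_top_iff_one _).2 h4)

/-- The action of `G_ℚ` on the primes: `γ|_F (L.prAt q g) = L.prAt q (g γ⁻¹)`. -/
theorem galPr_prAt (L : OpenS S) [Normal ℚ L.field] (γ : GQ) (q : Nat.Primes) (g : GQ) :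
    galPr (AlgEquiv.restrictNormalHom L.field γ) (prAt L q g) = prAt L q (g * γ⁻¹) := by
  apply HeightOneSpectrum.ext
  ext x
  rw [← HeightOneSpectrum.valuation_lt_one_iff_mem (K := L.field),
    ← HeightOneSpectrum.valuation_lt_one_iff_mem (K := L.field), galPr_valuation',
    valuation_lt_one_prAt_iff, valuation_lt_one_prAt_iff, OpenS.emb_apply, OpenS.emb_apply]
  have h1 : ((AlgEquiv.restrictNormalHom L.field γ).symm (x : L.field) : L.field) =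
      AlgEquiv.restrictNormalHom L.field γ⁻¹ (x : L.field) := by
    rw [map_inv]
    rfl
  have h2 : (((AlgEquiv.restrictNormalHom L.field γ).symm (x : L.field) : L.field) :
      AlgebraicClosure ℚ) = γ⁻¹ ((x : L.field) : AlgebraicClosure ℚ) := by
    rw [h1]
    exact AlgEquiv.restrictNormal_commutes γ⁻¹ L.field (x : L.field)
  rw [h2]
  rfl

/-! ### The setup -/

variable {hpS : pPrime p ∈ S}

/-- The finite-place setup of a level `W = L.U`. -/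
def finPlSetup (Pk : ECPack p S hpS) (L : OpenS S) (hL : L.U ∈ (levelsS S).sets)
    (hWω : L.U ≤ MonoidHom.ker (cycloChar p)) :
    FinPlSetup (levelsS S) L.U (cycloChar p) (fun q : ↥S => primeLocalToGlobal q.1)
      (fun q : ↥S => (Pk.loc q).K) ↥({v | v ∈ L.T} : Set (HeightOneSpectrum (𝓞 L.field))) where
  hW := hL
  hωW := fun w hw => MonoidHom.mem_ker.1 (hWω hw)
  ε := fun q => (Pk.loc q).ε.f0
  ε_inj := fun q => (Pk.loc q).ε_inj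
  ε_ρ := fun q d m => ((Pk.loc q).ε.comm0 d m).symm
  ε_ker := fun q t ht => ecR3_ker_d Pk.hφ (Pk.P q) t ht
  ε_d := fun q m => ecR3_d_eps (Pk.P q) m
  π := fun q g => ⟨prAt L q.1 g, prAt_mem_T L q.2 g⟩
  π_surj := fun y => by
    obtain ⟨q, hq, g, hg⟩ := exists_prAt_eq L y.1 y.2
    exact ⟨⟨q, hq⟩, g, Subtype.ext hg⟩
  π_idx := fun q q' g g' h => Subtype.ext (prAt_idx L (congrArg Subtype.val h))
  π_eq := fun q g g' => by
    rw [Subtype.mk.injEq]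
    exact prAt_eq_iff L q.1 g g'

lemma finPlSetup_π (Pk : ECPack p S hpS) (L : OpenS S) (hL : L.U ∈ (levelsS S).sets)
    (hWω : L.U ≤ MonoidHom.ker (cycloChar p)) (q : ↥S) (g : GQ) :
    (((finPlSetup Pk L hL hWω).π q g : ↥({v | v ∈ L.T} : Set (HeightOneSpectrum (𝓞 L.field)))) :
      HeightOneSpectrum (𝓞 L.field)) = prAt L q.1 g := rfl

namespace CycSetup

variable (𝒮 : CycSetup p S) (Pk : ECPack p S hpS)

/-- The finite-place setup of `𝒮`. -/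
def finPl : FinPlSetup (levelsS S) 𝒮.W (cycloChar p) (fun q : ↥S => primeLocalToGlobal q.1)
    (fun q : ↥S => (Pk.loc q).K) ↥𝒮.T.carrier :=
  finPlSetup Pk 𝒮.L 𝒮.hW 𝒮.hω

lemma finPl_π (q : ↥S) (g : GQ) :
    (((𝒮.finPl Pk).π q g : ↥𝒮.T.carrier) : HeightOneSpectrum (𝓞 𝒮.L.field)) =
      prAt 𝒮.L q.1 g := rfl

/-- The action of `u ∈ U` on the primes: `(actf ū)⁻¹ (π q g) = π q (g u)`. -/
lemma actf_inv_π (u : ↥𝒮.U) (q : ↥S) (g : GQ) :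
    (𝒮.actf (𝒮.proj u))⁻¹ ((𝒮.finPl Pk).π q g) = (𝒮.finPl Pk).π q (g * (u : GQ)) := by
  rw [← map_inv]
  apply Subtype.ext
  rw [actf_apply, finPl_π, finPl_π, ← map_inv]
  show galPr (AlgEquiv.restrictNormalHom 𝒮.L.field ((u⁻¹ : ↥𝒮.U) : GQ)) (prAt 𝒮.L q.1 g) = _
  rw [galPr_prAt]
  congr 1

/-- **`Θ`** `: (ker d_J)^W → μ_p[S_f(L)]`. -/
def thetaJ : ↥(cyJW Pk 𝒮.W) →+ (muPermObj 𝒮.ω 𝒮.actf).carrier :=
  (𝒮.finPl Pk).theta.comp (cyJW Pk 𝒮.W).subtype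

lemma thetaJ_apply (j : ↥(cyJW Pk 𝒮.W)) (x : ↥𝒮.T.carrier) :
    (𝒮.thetaJ Pk j : ↥𝒮.T.carrier → ZMod p) x = (𝒮.finPl Pk).theta (j : Pk.KJ.K0) x := rfl

/-- `ε_q (ω(g) Θ j (prime of (q, g))) = j_q g`. -/
theorem eps_thetaJ (j : ↥(cyJW Pk 𝒮.W)) (q : ↥S) (g : GQ) :
    (Pk.loc q).ε.f0 (((cycloChar p g : (ZMod p)ˣ) : ZMod p) *
        (𝒮.thetaJ Pk j : ↥𝒮.T.carrier → ZMod p) ((𝒮.finPl Pk).π q g)) =
      coindPiFun0 (fun q : ↥S => primeLocalToGlobal q.1) (levelsS S)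
        (fun q : ↥S => (Pk.loc q).K) (j : Pk.KJ.K0) q g :=
  (𝒮.finPl Pk).ε_theta j.2.1 j.2.2 q g

theorem thetaJ_injective : Function.Injective (𝒮.thetaJ Pk) := by
  rw [injective_iff_map_eq_zero]
  intro j hj
  apply Subtype.ext
  exact (𝒮.finPl Pk).theta_eq_zero j.2.1 j.2.2 hj

theorem thetaJ_surjective : Function.Surjective (𝒮.thetaJ Pk) := fun x =>
  ⟨⟨(𝒮.finPl Pk).ofFunJ x, (𝒮.finPl Pk).ofFunJ_d x, (𝒮.finPl Pk).ofFunJ_fixed x⟩,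
    (𝒮.finPl Pk).theta_ofFunJ x⟩

theorem thetaJ_bijective : Function.Bijective (𝒮.thetaJ Pk) :=
  ⟨𝒮.thetaJ_injective Pk, 𝒮.thetaJ_surjective Pk⟩

/-- **Equivariance**: `Θ (u j) = ū • Θ j` in `μ_p[S_f(L)]`. -/
theorem thetaJ_smul (u : ↥𝒮.U) (j j' : ↥(cyJW Pk 𝒮.W))
    (h : (j' : Pk.KJ.K0) = Pk.KJ.K0.ρ (u : GQ) (j : Pk.KJ.K0)) :
    𝒮.thetaJ Pk j' = 𝒮.proj u • 𝒮.thetaJ Pk j := by
  funext x
  obtain ⟨q, g, rfl⟩ := (𝒮.finPl Pk).π_surj x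
  show (𝒮.finPl Pk).theta (j' : Pk.KJ.K0) ((𝒮.finPl Pk).π q g) =
    ((𝒮.ω (𝒮.proj u) : (ZMod p)ˣ) : ZMod p) *
      (𝒮.finPl Pk).theta (j : Pk.KJ.K0) ((𝒮.actf (𝒮.proj u))⁻¹ ((𝒮.finPl Pk).π q g))
  rw [𝒮.actf_inv_π Pk, h, 𝒮.ω_proj]
  exact (𝒮.finPl Pk).theta_ρ j.2.1 j.2.2 (u : GQ) q g

/-- **(CL)** `(ker d_J)^W ≅ μ_p[S_f(L)]`, equivariantly. -/
theorem exists_cyJW_equiv :
    ∃ Θ : ↥(cyJW Pk 𝒮.W) →+ (muPermObj 𝒮.ω 𝒮.actf).carrier, Function.Bijective Θ ∧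
      ∀ (u : ↥𝒮.U) (j j' : ↥(cyJW Pk 𝒮.W)),
        (j' : Pk.KJ.K0) = Pk.KJ.K0.ρ (u : GQ) (j : Pk.KJ.K0) → Θ j' = 𝒮.proj u • Θ j :=
  ⟨𝒮.thetaJ Pk, 𝒮.thetaJ_bijective Pk, 𝒮.thetaJ_smul Pk⟩

end CycSetup

end Fermat.Agent.S56.EC
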