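/-
S56, wall W2-EC, step (D), seat (N3-WIRE) (helper95): the `tors` field of `CycK0` for the concrete
objects.

For `𝒮 : CycSetup p S`, `Pk : ECPack p S hpS`:

* `𝒮.ShaObj : FinCMod p 𝒮.Γ` : the locally trivial characters `cyShaV S 𝒮.W` with the twisted
  conjugation action (`𝒮.shaVal`, `𝒮.shaVal_smul`); no dependence on `Pk`;
* `𝒮.ZObj Pk : FinCMod p 𝒮.Γ` : `(ker d_C)^W = cyZ Pk 𝒮.W` (`𝒮.zVal`, `𝒮.zVal_smul`), presented by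
  `𝒮.zeta Pk : cyZt → ZObj` (`zeta_surjective`, `zeta_eq_zero_iff`, `zeta_smul`);
* `𝒮.sigma Pk : cyZt → ShaObj` : the connecting map (`sigma_surjective`, `sigma_eq_zero_iff`,
  `sigma_smul`);
* `CycSetup.tors_field` : `d Z = d μ_p[S_f(L)] - d μ_p + d Sha` for every additive `d`.
-/
import Fermat.Agent.S56.W2.EC.Cyclic.TorsPerm
import Fermat.Agent.S56.W2.EC.Cyclic.Tors
import Fermat.Agent.S56.W2.EC.Cyclic.ShaJV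
import Fermat.Agent.S56.W2.EC.Cyclic.HmuObj

set_option autoImplicit false
set_option linter.unusedSectionVars false
set_option linter.style.haveILetI false

noncomputable section

namespace Fermat.Agent.S56.EC

open Fermat.Agent.F4 Fermat.Agent.F4Cf ExtCitation

variable {p : ℕ} [Fact p.Prime] {S : Finset Nat.Primes}

/-! ### A finite module from a stable finite subgroup -/

section OfSub

variable {H : Type} [Group H] {M : Type} [AddCommGroup M]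

/-- A finite subgroup `B` of an abelian group `M`, killed by `p`, stable under a family of maps
`a h : M → M` which is an action by additive maps on `B`, as a `FinCMod`. -/
def FinCMod.ofSub (B : AddSubgroup M) (hfin : Finite ↥B) (hp : ∀ x ∈ B, p • x = 0)
    (a : H → M → M) (ha_mem : ∀ h x, x ∈ B → a h x ∈ B) (ha_one : ∀ x ∈ B, a 1 x = x)
    (ha_mul : ∀ g h x, x ∈ B → a (g * h) x = a g (a h x)) (ha_zero : ∀ h, a h 0 = 0)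
    (ha_add : ∀ h x y, x ∈ B → y ∈ B → a h (x + y) = a h x + a h y) : FinCMod p H :=
  letI : DistribMulAction H ↥B :=
    { smul := fun h x => ⟨a h (x : M), ha_mem h _ x.2⟩
      one_smul := fun x => Subtype.ext (ha_one _ x.2)
      mul_smul := fun g h x => Subtype.ext (ha_mul g h _ x.2)
      smul_zero := fun h => Subtype.ext (ha_zero h)
      smul_add := fun h x y => Subtype.ext (ha_add h _ _ x.2 y.2) }
  { carrier := ↥B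
    isFinite := hfin
    killed := fun x => Subtype.ext (by
      rw [AddSubgroup.coe_nsmul, AddSubgroup.coe_zero]
      exact hp _ x.2) }

end OfSub

/-! ### The twisted conjugation -/

section Conj

variable (W : Subgroup GQ) (hWn : W.Normal)

/-- The locally trivial characters are stable under the twisted conjugation. -/
lemma cyConj_mem_cyShaV (γ : GQ) {χ : ↥W → Fp1 p} (hχ : χ ∈ cyShaV S W) :
    cyConj W hWn γ χ ∈ cyShaV S W := by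
  refine ⟨cyConj_mem_cyHomW S W hWn γ hχ.1, fun q g d h => ?_⟩
  show (Fp1 p).ρ γ (χ _) = 0
  have e : γ⁻¹ * (g * primeLocalToGlobal q.1 d * g⁻¹) * γ =
      (γ⁻¹ * g) * primeLocalToGlobal q.1 d * (γ⁻¹ * g)⁻¹ := by group
  have h' : (γ⁻¹ * g) * primeLocalToGlobal q.1 d * (γ⁻¹ * g)⁻¹ ∈ W := by
    rw [← e]
    have := hWn.conj_mem _ h γ⁻¹
    rwa [inv_inv] at this
  have h2 := hχ.2 q (γ⁻¹ * g) d h'
  have h3 : χ ⟨γ⁻¹ * (g * primeLocalToGlobal q.1 d * g⁻¹) * γ, by rw [e]; exact h'⟩ = 0 := by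
    rw [← h2]
    exact congrArg χ (Subtype.ext e)
  rw [h3, map_zero]

end Conj

/-! ### Finiteness -/

lemma finite_cyShaV (W : Subgroup GQ) (hW : W ∈ (levelsS S).sets) :
    Finite ↥(cyShaV (p := p) S W) := by
  haveI := finite_cyHomW (p := p) S W hW
  refine Finite.of_injective (fun χ : ↥(cyShaV (p := p) S W) =>
    (⟨χ.1, cyShaV_le S W χ.2⟩ : ↥(cyHomW (p := p) S W))) (fun a b h => ?_)
  have h1 : (a : ↥W → Fp1 p) = (b : ↥W → Fp1 p) :=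
    congrArg (fun t : ↥(cyHomW (p := p) S W) => (t : ↥W → Fp1 p)) h
  exact Subtype.ext h1

namespace CycSetup

variable (𝒮 : CycSetup p S)

/-! ### `Sha` -/

/-- The locally trivial characters as a `U`-module (twisted conjugation). -/
def ShaU : FinCMod p ↥𝒮.U :=
  FinCMod.ofSub (H := ↥𝒮.U) (cyShaV (p := p) S 𝒮.W) (finite_cyShaV 𝒮.W 𝒮.hW)
    (fun χ _ => funext fun w => by
      show p • (χ w : Fp1 p) = 0
      rw [← Nat.cast_smul_eq_nsmul (ZMod p), ZMod.natCast_self, zero_smul])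
    (fun u χ => cyConj 𝒮.W 𝒮.normal_W (u : GQ) χ)
    (fun u _ hχ => cyConj_mem_cyShaV 𝒮.W 𝒮.normal_W (u : GQ) hχ)
    (fun χ _ => cyConj_one 𝒮.W 𝒮.normal_W χ)
    (fun u u' χ _ => cyConj_mul 𝒮.W 𝒮.normal_W (u : GQ) (u' : GQ) χ)
    (fun u => cyConj_zero 𝒮.W 𝒮.normal_W (u : GQ))
    (fun u χ χ' _ _ => cyConj_add 𝒮.W 𝒮.normal_W (u : GQ) χ χ')

/-- The underlying character. -/
def shaUVal : (𝒮.ShaU).carrier ≃+ ↥(cyShaV (p := p) S 𝒮.W) := AddEquiv.refl _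

lemma shaUVal_smul (u : ↥𝒮.U) (χ : (𝒮.ShaU).carrier) :
    ((𝒮.shaUVal (u • χ) : ↥(cyShaV (p := p) S 𝒮.W)) : ↥𝒮.W → Fp1 p) =
      cyConj 𝒮.W 𝒮.normal_W (u : GQ)
        ((𝒮.shaUVal χ : ↥(cyShaV (p := p) S 𝒮.W)) : ↥𝒮.W → Fp1 p) := rfl

lemma ShaU_triv (u : ↥𝒮.U) (hu : (u : GQ) ∈ 𝒮.W) (χ : (𝒮.ShaU).carrier) : u • χ = χ :=
  𝒮.shaUVal.injective
    (Subtype.ext (cyConj_of_mem S 𝒮.W 𝒮.normal_W 𝒮.hω hu (𝒮.shaUVal χ).2.1))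

/-- **`Sha`**: the locally trivial characters of `W`, as a `Γ`-module. -/
def ShaObj : FinCMod p 𝒮.Γ := 𝒮.descObj 𝒮.ShaU 𝒮.ShaU_triv

/-- `Sha ≃ cyShaV S W`. -/
def shaVal : (𝒮.ShaObj).carrier ≃+ ↥(cyShaV (p := p) S 𝒮.W) :=
  AddEquiv.trans
    { DescMod.val 𝒮.N (𝒮.ShaU).carrier with
      invFun := DescMod.of 𝒮.N (𝒮.ShaU).carrier
      left_inv := fun _ => rfl
      right_inv := fun _ => rfl }
    𝒮.shaUVal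

lemma shaVal_smul (u : ↥𝒮.U) (s : (𝒮.ShaObj).carrier) :
    ((𝒮.shaVal (𝒮.proj u • s) : ↥(cyShaV (p := p) S 𝒮.W)) : ↥𝒮.W → Fp1 p) =
      cyConj 𝒮.W 𝒮.normal_W (u : GQ) ((𝒮.shaVal s : ↥(cyShaV (p := p) S 𝒮.W)) :
        ↥𝒮.W → Fp1 p) := rfl

end CycSetup

/-! ### `(ker d_C)^W` -/

section Z

variable {hpS : pPrime p ∈ S} (Pk : ECPack p S hpS)

lemma cyZ_stable (W : Subgroup GQ) (hWn : W.Normal) (g : GQ) (z : Pk.KC.K0)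
    (hz : z ∈ cyZ Pk W) : Pk.KC.K0.ρ g z ∈ cyZ Pk W := by
  refine ⟨?_, fun w hw => ?_⟩
  · rw [Pk.KC.comm, hz.1, map_zero]
  · have hw' : g⁻¹ * w * g ∈ W := by
      have := hWn.conj_mem w hw g⁻¹
      rwa [inv_inv] at this
    have h := hz.2 _ hw'
    calc Pk.KC.K0.ρ w (Pk.KC.K0.ρ g z)
        = Pk.KC.K0.ρ g (Pk.KC.K0.ρ (g⁻¹ * w * g) z) := by
          rw [← Module.End.mul_apply, ← map_mul, ← Module.End.mul_apply, ← map_mul]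
          congr 2
          group
      _ = Pk.KC.K0.ρ g z := by rw [h]

/-- `cyZt → cyZ`, `j ↦ [j]`. -/
def cyMkZ (W : Subgroup GQ) : ↥(cyZt Pk W) →+ ↥(cyZ Pk W) where
  toFun j := ⟨cyMk Pk (j : Pk.KJ.K0), (cyMk_mem_cyZ_iff Pk W _).2 j.2⟩
  map_zero' := Subtype.ext (map_zero (cyMk Pk))
  map_add' a b := Subtype.ext (map_add (cyMk Pk) _ _)

lemma cyMkZ_coe (W : Subgroup GQ) (j : ↥(cyZt Pk W)) :
    ((cyMkZ Pk W j : ↥(cyZ Pk W)) : Pk.KC.K0) = cyMk Pk (j : Pk.KJ.K0) := rfl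

lemma cyMkZ_surjective (W : Subgroup GQ) : Function.Surjective (cyMkZ Pk W) := by
  intro z
  obtain ⟨j, hj⟩ := cyMk_surjective Pk (z : Pk.KC.K0)
  have hj' : j ∈ cyZt Pk W := by
    rw [← cyMk_mem_cyZ_iff, hj]
    exact z.2
  exact ⟨⟨j, hj'⟩, Subtype.ext hj⟩

end Z

namespace CycSetup

variable (𝒮 : CycSetup p S) {hpS : pPrime p ∈ S} (Pk : ECPack p S hpS)

lemma finite_cyJW : Finite ↥(cyJW Pk 𝒮.W) :=
  Finite.of_injective (𝒮.thetaJ Pk) (𝒮.thetaJ_injective Pk)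

lemma finite_cyZt : Finite ↥(cyZt Pk 𝒮.W) := by
  rw [(cyDeltaHom Pk 𝒮.W).finite_iff_finite_ker_range]
  constructor
  · haveI := 𝒮.finite_cyJW Pk
    refine Finite.of_injective (fun j : ↥(cyDeltaHom Pk 𝒮.W).ker =>
      (⟨((j : ↥(cyZt Pk 𝒮.W)) : Pk.KJ.K0),
        (cyDelta_eq_zero_iff Pk 𝒮.W _).1 j.2⟩ : ↥(cyJW Pk 𝒮.W))) (fun a b h => ?_)
    have h1 : (((a : ↥(cyZt Pk 𝒮.W)) : Pk.KJ.K0)) = (((b : ↥(cyZt Pk 𝒮.W)) : Pk.KJ.K0)) :=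
      congrArg (fun t : ↥(cyJW Pk 𝒮.W) => (t : Pk.KJ.K0)) h
    exact Subtype.ext (Subtype.ext h1)
  · have h : (cyDeltaHom Pk 𝒮.W).range = cyShaV S 𝒮.W := cyShaJ_eq_cyShaV Pk 𝒮.W 𝒮.hW 𝒮.hω
    rw [h]
    exact finite_cyShaV 𝒮.W 𝒮.hW

lemma finite_cyZ : Finite ↥(cyZ Pk 𝒮.W) := by
  haveI := 𝒮.finite_cyZt Pk
  exact Finite.of_surjective _ (cyMkZ_surjective Pk 𝒮.W)

/-- `(ker d_C)^W` as a `U`-module. -/
def ZU : FinCMod p ↥𝒮.U :=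
  FinCMod.ofSub (H := ↥𝒮.U) (cyZ Pk 𝒮.W) (𝒮.finite_cyZ Pk)
    (fun z _ => by
      rw [← Nat.cast_smul_eq_nsmul (ZMod p), ZMod.natCast_self, zero_smul])
    (fun u z => Pk.KC.K0.ρ (u : GQ) z)
    (fun u z hz => cyZ_stable Pk 𝒮.W 𝒮.normal_W (u : GQ) z hz)
    (fun z _ => by
      show Pk.KC.K0.ρ ((1 : ↥𝒮.U) : GQ) z = z
      rw [Subgroup.coe_one, map_one]
      rfl)
    (fun u u' z _ => by
      show Pk.KC.K0.ρ ((u * u' : ↥𝒮.U) : GQ) z = Pk.KC.K0.ρ (u : GQ) (Pk.KC.K0.ρ (u' : GQ) z)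
      rw [Subgroup.coe_mul, map_mul]
      rfl)
    (fun u => map_zero _)
    (fun u z z' _ _ => map_add _ _ _)

/-- The underlying element of `(ker d_C)^W`. -/
def zUVal : (𝒮.ZU Pk).carrier ≃+ ↥(cyZ Pk 𝒮.W) := AddEquiv.refl _

lemma zUVal_smul (u : ↥𝒮.U) (z : (𝒮.ZU Pk).carrier) :
    ((𝒮.zUVal Pk (u • z) : ↥(cyZ Pk 𝒮.W)) : Pk.KC.K0) =
      Pk.KC.K0.ρ (u : GQ) ((𝒮.zUVal Pk z : ↥(cyZ Pk 𝒮.W)) : Pk.KC.K0) := rfl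

lemma ZU_triv (u : ↥𝒮.U) (hu : (u : GQ) ∈ 𝒮.W) (z : (𝒮.ZU Pk).carrier) : u • z = z :=
  (𝒮.zUVal Pk).injective (Subtype.ext ((𝒮.zUVal Pk z).2.2 (u : GQ) hu))

/-- **`Z = (ker d_C)^W`** as a `Γ`-module. -/
def ZObj : FinCMod p 𝒮.Γ := 𝒮.descObj (𝒮.ZU Pk) (𝒮.ZU_triv Pk)

/-- `Z ≃ cyZ Pk W`. -/
def zVal : (𝒮.ZObj Pk).carrier ≃+ ↥(cyZ Pk 𝒮.W) :=
  AddEquiv.trans
    { DescMod.val 𝒮.N (𝒮.ZU Pk).carrier with
      invFun := DescMod.of 𝒮.N (𝒮.ZU Pk).carrier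
      left_inv := fun _ => rfl
      right_inv := fun _ => rfl }
    (𝒮.zUVal Pk)

lemma zVal_smul (u : ↥𝒮.U) (a : (𝒮.ZObj Pk).carrier) :
    ((𝒮.zVal Pk (𝒮.proj u • a) : ↥(cyZ Pk 𝒮.W)) : Pk.KC.K0) =
      Pk.KC.K0.ρ (u : GQ) ((𝒮.zVal Pk a : ↥(cyZ Pk 𝒮.W)) : Pk.KC.K0) := rfl

/-! ### The presentations -/

/-- `ζ : cyZt → Z`, `j ↦ [j]`. -/
def zeta : ↥(cyZt Pk 𝒮.W) →+ (𝒮.ZObj Pk).carrier :=
  (𝒮.zVal Pk).symm.toAddMonoidHom.comp (cyMkZ Pk 𝒮.W)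

lemma zVal_zeta (j : ↥(cyZt Pk 𝒮.W)) :
    ((𝒮.zVal Pk (𝒮.zeta Pk j) : ↥(cyZ Pk 𝒮.W)) : Pk.KC.K0) = cyMk Pk (j : Pk.KJ.K0) := by
  show ((𝒮.zVal Pk ((𝒮.zVal Pk).symm (cyMkZ Pk 𝒮.W j)) : ↥(cyZ Pk 𝒮.W)) : Pk.KC.K0) = _
  rw [AddEquiv.apply_symm_apply]
  rfl

lemma zeta_surjective : Function.Surjective (𝒮.zeta Pk) :=
  (𝒮.zVal Pk).symm.surjective.comp (cyMkZ_surjective Pk 𝒮.W)

lemma zeta_eq_zero_iff (j : ↥(cyZt Pk 𝒮.W)) :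
    𝒮.zeta Pk j = 0 ↔ ∃ m : Fp1 p, cyEps Pk m = (j : Pk.KJ.K0) := by
  rw [← cyMk_eq_zero_iff, ← 𝒮.zVal_zeta Pk j]
  constructor
  · intro h
    rw [h, map_zero]
    rfl
  · intro h
    apply (𝒮.zVal Pk).injective
    rw [map_zero]
    exact Subtype.ext h

lemma zeta_smul (u : ↥𝒮.U) (j j' : ↥(cyZt Pk 𝒮.W))
    (h : (j' : Pk.KJ.K0) = Pk.KJ.K0.ρ (u : GQ) (j : Pk.KJ.K0)) :
    𝒮.zeta Pk j' = 𝒮.proj u • 𝒮.zeta Pk j := by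
  apply (𝒮.zVal Pk).injective
  apply Subtype.ext
  rw [𝒮.zVal_smul Pk, 𝒮.zVal_zeta Pk, 𝒮.zVal_zeta Pk, h, cyMk_comm]

/-- `σ : cyZt → Sha`, the connecting map. -/
def sigma : ↥(cyZt Pk 𝒮.W) →+ (𝒮.ShaObj).carrier :=
  𝒮.shaVal.symm.toAddMonoidHom.comp
    { toFun := fun j => (⟨cyDeltaHom Pk 𝒮.W j, by
        rw [← cyShaJ_eq_cyShaV Pk 𝒮.W 𝒮.hW 𝒮.hω]
        exact ⟨j, rfl⟩⟩ : ↥(cyShaV (p := p) S 𝒮.W))
      map_zero' := Subtype.ext (map_zero (cyDeltaHom Pk 𝒮.W))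
      map_add' := fun a b => Subtype.ext (map_add (cyDeltaHom Pk 𝒮.W) a b) }

lemma shaVal_sigma (j : ↥(cyZt Pk 𝒮.W)) :
    ((𝒮.shaVal (𝒮.sigma Pk j) : ↥(cyShaV (p := p) S 𝒮.W)) : ↥𝒮.W → Fp1 p) =
      cyDeltaHom Pk 𝒮.W j := by
  show ((𝒮.shaVal (𝒮.shaVal.symm _) : ↥(cyShaV (p := p) S 𝒮.W)) : ↥𝒮.W → Fp1 p) = _
  rw [AddEquiv.apply_symm_apply]
  rfl

lemma sigma_surjective : Function.Surjective (𝒮.sigma Pk) := by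
  intro s
  have h : ((𝒮.shaVal s : ↥(cyShaV (p := p) S 𝒮.W)) : ↥𝒮.W → Fp1 p) ∈ cyShaJ Pk 𝒮.W := by
    rw [cyShaJ_eq_cyShaV Pk 𝒮.W 𝒮.hW 𝒮.hω]
    exact (𝒮.shaVal s).2
  obtain ⟨j, hj⟩ := h
  refine ⟨j, 𝒮.shaVal.injective (Subtype.ext ?_)⟩
  rw [𝒮.shaVal_sigma Pk]
  exact hj

lemma sigma_eq_zero_iff (j : ↥(cyZt Pk 𝒮.W)) :
    𝒮.sigma Pk j = 0 ↔ (j : Pk.KJ.K0) ∈ cyJW Pk 𝒮.W := by
  rw [← cyDelta_eq_zero_iff, ← 𝒮.shaVal_sigma Pk j]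
  constructor
  · intro h
    rw [h, map_zero]
    rfl
  · intro h
    apply 𝒮.shaVal.injective
    rw [map_zero]
    exact Subtype.ext h

lemma sigma_smul (u : ↥𝒮.U) (j j' : ↥(cyZt Pk 𝒮.W))
    (h : (j' : Pk.KJ.K0) = Pk.KJ.K0.ρ (u : GQ) (j : Pk.KJ.K0)) :
    𝒮.sigma Pk j' = 𝒮.proj u • 𝒮.sigma Pk j := by
  apply 𝒮.shaVal.injective
  apply Subtype.ext
  rw [𝒮.shaVal_smul, 𝒮.shaVal_sigma Pk, 𝒮.shaVal_sigma Pk]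
  funext w
  have hw : (u : GQ)⁻¹ * (w : GQ) * (u : GQ) ∈ 𝒮.W := by
    have := 𝒮.normal_W.conj_mem w w.2 (u : GQ)⁻¹
    rwa [inv_inv] at this
  rw [cyConj_apply 𝒮.W 𝒮.normal_W (u : GQ) _ w hw]
  refine cyDelta_conj Pk 𝒮.W (u : GQ) j j' ⟨_, hw⟩ w h ?_
  show (w : GQ) = (u : GQ) * ((u : GQ)⁻¹ * (w : GQ) * (u : GQ)) * (u : GQ)⁻¹
  group

/-- `μ_p → muObj`. -/
def muMap : Fp1 p →+ (muObj 𝒮.ω).carrier := MuMod.of 𝒮.ω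

lemma muMap_bijective : Function.Bijective 𝒮.muMap :=
  ⟨fun _ _ h => h, fun x => ⟨x, rfl⟩⟩

lemma muMap_smul (u : ↥𝒮.U) (m : Fp1 p) :
    𝒮.muMap ((Fp1 p).ρ (u : GQ) m) = 𝒮.proj u • 𝒮.muMap m := rfl

/-! ### The `tors` field -/

/-- **(N3)** `d Z = d μ_p[S_f(L)] - d μ_p + d Sha`. -/
theorem tors_field (d : FinCMod p 𝒮.Γ → ℤ) (hd : IsAdditive d) :
    d (𝒮.ZObj Pk) = d (muPermObj 𝒮.ω 𝒮.actf) - d (muObj 𝒮.ω) + d 𝒮.ShaObj := by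
  have h := tors_universalQ Pk 𝒮.W 𝒮.hω 𝒮.proj 𝒮.proj_surjective 𝒮.U.subtype
    (𝒮.ZObj Pk) (muPermObj 𝒮.ω 𝒮.actf) (muObj 𝒮.ω) 𝒮.ShaObj
    (𝒮.zeta Pk) (𝒮.zeta_surjective Pk) (𝒮.zeta_eq_zero_iff Pk) (𝒮.zeta_smul Pk)
    (𝒮.thetaJ Pk) (𝒮.thetaJ_bijective Pk) (𝒮.thetaJ_smul Pk)
    𝒮.muMap 𝒮.muMap_bijective 𝒮.muMap_smul
    (𝒮.sigma Pk) (𝒮.sigma_surjective Pk) (𝒮.sigma_eq_zero_iff Pk) (𝒮.sigma_smul Pk)
    (fun u j hj => cyZt_stable Pk 𝒮.W 𝒮.normal_W (u : GQ) j hj)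
    (fun u j hj => cyJW_stable Pk 𝒮.W 𝒮.normal_W (u : GQ) j hj) hd
  linarith

end CycSetup

end Fermat.Agent.S56.EC
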