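/-
S56, wall W2-EC, step (D), leaf (N6) (helper54): the units identity in `K₀`.

* `d_torObj_unitMod` : `d(E_T[p]) = d(μ_p)` for a number field `L ∋ ζ_p` with a group `C` acting
  through `ρ : C →* Gal(L/ℚ)`, `ρ c ζ = ζ ^ ω c`;
* `CycSetup.d_torObj_units` : the same in the setting of the cyclic case;
* `CycSetup.units_K0` : **(N6)**
  `d(E_T/p) - d(μ_p) + d(𝔽_p) = d(𝔽_p[Ωf]) + d(𝔽_p[Ω∞])`, `E_T/p = modObj (UnitMod 𝒮.T 𝒮.ρ)`.
-/
import Fermat.Agent.S56.W2.EC.Cyclic.Setup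
import Fermat.Agent.F4.Kum.Level

set_option autoImplicit false
set_option linter.unusedSectionVars false
set_option linter.style.haveILetI false

noncomputable section

namespace Fermat.Agent.S56.EC

open Fermat.Agent.F4 ExtCitation NumberField IsDedekindDomain Fermat.Agent.S14SI

section General

variable {p : ℕ} [Fact p.Prime] {C : Type} [Group C]
  {L : Type} [Field L] [NumberField L] (T : GalStableSet L) (ρ : C →* (L ≃ₐ[ℚ] L))

/-- The element of `L` under an `S`-unit. -/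
def UnitMod.toL (u : UnitMod T ρ) : L :=
  (((UnitMod.val T ρ u).toMul : ↥(sUnits L T.carrier)) : Lˣ)

lemma UnitMod.toL_injective : Function.Injective (UnitMod.toL T ρ) := by
  intro u u' h
  apply UnitMod.val_injective
  apply Additive.toMul.injective
  apply Subtype.ext
  apply Units.ext
  exact h

lemma UnitMod.toL_zero : UnitMod.toL T ρ 0 = 1 := rfl

lemma UnitMod.toL_add (u u' : UnitMod T ρ) :
    UnitMod.toL T ρ (u + u') = UnitMod.toL T ρ u * UnitMod.toL T ρ u' := rfl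

lemma UnitMod.toL_smul (c : C) (u : UnitMod T ρ) :
    UnitMod.toL T ρ (c • u) = ρ c (UnitMod.toL T ρ u) := rfl

lemma UnitMod.toL_nsmul (n : ℕ) (u : UnitMod T ρ) :
    UnitMod.toL T ρ (n • u) = UnitMod.toL T ρ u ^ n := by
  induction n with
  | zero => rw [zero_nsmul, pow_zero]; rfl
  | succ n ih => rw [succ_nsmul, pow_succ, UnitMod.toL_add, ih]

lemma UnitMod.toL_ne_zero (u : UnitMod T ρ) : UnitMod.toL T ρ u ≠ 0 :=
  Units.ne_zero _

lemma UnitMod.toL_neg (u : UnitMod T ρ) :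
    UnitMod.toL T ρ (-u) = (UnitMod.toL T ρ u)⁻¹ := by
  have h : UnitMod.toL T ρ (-u) * UnitMod.toL T ρ u = 1 := by
    rw [← UnitMod.toL_add, neg_add_cancel, UnitMod.toL_zero]
  exact eq_inv_of_mul_eq_one_left h

lemma UnitMod.toL_zsmul (n : ℤ) (u : UnitMod T ρ) :
    UnitMod.toL T ρ (n • u) = UnitMod.toL T ρ u ^ n := by
  cases n with
  | ofNat n =>
    rw [Int.ofNat_eq_natCast, natCast_zsmul, zpow_natCast, UnitMod.toL_nsmul]
  | negSucc n =>
    rw [negSucc_zsmul, zpow_negSucc, UnitMod.toL_neg, UnitMod.toL_nsmul]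

/-- A root of unity of order `p`, as an `S`-unit. -/
def UnitMod.ofRoot {ζ : L} (hζ : ζ ^ p = 1) : UnitMod T ρ :=
  have hp : p ≠ 0 := (Fact.out : p.Prime).ne_zero
  UnitMod.of T ρ (Additive.ofMul
    ⟨Units.mk0 ζ (fun h => by
        rw [h, zero_pow hp] at hζ
        exact zero_ne_one hζ),
      Fermat.Agent.F4Kum.mem_sUnits_of_pow hp T.carrier (by
        have h1 : (Units.mk0 ζ (fun h => by
            rw [h, zero_pow hp] at hζ
            exact zero_ne_one hζ) : Lˣ) ^ p = 1 := by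
          apply Units.ext
          rw [Units.val_pow_eq_pow_val, Units.val_mk0, Units.val_one]
          exact hζ
        rw [h1]
        exact one_mem _)⟩)

lemma UnitMod.toL_ofRoot {ζ : L} (hζ : ζ ^ p = 1) :
    UnitMod.toL T ρ (UnitMod.ofRoot T ρ hζ) = ζ := rfl

/-- **`E_T[p] = μ_p`** in `K₀`. -/
theorem d_torObj_unitMod (ω : C →* (ZMod p)ˣ) {ζ : L} (hζ : IsPrimitiveRoot ζ p)
    (hρ : ∀ c : C, ρ c ζ = ζ ^ ((ω c : (ZMod p)ˣ) : ZMod p).val)
    {d : FinCMod p C → ℤ} (hd : IsAdditive d) :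
    d (torObj (C := C) (UnitMod T ρ) (NeZero.ne p)) = d (muObj ω) := by
  have hp : p ≠ 0 := NeZero.ne p
  have hζp : ζ ^ p = 1 := hζ.pow_eq_one
  set z : UnitMod T ρ := UnitMod.ofRoot T ρ hζp with hz
  have hzL : UnitMod.toL T ρ z = ζ := rfl
  let f : ℤ →+ UnitMod T ρ := zmultiplesHom (UnitMod T ρ) z
  have hfL : ∀ m : ℤ, UnitMod.toL T ρ (f m) = ζ ^ m := by
    intro m
    show UnitMod.toL T ρ (m • z) = ζ ^ m
    rw [UnitMod.toL_zsmul, hzL]
  have hf : f (p : ℤ) = 0 := by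
    apply UnitMod.toL_injective T ρ
    rw [hfL, zpow_natCast, hζp, UnitMod.toL_zero]
  let g : ZMod p →+ UnitMod T ρ := ZMod.lift p ⟨f, hf⟩
  have hg : ∀ m : ℤ, g (m : ZMod p) = f m := fun m => ZMod.lift_coe p ⟨f, hf⟩ m
  have hginj : Function.Injective g := by
    rw [ZMod.lift_injective]
    intro m hm
    have h1 : ζ ^ m = 1 := by
      rw [← hfL m]
      show UnitMod.toL T ρ (f m) = 1
      rw [show f m = 0 from hm, UnitMod.toL_zero]
    rw [hζ.zpow_eq_one_iff_dvd] at h1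
    exact (ZMod.intCast_zmod_eq_zero_iff_dvd m p).2 h1
  symm
  refine (hd.d_torObj_eq hp (muObj ω) (g.comp (MuMod.val ω)) ?_ ?_ ?_).symm
  · exact hginj.comp (MuMod.val_injective (ω := ω))
  · intro c b
    obtain ⟨m, hm⟩ := ZMod.intCast_surjective (MuMod.val ω b)
    apply UnitMod.toL_injective T ρ
    have h1 : MuMod.val ω (c • b) =
        ((((((ω c : (ZMod p)ˣ) : ZMod p).val : ℕ) : ℤ) * m : ℤ) : ZMod p) := by
      have h0 : MuMod.val ω (c • b) = ((ω c : (ZMod p)ˣ) : ZMod p) * MuMod.val ω b := rfl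
      rw [h0, ← hm]
      push_cast
      rw [ZMod.natCast_zmod_val]
    show UnitMod.toL T ρ (g (MuMod.val ω (c • b))) = UnitMod.toL T ρ (c • g (MuMod.val ω b))
    rw [h1, hg, hfL, UnitMod.toL_smul, ← hm, hg, hfL, map_zpow₀, hρ, zpow_mul, zpow_natCast]
  · intro x hx
    have h1 : UnitMod.toL T ρ x ^ p = 1 := by
      rw [← UnitMod.toL_nsmul, hx, UnitMod.toL_zero]
    obtain ⟨i, -, hi⟩ := hζ.eq_pow_of_pow_eq_one h1
    refine ⟨MuMod.of ω (((i : ℤ) : ZMod p)), ?_⟩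
    apply UnitMod.toL_injective T ρ
    show UnitMod.toL T ρ (g ((i : ℤ) : ZMod p)) = UnitMod.toL T ρ x
    rw [hg, hfL, zpow_natCast]
    exact hi

end General

namespace CycSetup

variable {p : ℕ} [Fact p.Prime] {S : Finset Nat.Primes} (𝒮 : CycSetup p S)

/-- The Galois action on the `p`-th roots of unity. -/
lemma gal_root {ζ : AlgebraicClosure ℚ} (hζ : ζ ^ p = 1) (g : GQ) :
    g ζ = ζ ^ ((cycloChar p g : (ZMod p)ˣ) : ZMod p).val := by
  have hp : p ≠ 0 := (Fact.out : p.Prime).ne_zero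
  have hζ0 : ζ ≠ 0 := fun h => by
    rw [h, zero_pow hp] at hζ
    exact zero_ne_one hζ
  have hzp : (Units.mk0 ζ hζ0) ^ p = 1 := by
    apply Units.ext
    rw [Units.val_pow_eq_pow_val, Units.val_mk0, Units.val_one]
    exact hζ
  haveI : NeZero p := ⟨hp⟩
  have h := modularCyclotomicCharacter.spec (AlgebraicClosure ℚ)
    (card_rootsOfUnity_eq_self p) (g : AlgebraicClosure ℚ ≃+* AlgebraicClosure ℚ)
    (t := Units.mk0 ζ hζ0) ((mem_rootsOfUnity p _).2 hzp)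
  exact h

/-- The `p`-th roots of unity are in `L`. -/
lemma root_mem_field {ζ : AlgebraicClosure ℚ} (hζ : ζ ^ p = 1) : ζ ∈ 𝒮.L.field := by
  rw [𝒮.L.mem_field_iff]
  intro g hg
  have h1 : cycloChar p g = 1 := MonoidHom.mem_ker.mp (𝒮.hω hg)
  rw [gal_root hζ g, h1, Units.val_one, ZMod.val_one, pow_one]

/-- **`E_T[p] = μ_p`** in `K₀`, in the setting of the cyclic case. -/
theorem d_torObj_units {d : FinCMod p 𝒮.Γ → ℤ} (hd : IsAdditive d) :
    d (torObj (C := 𝒮.Γ) (UnitMod 𝒮.T 𝒮.ρ) (NeZero.ne p)) = d (muObj 𝒮.ω) := by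
  have hp : p ≠ 0 := NeZero.ne p
  haveI : NeZero ((p : ℕ) : AlgebraicClosure ℚ) := ⟨by exact_mod_cast hp⟩
  obtain ⟨ζ, hζ⟩ := HasEnoughRootsOfUnity.exists_primitiveRoot (AlgebraicClosure ℚ) p
  have hζp : ζ ^ p = 1 := hζ.pow_eq_one
  let ζL : 𝒮.L.field := ⟨ζ, 𝒮.root_mem_field hζp⟩
  have hζL : IsPrimitiveRoot ζL p :=
    IsPrimitiveRoot.of_map_of_injective (f := 𝒮.L.field.val) (by exact hζ)
      (𝒮.L.field.val.injective)
  refine d_torObj_unitMod 𝒮.T 𝒮.ρ 𝒮.ω hζL ?_ hd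
  intro c
  obtain ⟨u, rfl⟩ := 𝒮.proj_surjective c
  apply Subtype.ext
  rw [𝒮.ρ_proj, 𝒮.res_apply]
  show (u : GQ) ζ = ((ζL ^ ((𝒮.ω (𝒮.proj u) : (ZMod p)ˣ) : ZMod p).val : 𝒮.L.field) :
    AlgebraicClosure ℚ)
  rw [gal_root hζp (u : GQ)]
  rfl

/-- **(N6)** the units identity in `K₀`. -/
theorem units_K0 {d : FinCMod p 𝒮.Γ → ℤ} (hd : IsAdditive d) :
    d (modObj (C := 𝒮.Γ) (UnitMod 𝒮.T 𝒮.ρ) (NeZero.ne p)) - d (muObj 𝒮.ω) + d (trivObj p 𝒮.Γ) =
      d (permObj p 𝒮.actf) + d (permObj p 𝒮.acti) := by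
  have hp : p ≠ 0 := NeZero.ne p
  have key := unit_chi hd hp 𝒮.T 𝒮.ρ
  rw [chiTop_eq, 𝒮.d_torObj_units hd] at key
  rw [← 𝒮.d_permObj_actX hd]
  exact key

end CycSetup

end Fermat.Agent.S56.EC
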