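/-
S56, wall W2-EC, leaf (C) + (D): the FINAL WIRING (helper54).

`psiCoindZero_of_recip` : Tate's formula `Ψ(coInd_U X) = 0` of the cyclic case, from the reciprocity
identity (N4)  `d(Ш) = d(D(A/p))`  alone: (N1) Kummer (`CycSetup.kummer_K0`, helper86), (N3) torsion
(`CycSetup.tors_field`, helper95), (N6) units (`CycSetup.units_K0`, helper54), the glue (G1)–(G4)
and the assembly (`psiCoindZero_of_fields`, helper48, helper95) are proved.
-/
import Fermat.Agent.S56.W2.EC.Cyclic.Glue.Asm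
import Fermat.Agent.S56.W2.EC.Cyclic.KummerObj
import Fermat.Agent.S56.W2.EC.Cyclic.TorsObj
import Fermat.Agent.S56.W2.EC.Cyclic.UnitsK0

set_option autoImplicit false

namespace Fermat.Agent.S56.EC

open Fermat.Agent.F4 ExtCitation

/-- **(N4)**, the reciprocity identity of a cyclic setting:
`d(Ш¹_S(W, μ_p)) = d(D(A/p))`, `A = T_W / (E + Fˣ)`. -/
def CycSetup.RecipField {p : ℕ} [Fact p.Prime] {S : Finset Nat.Primes} (𝒮 : CycSetup p S) : Prop :=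
  ∀ d : FinCMod p 𝒮.Γ → ℤ, IsAdditive d →
    d 𝒮.ShaObj = d (dualObj 𝒮.ω (modObj (C := 𝒮.Γ) 𝒮.A (NeZero.ne p)))

/-- **(C) + (D)** from the reciprocity identity. -/
theorem psiCoindZero_of_recip {p : ℕ} [Fact p.Prime] {S : Finset Nat.Primes}
    {hpS : pPrime p ∈ S} (Pk : ECPack p S hpS)
    (hrecip : ∀ 𝒮 : CycSetup p S, 𝒮.RecipField) : PsiCoindZero S Pk.KC :=
  psiCoindZero_of_fields Pk fun 𝒮 =>
    ⟨modObj (C := 𝒮.Γ) (UnitMod 𝒮.T 𝒮.ρ) (NeZero.ne p), 𝒮.ZObj Pk, 𝒮.ShaObj, 𝒮.A,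
      inferInstance, inferInstance, inferInstance, 𝒮.zVal Pk, 𝒮.zVal_smul Pk,
      fun _ hd => 𝒮.kummer_K0 hpS hd, 𝒮.tors_field Pk, hrecip 𝒮, fun _ hd => 𝒮.units_K0 hd⟩

end Fermat.Agent.S56.EC
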