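/-
S56, wall W2-EC, step (D), sub-seat (EQ) (helper58): Galois-equivariance of the reciprocity
pairing `B(χ, t) = inv(Z_t ∪ trN1 χ)` on `M' = 𝔽_p[G/W]`, `W` a normal open subgroup.

For `γ ∈ G` the right translation `R_γ : M' → M'`, `(R_γ m)(x) = m(x γ)`, is `G`-equivariant.
 * (EQ-cup) `cup1 (Z ∘ R) y = cup1 Z (R ∘ y)`                       (`cup1_homCxMap`, F4/HyperPair);
 * (EQ-N)  `shN1 (R_γ ∘ y) = conj_γ (shN1 y)` for cocycles `y`, `(conj_γ χ)(w) = χ(γ⁻¹ w γ)`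
           (`rEq_shN1`);
 * (EQ-T)  `shT1 (Z ∘ R_{γ⁻¹}) = conj_γ (shT1 Z) - D⁰ (Z.1(γ)(δ_{γW}))` for cocycles `Z`,
           `conj_γ (a, b) = (w ↦ γ a(γ⁻¹ w γ), γ b)`                                (`rEq_shT1`);
 * (EQ-UC) `Rel1α x z ⇒ Rel1α (γ x) (conj_γ z)` for the restricted datum       (`rEq_rel1α`);
 * `recipEq_main` : if `shT1 Z ~ x` and `shT1 Z' ~ γ x` (`Rel1α`), and `y`, `y'` are smooth
   cocycles of `M'` with `shN1 y' = conj_γ (shN1 y)`, then `inv(Z' ∪ y') = inv(Z ∪ y)`.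
-/
import Fermat.Agent.F4.Shapiro.Hyper
import Fermat.Agent.F4.Shapiro.Module
import Fermat.Agent.F4.UC.Res
import Fermat.Agent.F4.HyperPair
import Fermat.Agent.F4.DDT.Ext
import Fermat.Agent.F4.PT.Abs.Iota

set_option autoImplicit false

open CategoryTheory groupCohomology

namespace Fermat.Agent.S56.EC

open Fermat.Agent.F4

section Translation

variable {k G : Type} [CommRing k] [Group G] (W : Subgroup G) (hWn : W.Normal)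

include hWn in
lemma rEq_conj_mem (γ : G) (w : ↥W) : γ⁻¹ * (w : G) * γ ∈ W := by
  have := hWn.conj_mem w w.2 γ⁻¹
  rwa [inv_inv] at this

/-- Right translation by `γ` on `G ⧸ W` (`W` normal): `g W ↦ g γ W`. -/
def rEqTr (γ : G) : G ⧸ W → G ⧸ W :=
  Quotient.map' (fun g => g * γ) (fun a b h => by
    rw [QuotientGroup.leftRel_apply] at h ⊢
    have h1 := hWn.conj_mem _ h γ⁻¹
    have h2 : (a * γ)⁻¹ * (b * γ) = γ⁻¹ * (a⁻¹ * b) * γ⁻¹⁻¹ := by group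
    rw [h2]
    exact h1)

lemma rEqTr_mk (γ g : G) : rEqTr W hWn γ ((g : G) : G ⧸ W) = ((g * γ : G) : G ⧸ W) := rfl

lemma rEqTr_smul (γ g : G) (x : G ⧸ W) : rEqTr W hWn γ (g • x) = g • rEqTr W hWn γ x := by
  induction x using QuotientGroup.induction_on with
  | H y =>
    show rEqTr W hWn γ (((g * y : G) : G ⧸ W)) = g • rEqTr W hWn γ ((y : G) : G ⧸ W)
    rw [rEqTr_mk, rEqTr_mk, mul_assoc]
    rfl

lemma rEqTr_inv_cancel (γ : G) (x : G ⧸ W) : rEqTr W hWn γ (rEqTr W hWn γ⁻¹ x) = x := by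
  induction x using QuotientGroup.induction_on with
  | H y => rw [rEqTr_mk, rEqTr_mk, inv_mul_cancel_right]

lemma rEqTr_cancel_inv (γ : G) (x : G ⧸ W) : rEqTr W hWn γ⁻¹ (rEqTr W hWn γ x) = x := by
  induction x using QuotientGroup.induction_on with
  | H y => rw [rEqTr_mk, rEqTr_mk, mul_inv_cancel_right]

lemma rEqTr_base (γ : G) : rEqTr W hWn γ (shBase W) = ((γ : G) : G ⧸ W) := by
  show rEqTr W hWn γ (((1 : G) : G) : G ⧸ W) = _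
  rw [rEqTr_mk, one_mul]

include hWn in
/-- `w • γW = γW` for `w ∈ W` (`W` normal). -/
lemma rEq_smul_mk (γ : G) {w : G} (hw : w ∈ W) : w • ((γ : G) : G ⧸ W) = ((γ : G) : G ⧸ W) :=
  smul_eq_of_mem_normal W hWn le_rfl hw _

lemma rEq_inv_smul_mk (γ : G) : γ⁻¹ • ((γ : G) : G ⧸ W) = shBase W := by
  show (((γ⁻¹ * γ : G) : G) : G ⧸ W) = _
  rw [inv_mul_cancel]
  rfl

variable (k) in
/-- The right translation `R_γ` on `k[G/W]`: `(R_γ m)(x) = m(x γ)`. -/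
def rEqR (γ : G) : permRep k W →ₗ[k] permRep k W := LinearMap.funLeft k k (rEqTr W hWn γ)

lemma rEqR_apply (γ : G) (f : permRep k W) (x : G ⧸ W) :
    (rEqR k W hWn γ f : (G ⧸ W) → k) x = (f : (G ⧸ W) → k) (rEqTr W hWn γ x) := rfl

/-- `R_γ` is `G`-equivariant. -/
lemma rEqR_comm (γ g : G) (f : permRep k W) :
    rEqR k W hWn γ ((permRep k W).ρ g f) = (permRep k W).ρ g (rEqR k W hWn γ f) := by
  funext x
  show ((permRep k W).ρ g f : (G ⧸ W) → k) (rEqTr W hWn γ x)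
    = (rEqR k W hWn γ f : (G ⧸ W) → k) (g⁻¹ • x)
  rw [permRep_ρ_apply, rEqR_apply, rEqTr_smul]

lemma rEqR_permDelta (γ : G) (x : G ⧸ W) :
    rEqR k W hWn γ (permDelta W x) = permDelta W (rEqTr W hWn γ⁻¹ x) := by
  funext y
  rw [rEqR_apply]
  by_cases h : y = rEqTr W hWn γ⁻¹ x
  · rw [h, rEqTr_inv_cancel, permDelta_self, permDelta_self]
  · rw [permDelta_of_ne W h, permDelta_of_ne W]
    intro h'
    apply h
    rw [← h', rEqTr_cancel_inv]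

/-- Conjugation of functions on `W`: `(conj_γ χ)(w) = χ(γ⁻¹ w γ)`. -/
def rEqConj {X : Type*} (γ : G) (χ : ↥W → X) : ↥W → X :=
  fun w => χ ⟨γ⁻¹ * (w : G) * γ, rEq_conj_mem W hWn γ w⟩

lemma rEqConj_apply {X : Type*} (γ : G) (χ : ↥W → X) (w : ↥W) (h : γ⁻¹ * (w : G) * γ ∈ W) :
    rEqConj W hWn γ χ w = χ ⟨γ⁻¹ * (w : G) * γ, h⟩ := rfl

lemma rEqConj_inv_conj {X : Type*} (γ : G) (χ : ↥W → X) :
    rEqConj W hWn γ⁻¹ (rEqConj W hWn γ χ) = χ := by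
  funext w
  show χ ⟨γ⁻¹ * ((γ⁻¹)⁻¹ * (w : G) * γ⁻¹) * γ, _⟩ = χ w
  congr 1
  apply Subtype.ext
  show γ⁻¹ * ((γ⁻¹)⁻¹ * (w : G) * γ⁻¹) * γ = (w : G)
  group

lemma rEqConj_conj_inv {X : Type*} (γ : G) (χ : ↥W → X) :
    rEqConj W hWn γ (rEqConj W hWn γ⁻¹ χ) = χ := by
  funext w
  show χ ⟨(γ⁻¹)⁻¹ * (γ⁻¹ * (w : G) * γ) * γ⁻¹, _⟩ = χ w
  congr 1
  apply Subtype.ext
  show (γ⁻¹)⁻¹ * (γ⁻¹ * (w : G) * γ) * γ⁻¹ = (w : G)
  group

/-- **(EQ-N)** `shN1 (R_γ ∘ y) = conj_γ (shN1 y)` for a cocycle `y` of `k[G/W]`. -/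
theorem rEq_shN1 {y : G → permRep k W}
    (hy : ∀ g h : G, y (g * h) = (permRep k W).ρ g (y h) + y g) (γ : G) :
    shN1 W (fun g => rEqR k W hWn γ (y g)) = rEqConj W hWn γ (shN1 W y) := by
  funext w
  show (rEqR k W hWn γ (y (w : G)) : (G ⧸ W) → k) (shBase W)
    = (y (γ⁻¹ * (w : G) * γ) : (G ⧸ W) → k) (shBase W)
  rw [rEqR_apply, rEqTr_base]
  have e1 := congrFun (hy (w : G) γ) ((γ : G) : G ⧸ W)
  have e2 := congrFun (hy γ (γ⁻¹ * (w : G) * γ)) ((γ : G) : G ⧸ W)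
  have e3 : γ * (γ⁻¹ * (w : G) * γ) = (w : G) * γ := by group
  rw [e3] at e2
  rw [e1] at e2
  have e4 : ((permRep k W).ρ (w : G) (y γ) : (G ⧸ W) → k) ((γ : G) : G ⧸ W)
      = (y γ : (G ⧸ W) → k) ((γ : G) : G ⧸ W) := by
    rw [permRep_ρ_apply, rEq_smul_mk W hWn γ (W.inv_mem w.2)]
  have e5 : ((permRep k W).ρ γ (y (γ⁻¹ * (w : G) * γ)) : (G ⧸ W) → k) ((γ : G) : G ⧸ W)
      = (y (γ⁻¹ * (w : G) * γ) : (G ⧸ W) → k) (shBase W) := by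
    rw [permRep_ρ_apply, rEq_inv_smul_mk]
  have e6 : ((permRep k W).ρ (w : G) (y γ) : (G ⧸ W) → k) ((γ : G) : G ⧸ W)
        + (y (w : G) : (G ⧸ W) → k) ((γ : G) : G ⧸ W)
      = ((permRep k W).ρ γ (y (γ⁻¹ * (w : G) * γ)) : (G ⧸ W) → k) ((γ : G) : G ⧸ W)
        + (y γ : (G ⧸ W) → k) ((γ : G) : G ⧸ W) := e2
  rw [e4, e5, add_comm] at e6
  exact add_right_cancel e6

end Translation

lemma rEq_aux_eq {M : Type*} [AddCommGroup M] (a X Y c : M) (h : Y + a = X + c) :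
    a = X - (Y - c) := by
  have e : a = (Y + a) - Y := by abel
  rw [e, h]
  abel

section Hyper

variable {k G : Type} [CommRing k] [Group G] (W : Subgroup G) (hWn : W.Normal) (K : Cx k G)

/-- Conjugation by `γ` on total 1-cochains of `K|_W`:
`conj_γ (a, b) = (w ↦ γ a(γ⁻¹ w γ), γ b)`. -/
def rEqConjT (γ : G) (z : T1 (K.res W.subtype)) : T1 (K.res W.subtype) :=
  (fun w => K.K0.ρ γ (z.1 ⟨γ⁻¹ * (w : G) * γ, rEq_conj_mem W hWn γ w⟩), K.K1.ρ γ z.2)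

lemma rEqConjT_fst (γ : G) (z : T1 (K.res W.subtype)) (w : ↥W) :
    (rEqConjT W hWn K γ z).1 w
      = K.K0.ρ γ (z.1 ⟨γ⁻¹ * (w : G) * γ, rEq_conj_mem W hWn γ w⟩) := rfl

lemma rEqConjT_snd (γ : G) (z : T1 (K.res W.subtype)) :
    (rEqConjT W hWn K γ z).2 = K.K1.ρ γ z.2 := rfl

/-- The translated cocycle `Z ∘ R_γ`. -/
def rEqZR (γ : G) : T1 (homCx (permRep k W) K) →ₗ[k] T1 (homCx (permRep k W) K) :=
  (homCxMap (rEqR k W hWn γ) (fun g n => rEqR_comm W hWn γ g n) K).t1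

lemma rEqZR_mem_ZZ1 (𝓤 : Levels G) (γ : G) {Z : T1 (homCx (permRep k W) K)}
    (hZ : Z ∈ ZZ1 𝓤 (homCx (permRep k W) K)) :
    rEqZR W hWn K γ Z ∈ ZZ1 𝓤 (homCx (permRep k W) K) :=
  (homCxMap (rEqR k W hWn γ) (fun g n => rEqR_comm W hWn γ g n) K).t1_mem_ZZ1 𝓤 hZ

/-- **(EQ-cup)** `cup1 (Z ∘ R_γ) y = cup1 Z (R_γ ∘ y)`. -/
lemma rEq_cup1 (γ : G) (Z : T1 (homCx (permRep k W) K)) (y : G → permRep k W) :
    cup1 (permRep k W) K (rEqZR W hWn K γ Z) y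
      = cup1 (permRep k W) K Z (fun g => rEqR k W hWn γ (y g)) :=
  cup1_homCxMap K (rEqR k W hWn γ) (fun g n => rEqR_comm W hWn γ g n) Z y

include hWn in
lemma rEq_ρ_permDelta_mk (γ : G) {w : G} (hw : w ∈ W) :
    (permRep k W).ρ w⁻¹ (permDelta W ((γ : G) : G ⧸ W)) = permDelta W ((γ : G) : G ⧸ W) := by
  rw [permRep_ρ_permDelta, rEq_smul_mk W hWn γ (W.inv_mem hw)]

lemma rEq_ρ_inv_permDelta_mk (γ : G) :
    (permRep k W).ρ γ⁻¹ (permDelta (k := k) W ((γ : G) : G ⧸ W)) = permDelta W (shBase W) := by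
  rw [permRep_ρ_permDelta, rEq_inv_smul_mk]

lemma rEqR_inv_permDelta_base (γ : G) :
    rEqR k W hWn γ⁻¹ (permDelta W (shBase W)) = permDelta W ((γ : G) : G ⧸ W) := by
  rw [rEqR_permDelta, inv_inv, rEqTr_base]

variable [Fintype (G ⧸ W)]

lemma rEq_shT1_sub (z z' : T1 (homCx (permRep k W) K)) :
    shT1 W K (z - z') = shT1 W K z - shT1 W K z' := by
  refine Prod.ext ?_ ?_
  · funext u
    exact map_sub ((coindHom W K.K0).π (shBase W)) (z.1 (u : G)) (z'.1 (u : G))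
  · exact map_sub ((coindHom W K.K1).π (shBase W)) z.2 z'.2

omit [Fintype (G ⧸ W)] in
lemma rEq_cup1_sub_left (z z' : T1 (homCx (permRep k W) K)) (y : G → permRep k W) :
    cup1 (permRep k W) K (z - z') y
      = cup1 (permRep k W) K z y - cup1 (permRep k W) K z' y := by
  have h := cup1_add_left K (permRep k W) (z - z') z' y
  rw [sub_add_cancel] at h
  rw [h]
  abel

omit [Fintype (G ⧸ W)] in
lemma rEq_cup1_sub_right (z : T1 (homCx (permRep k W) K)) (y y' : G → permRep k W) :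
    cup1 (permRep k W) K z (y - y')
      = cup1 (permRep k W) K z y - cup1 (permRep k W) K z y' := by
  have h := cup1_add_right K (permRep k W) z (y - y') y'
  rw [sub_add_cancel] at h
  rw [h]
  abel

omit [Fintype (G ⧸ W)] in
lemma rEq_shN1_sub (y y' : G → permRep k W) :
    shN1 W (y - y') = shN1 W y - shN1 W y' := by
  have h := shN1_add W (y - y') y'
  rw [sub_add_cancel] at h
  rw [h]
  abel

/-- **(EQ-T)** `shT1 (Z ∘ R_{γ⁻¹}) = conj_γ (shT1 Z) - D⁰ c`, `c = Z.1(γ)(δ_{γW})`, for a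
cocycle `Z` of `Hom(k[G/W], K)`. -/
theorem rEq_shT1 (𝓤 : Levels G) {Z : T1 (homCx (permRep k W) K)}
    (hZ : Z ∈ ZZ1 𝓤 (homCx (permRep k W) K)) (γ : G) :
    shT1 W K (rEqZR W hWn K γ⁻¹ Z)
      = rEqConjT W hWn K γ (shT1 W K Z)
        - D0 (K.res W.subtype)
            ((Z.1 γ : permRep k W →ₗ[k] K.K0) (permDelta W ((γ : G) : G ⧸ W))) := by
  refine Prod.ext ?_ ?_
  · funext w
    have E1 := ZZ1_homCx_cocycle 𝓤 K (permRep k W) hZ (w : G) γ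
      (permDelta W ((γ : G) : G ⧸ W))
    have E2 := ZZ1_homCx_cocycle 𝓤 K (permRep k W) hZ γ (γ⁻¹ * (w : G) * γ)
      (permDelta W ((γ : G) : G ⧸ W))
    have e3 : γ * (γ⁻¹ * (w : G) * γ) = (w : G) * γ := by group
    rw [e3, E1, rEq_ρ_permDelta_mk W hWn γ w.2, rEq_ρ_inv_permDelta_mk] at E2
    show (Z.1 (w : G) : permRep k W →ₗ[k] K.K0) (rEqR k W hWn γ⁻¹ (permDelta W (shBase W)))
      = K.K0.ρ γ ((Z.1 (γ⁻¹ * (w : G) * γ) : permRep k W →ₗ[k] K.K0) (permDelta W (shBase W)))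
        - (K.K0.ρ (w : G) ((Z.1 γ : permRep k W →ₗ[k] K.K0) (permDelta W ((γ : G) : G ⧸ W)))
          - (Z.1 γ : permRep k W →ₗ[k] K.K0) (permDelta W ((γ : G) : G ⧸ W)))
    rw [rEqR_inv_permDelta_base]
    exact rEq_aux_eq _ _ _ _ E2
  · have E := ZZ1_homCx_d 𝓤 K (permRep k W) hZ γ (permDelta W ((γ : G) : G ⧸ W))
    rw [rEq_ρ_inv_permDelta_mk] at E
    show (Z.2 : permRep k W →ₗ[k] K.K1) (rEqR k W hWn γ⁻¹ (permDelta W (shBase W)))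
      = K.K1.ρ γ ((Z.2 : permRep k W →ₗ[k] K.K1) (permDelta W (shBase W)))
        - K.d ((Z.1 γ : permRep k W →ₗ[k] K.K0) (permDelta W ((γ : G) : G ⧸ W)))
    rw [rEqR_inv_permDelta_base, E]
    abel

end Hyper

section UC

variable {G : Type} [Group G] (W : Subgroup G) (hWn : W.Normal) {p : ℕ}
  {K : Cx (ZMod p) G} {C I Q : Rep.{0} ℤ G} (D : UCData p K C I Q)

/-- **(EQ-UC)** `Rel1α x z ⇒ Rel1α (γ x) (conj_γ z)` for the datum restricted to `W`. -/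
theorem rEq_rel1α (γ : G) {x : C} {z : T1 (K.res W.subtype)}
    (h : (D.res W.subtype).Rel1α x z) :
    (D.res W.subtype).Rel1α (C.ρ γ x) (rEqConjT W hWn K γ z) := by
  obtain ⟨s, hp, ha, hb⟩ := h
  have key0 : ∀ (w : ↥W) (t : K.K0), D.i0 t = I.ρ (γ⁻¹ * (w : G) * γ) s - s →
      D.i0 (K.K0.ρ γ t) = I.ρ (w : G) (I.ρ γ s) - I.ρ γ s := by
    intro w t ht
    have hmul : ∀ (g h : G) (v : I), I.ρ (g * h) v = I.ρ g (I.ρ h v) := fun g h v => by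
      rw [map_mul]; rfl
    have e : γ * (γ⁻¹ * (w : G) * γ) = (w : G) * γ := by group
    rw [D.i0_comm, ht, map_sub, ← hmul, e, hmul]
  have key1 : ∀ t : K.K1, D.i1 t = D.π s → D.i1 (K.K1.ρ γ t) = D.π (I.ρ γ s) := by
    intro t ht
    rw [D.i1_comm, ht, D.π_comm]
  refine ⟨I.ρ γ s, ?_, fun w => ?_, ?_⟩
  · show (p : ℤ) • I.ρ γ s = D.ι (C.ρ γ x)
    have hp' : (p : ℤ) • s = D.ι x := hp
    rw [D.ι_comm, ← hp', map_zsmul]
  · exact key0 w _ (ha ⟨γ⁻¹ * (w : G) * γ, rEq_conj_mem W hWn γ w⟩)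
  · exact key1 _ hb

end UC

section Main

variable {G : Type} [Group G] (𝓤 : Levels G) (W : Subgroup G) (hWn : W.Normal)
  [Fintype (G ⧸ W)] {p : ℕ} [Fact p.Prime] {K : Cx (ZMod p) G} {C I Q : Rep.{0} ℤ G} (D : UCData p K C I Q)
  (inv : HH2 𝓤 K →ₗ[ZMod p] ZMod p)
  (hM : IsSmooth 𝓤 (permRep (ZMod p) W)) (hfin : Module.Finite (ZMod p) (permRep (ZMod p) W))

omit [Fact p.Prime] in
/-- If `shT1 Z ~ x` and `shT1 Z' ~ γ x` (`Rel1α`), then `Z' - Z ∘ R_{γ⁻¹}` is a coboundary. -/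
theorem recipEq_sub_mem_BB1 (γ : G) (x : C)
    {Z Z' : T1 (homCx (permRep (ZMod p) W) K)}
    (hZ : Z ∈ ZZ1 𝓤 (homCx (permRep (ZMod p) W) K))
    (hZ' : Z' ∈ ZZ1 𝓤 (homCx (permRep (ZMod p) W) K))
    (hrel : (D.res W.subtype).Rel1α x (shT1 W K Z))
    (hrel' : (D.res W.subtype).Rel1α (C.ρ γ x) (shT1 W K Z')) :
    Z' - rEqZR W hWn K γ⁻¹ Z ∈ BB1 (homCx (permRep (ZMod p) W) K) := by
  have h1 := rEq_rel1α W hWn D γ hrel
  have h2 := UCData.Rel1α.sub hrel' h1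
  rw [sub_self] at h2
  have h3 : shT1 W K Z' - rEqConjT W hWn K γ (shT1 W K Z) ∈ BB1 (K.res W.subtype) :=
    UCData.Rel1α.mem_BB1 h2
  have h4 := rEq_shT1 W hWn K 𝓤 hZ γ
  have h5 := rEq_shT1_sub W K Z' (rEqZR W hWn K γ⁻¹ Z)
  refine shapiro_inj1 W K (𝓤 := 𝓤)
    ((ZZ1 𝓤 _).sub_mem hZ' (rEqZR_mem_ZZ1 W hWn K 𝓤 γ⁻¹ hZ)) ?_
  rw [h5, h4]
  have h6 : shT1 W K Z' - (rEqConjT W hWn K γ (shT1 W K Z)
        - D0 (K.res W.subtype)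
            ((Z.1 γ : permRep (ZMod p) W →ₗ[ZMod p] K.K0) (permDelta W ((γ : G) : G ⧸ W))))
      = (shT1 W K Z' - rEqConjT W hWn K γ (shT1 W K Z))
        + D0 (K.res W.subtype)
            ((Z.1 γ : permRep (ZMod p) W →ₗ[ZMod p] K.K0) (permDelta W ((γ : G) : G ⧸ W))) := by
    abel
  rw [h6]
  exact (BB1 _).add_mem h3 ((mem_BB1_iff _ _).2 ⟨_, rfl⟩)

omit [Fintype (G ⧸ W)] in
/-- If `shN1 y' = conj_γ (shN1 y)`, then `R_{γ⁻¹} ∘ y' - y` is a coboundary. -/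
theorem recipEq_sub_mem_B1 (γ : G) {y y' : G → permRep (ZMod p) W}
    (hy : y ∈ Z1 𝓤 (permRep (ZMod p) W)) (hy' : y' ∈ Z1 𝓤 (permRep (ZMod p) W))
    (h : shN1 W y' = rEqConj W hWn γ (shN1 W y)) :
    (fun g => rEqR (ZMod p) W hWn γ⁻¹ (y' g)) - y ∈ B1 (permRep (ZMod p) W) := by
  have hR : (fun g => rEqR (ZMod p) W hWn γ⁻¹ (y' g)) ∈ Z1 𝓤 (permRep (ZMod p) W) :=
    comp_mem_Z1 𝓤 (rEqR (ZMod p) W hWn γ⁻¹) (fun g n => rEqR_comm W hWn γ⁻¹ g n) hy'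
  have hc' := ((mem_Z1_iff 𝓤 _ y').1 hy').1
  have h1 := rEq_shN1 W hWn hc' γ⁻¹
  rw [h, rEqConj_inv_conj] at h1
  refine shapiroN_inj1 W (𝓤 := 𝓤) ((Z1 𝓤 _).sub_mem hR hy) ?_
  rw [rEq_shN1_sub, h1, sub_self]

/-- **(EQ)** equivariance of the reciprocity pairing, cocycle form: if `shT1 Z ~ x` and
`shT1 Z' ~ γ x` (`Rel1α`), and `shN1 y' = conj_γ (shN1 y)`, then `inv(Z' ∪ y') = inv(Z ∪ y)`. -/
theorem recipEq_main (γ : G) (x : C)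
    (Z Z' : ↥(ZZ1 𝓤 (homCx (permRep (ZMod p) W) K)))
    (hrel : (D.res W.subtype).Rel1α x (shT1 W K (Z : T1 (homCx (permRep (ZMod p) W) K))))
    (hrel' : (D.res W.subtype).Rel1α (C.ρ γ x)
      (shT1 W K (Z' : T1 (homCx (permRep (ZMod p) W) K))))
    (y y' : ↥(Z1 𝓤 (permRep (ZMod p) W)))
    (h : shN1 W (y' : G → permRep (ZMod p) W)
      = rEqConj W hWn γ (shN1 W (y : G → permRep (ZMod p) W))) :
    inv (HH2π 𝓤 K (cupZ1 𝓤 K (permRep (ZMod p) W) hM hfin Z' y'))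
      = inv (HH2π 𝓤 K (cupZ1 𝓤 K (permRep (ZMod p) W) hM hfin Z y)) := by
  refine inv_eq_of_sub_mem_BB2 inv ?_
  show cup1 (permRep (ZMod p) W) K Z'.1 y'.1 - cup1 (permRep (ZMod p) W) K Z.1 y.1 ∈ BB2 𝓤 K
  -- first difference: `Z'` against `Z ∘ R_{γ⁻¹}`
  obtain ⟨m, hm⟩ := (mem_BB1_iff _ _).1
    (recipEq_sub_mem_BB1 𝓤 W hWn D γ x Z.2 Z'.2 hrel hrel')
  have e1 : cup1 (permRep (ZMod p) W) K Z'.1 y'.1
      - cup1 (permRep (ZMod p) W) K (rEqZR W hWn K γ⁻¹ Z.1) y'.1 ∈ BB2 𝓤 K := by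
    have e0 := rEq_cup1_sub_left W K Z'.1 (rEqZR W hWn K γ⁻¹ Z.1) y'.1
    rw [← e0, ← hm]
    exact cup1_D0_mem_BB2 𝓤 K (permRep (ZMod p) W) m y'.2
  -- second difference: `R_{γ⁻¹} ∘ y'` against `y`
  have hB := recipEq_sub_mem_B1 𝓤 W hWn γ y.2 y'.2 h
  obtain ⟨n, hn⟩ := (mem_B1_iff (permRep (ZMod p) W) _).1 hB
  have e := cup1_δ0_mem_BB2 𝓤 K (permRep (ZMod p) W) hM Z.2 n
  rw [hn] at e
  have e2 : cup1 (permRep (ZMod p) W) K Z.1 (fun g => rEqR (ZMod p) W hWn γ⁻¹ (y'.1 g))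
      - cup1 (permRep (ZMod p) W) K Z.1 y.1 ∈ BB2 𝓤 K := by
    have e5 := rEq_cup1_sub_right W K Z.1 (fun g => rEqR (ZMod p) W hWn γ⁻¹ (y'.1 g)) y.1
    rw [← e5]
    exact e
  have e6 := rEq_cup1 W hWn K γ⁻¹ Z.1 y'.1
  rw [e6] at e1
  have e3 := (BB2 𝓤 K).add_mem e1 e2
  have e4 : cup1 (permRep (ZMod p) W) K Z'.1 y'.1 - cup1 (permRep (ZMod p) W) K Z.1 y.1
      = (cup1 (permRep (ZMod p) W) K Z'.1 y'.1
          - cup1 (permRep (ZMod p) W) K Z.1 (fun g => rEqR (ZMod p) W hWn γ⁻¹ (y'.1 g)))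
        + (cup1 (permRep (ZMod p) W) K Z.1 (fun g => rEqR (ZMod p) W hWn γ⁻¹ (y'.1 g))
          - cup1 (permRep (ZMod p) W) K Z.1 y.1) := by
    abel
  rw [e4]
  exact e3

omit [Fintype (G ⧸ W)] in
/-- The conjugate of a smooth character of `W` is a smooth character. -/
theorem rEqConj_mem_Z1 (hWo : 𝓤.IsOpen W) (γ : G) {χ : ↥W → Rep.trivial (ZMod p) ↥W (ZMod p)}
    (hχ : χ ∈ Z1 (𝓤.sub W) (Rep.trivial (ZMod p) ↥W (ZMod p))) :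
    rEqConj W hWn γ χ ∈ Z1 (𝓤.sub W) (Rep.trivial (ZMod p) ↥W (ZMod p)) := by
  have h1 : trN1 W χ ∈ Z1 𝓤 (permRep (ZMod p) W) := trN1_mem_Z1 W hWo hχ
  have h2 : (fun g => rEqR (ZMod p) W hWn γ (trN1 W χ g)) ∈ Z1 𝓤 (permRep (ZMod p) W) :=
    comp_mem_Z1 𝓤 (rEqR (ZMod p) W hWn γ) (fun g n => rEqR_comm W hWn γ g n) h1
  have h3 := rEq_shN1 W hWn ((mem_Z1_iff 𝓤 _ _).1 h1).1 γ
  rw [shN1_trN1] at h3
  rw [← h3]
  exact shN1_mem_Z1 W 𝓤 h2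

/-- **(EQ)**, for the cocycles `trN1 χ` and `trN1 (conj_γ χ)`. -/
theorem recipEq_trN1 (hWo : 𝓤.IsOpen W) (γ : G) (x : C)
    (Z Z' : ↥(ZZ1 𝓤 (homCx (permRep (ZMod p) W) K)))
    (hrel : (D.res W.subtype).Rel1α x (shT1 W K (Z : T1 (homCx (permRep (ZMod p) W) K))))
    (hrel' : (D.res W.subtype).Rel1α (C.ρ γ x)
      (shT1 W K (Z' : T1 (homCx (permRep (ZMod p) W) K))))
    {χ : ↥W → Rep.trivial (ZMod p) ↥W (ZMod p)}
    (hχ : χ ∈ Z1 (𝓤.sub W) (Rep.trivial (ZMod p) ↥W (ZMod p))) :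
    inv (HH2π 𝓤 K (cupZ1 𝓤 K (permRep (ZMod p) W) hM hfin Z'
        ⟨trN1 W (rEqConj W hWn γ χ), trN1_mem_Z1 W hWo (rEqConj_mem_Z1 𝓤 W hWn hWo γ hχ)⟩))
      = inv (HH2π 𝓤 K (cupZ1 𝓤 K (permRep (ZMod p) W) hM hfin Z
        ⟨trN1 W χ, trN1_mem_Z1 W hWo hχ⟩)) := by
  refine recipEq_main 𝓤 W hWn D inv hM hfin γ x Z Z' hrel hrel' _ _ ?_
  show shN1 W (trN1 W (rEqConj W hWn γ χ)) = rEqConj W hWn γ (shN1 W (trN1 W χ))
  rw [shN1_trN1, shN1_trN1]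

/-- **(EQ)**, in terms of the pairing `α¹ = ptA1` on classes. -/
theorem recipEq_ptA1 (γ : G) (x : C)
    (Z Z' : ↥(ZZ1 𝓤 (homCx (permRep (ZMod p) W) K)))
    (hrel : (D.res W.subtype).Rel1α x (shT1 W K (Z : T1 (homCx (permRep (ZMod p) W) K))))
    (hrel' : (D.res W.subtype).Rel1α (C.ρ γ x)
      (shT1 W K (Z' : T1 (homCx (permRep (ZMod p) W) K))))
    (y y' : ↥(Z1 𝓤 (permRep (ZMod p) W)))
    (h : shN1 W (y' : G → permRep (ZMod p) W)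
      = rEqConj W hWn γ (shN1 W (y : G → permRep (ZMod p) W))) :
    ptA1 𝓤 K inv (permRep (ZMod p) W) hM hfin (HH1π 𝓤 _ Z') (H1smπ 𝓤 _ y')
      = ptA1 𝓤 K inv (permRep (ZMod p) W) hM hfin (HH1π 𝓤 _ Z) (H1smπ 𝓤 _ y) := by
  rw [ptA1_mk, ptA1_mk]
  exact recipEq_main 𝓤 W hWn D inv hM hfin γ x Z Z' hrel hrel' y y' h

end Main

end Fermat.Agent.S56.EC
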