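import Fermat.Agent.F4.Dict.KappaPres
import Fermat.Agent.F4.Dict.Level

/-!
# S56 / W2-EC / (D) cyclic case, sub-seat N4-A (helper14)

`W` an open subgroup of `G_S`, `F = ℚ̄^W`.  The map
`T_W → C^W / (CMk(J^W) + n • C^W)`, `t ↦ CMk (diagJ t)`
is surjective, with kernel `E + Fˣ + n • T_W` (any `n : ℕ`; used with `n = p`).

* `KForm.recipA_surj`, `KForm.recipA_ker` : the abstract statements (`F4/Dict/KappaAbs.lean`);
* `recipA_fix` : `CMk (diagJ t)` is fixed by `W` for `t ∈ T_W`;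
* `recipA_equivariant` : `CMk (diagJ (g t)) = g (CMk (diagJ t))`;
* `recipA_surj` : every `c ∈ C^W` is `CMk (diagJ t) + CMk x`, `t ∈ T_W`, `x ∈ J^W`;
* `recipA_ker` : `CMk (diagJ t) ∈ CMk(J^W) + n • C^W ↔ t ∈ E + toQS(Fˣ) + n • T_W`.
-/

set_option autoImplicit false

open CategoryTheory groupCohomology ExtCitation

namespace Fermat.Agent.F4

namespace KForm

variable {G : Type} [Group G] (K : KForm G)

/-- `pr (d t)` is fixed by `U` for `t ∈ T_U`. -/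
theorem recipA_fix {U : Subgroup G} {t : K.Q} (ht : t ∈ K.TU U) :
    F4Cf.Fix K.C U (K.pr (K.d t)) := by
  have h := K.fix (K.JU U).zero_mem ht
  rwa [zero_add] at h

/-- **Surjectivity**: every element of `C^U` is `pr (d t) + pr x`, `t ∈ T_U`, `x ∈ J^U`. -/
theorem recipA_surj (𝓤 : Levels G) (hJ : IsSmooth 𝓤 K.J) (U : Subgroup G)
    (h90 : UC.H90sm (𝓤.sub U) (Rep.res U.subtype K.Q)) (c : K.C) (hc : F4Cf.Fix K.C U c) :
    ∃ t ∈ K.TU U, ∃ x ∈ K.JU U, c = K.pr (K.d t) + K.pr x := by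
  obtain ⟨x, hx, t, ht, rfl⟩ := K.pres 𝓤 hJ U h90 c hc
  exact ⟨t, ht, x, hx, by rw [K.pr_add, add_comm]⟩

/-- **Kernel**: `pr (d t) ∈ pr (J^U) + n • C^U` iff `t ∈ E + Q^U + n • T_U`. -/
theorem recipA_ker (𝓤 : Levels G) (hJ : IsSmooth 𝓤 K.J) (U : Subgroup G)
    (h90 : UC.H90sm (𝓤.sub U) (Rep.res U.subtype K.Q)) (n : ℕ) (t : K.Q) :
    (∃ x ∈ K.JU U, ∃ c' : K.C, F4Cf.Fix K.C U c' ∧ K.pr (K.d t) = K.pr x + n • c') ↔
      ∃ e ∈ K.E, ∃ f ∈ K.QU U, ∃ t' ∈ K.TU U, t = e + f + n • t' := by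
  constructor
  · rintro ⟨x, hx, c', hc', h⟩
    obtain ⟨x', hx', t', ht', rfl⟩ := K.pres 𝓤 hJ U h90 c' hc'
    have h1 : K.pr (0 + K.d t) = K.pr ((x + n • x') + K.d (n • t')) := by
      rw [zero_add, h, K.pr_add (x + n • x'), K.pr_add x, K.pr_nsmul, K.d_nsmul, K.pr_nsmul,
        K.pr_add x', nsmul_add]
      abel
    obtain ⟨ε, hε, hεe⟩ := K.pr_eq_iff.1 h1
    have hmem : K.d (ε - (t - n • t')) ∈ K.JU U := by
      rw [← hεe, zero_sub]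
      exact (K.JU U).neg_mem ((K.JU U).add_mem hx ((K.JU U).nsmul_mem hx' n))
    have hf : ε - (t - n • t') ∈ K.QU U := K.d_mem_JU_iff.1 hmem
    refine ⟨ε, hε, -(ε - (t - n • t')), (K.QU U).neg_mem hf, t', ht', ?_⟩
    abel
  · rintro ⟨e, he, f, hf, t', ht', rfl⟩
    refine ⟨K.d f, K.d_mem_JU hf, K.pr (K.d t'), K.recipA_fix ht', ?_⟩
    rw [K.d_add, K.d_add, K.pr_add, K.pr_add, K.pr_d_of_mem he, zero_add, K.d_nsmul, K.pr_nsmul]

end KForm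

section Concrete

variable {S : Finset Nat.Primes} (L : OpenS S)

/-- `CMk (diagJ t)` is fixed by `W` for `t ∈ T_W`. -/
theorem recipA_fix (hS : S.Nonempty) {t : QSx S} (ht : t ∈ L.TU) :
    F4Cf.Fix (Crep S) L.U (CMk S (diagJ S t)) :=
  (kfS S hS).recipA_fix (U := L.U) ht

/-- `t ↦ CMk (diagJ t)` is `G_ℚ`-equivariant. -/
theorem recipA_equivariant (g : GQ) (t : QSx S) :
    CMk S (diagJ S ((QSx S).ρ g t)) = (Crep S).ρ g (CMk S (diagJ S t)) := by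
  rw [diagJ_comm, CMk_comm]

/-- **N4-A, surjectivity.** -/
theorem recipA_surj (hS : S.Nonempty) (c : Crep S) (hc : F4Cf.Fix (Crep S) L.U c) :
    ∃ t ∈ L.TU, ∃ x ∈ kpJU S hS L.U, c = CMk S (diagJ S t) + CMk S x :=
  (kfS S hS).recipA_surj (levelsS S) (Jrep_smooth S) L.U (h90_QSx S L.U L.isOpen) c hc

/-- **N4-A, kernel.** -/
theorem recipA_ker (hS : S.Nonempty) (n : ℕ) (t : QSx S) :
    (∃ x ∈ kpJU S hS L.U, ∃ c' : Crep S, F4Cf.Fix (Crep S) L.U c' ∧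
        CMk S (diagJ S t) = CMk S x + n • c') ↔
      ∃ e ∈ sUnitsAdd S, ∃ a : (L.field)ˣ, ∃ t' ∈ L.TU, t = e + L.toQS a + n • t' := by
  have key := (kfS S hS).recipA_ker (levelsS S) (Jrep_smooth S) L.U
    (h90_QSx S L.U L.isOpen) n t
  constructor
  · intro h
    obtain ⟨e, he, f, hf, t', ht', h1⟩ := key.1 h
    obtain ⟨a, ha⟩ := L.exists_toQS_of_fixed f hf
    exact ⟨e, he, a, t', ht', by rw [ha]; exact h1⟩
  · rintro ⟨e, he, a, t', ht', h1⟩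
    exact key.2 ⟨e, he, L.toQS a, fun g hg => L.toQS_fixed a g hg, t', ht', h1⟩

end Concrete

end Fermat.Agent.F4
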