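import Fermat.Agent.F4.UC.Quot
import Fermat.Agent.F4.UC.Res
import Fermat.Agent.F4.UC.Bridge

/-!
# S56 / W2-EC / (D) cyclic case, sub-seat (RW), abstract part (helper14)

Universal coefficients for a restricted quotient datum.  `D : UCData p K J I Q`, `h : D.QuotHyp f E`
(`C = J / E`, `KC = K / M[0]`), `r : H →* G`.  With `DJ = D.res r`, `DC = (D.quot0 h).res r`:

* `rw_rel1α_quot0_res` : `Rel1α` is compatible with `K|_H → KC|_H`, `J → C`;
* `rw_α1_natural`      : `g_* (α¹_J x) = α¹_C (qJ x)` for `x ∈ J^H`;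
* `rw_α1_surj_of_H1p0` : `α¹` is surjective when `H¹[p] = 0` on cocycles;
* `rw_α1_eq_iff`       : `α¹ x = α¹ y ↔ x - y ∈ p • C^H`.
-/

set_option autoImplicit false
set_option linter.unusedSectionVars false

open CategoryTheory groupCohomology

namespace Fermat.Agent.S56.EC

open Fermat.Agent.F4

section Gen

variable {G : Type} [Group G] {p : ℕ} {K : Cx (ZMod p) G} {C I Q : Rep.{0} ℤ G}
  (D : UCData p K C I Q) {𝓤 : Levels G} (hI : IsSmooth 𝓤 I)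

/-- `α¹` is surjective when `H¹(C)[p] = 0` on cocycles. -/
theorem rw_α1_surj_of_H1p0 (h : UC.H1p0 p 𝓤 C) : Function.Surjective (D.α1 hI) := by
  intro y
  obtain ⟨z, rfl⟩ := HH1π_surjective 𝓤 K y
  obtain ⟨x, hx, hrel⟩ := D.exists_rel1α_of_H1p0 hI h z.2
  exact ⟨⟨x, hx⟩, D.α1_mk hI ⟨x, hx⟩ z hrel⟩

/-- `α¹ x = α¹ y` iff `x - y` is `p` times an invariant. -/
theorem rw_α1_eq_iff (x y : ↥(UC.Inv C)) :
    D.α1 hI x = D.α1 hI y ↔ ∃ c : ↥(UC.Inv C), (x : C) = (y : C) + p • (c : C) := by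
  rw [← sub_eq_zero, ← map_sub, D.α1_eq_zero_iff hI]
  constructor
  · rintro ⟨c, hc⟩
    refine ⟨c, ?_⟩
    have h1 := congrArg (fun t : ↥(UC.Inv C) => (t : C)) hc
    simp only [AddSubgroup.coe_sub] at h1
    have h2 : (((p : ℤ) • c : ↥(UC.Inv C)) : C) = p • (c : C) := by
      rw [AddSubgroup.coe_zsmul, natCast_zsmul]
    rw [h2] at h1
    rw [← h1]
    abel
  · rintro ⟨c, hc⟩
    refine ⟨c, Subtype.ext ?_⟩
    rw [AddSubgroup.coe_sub, AddSubgroup.coe_zsmul, natCast_zsmul, hc]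
    abel

end Gen

section Quot

variable {G : Type} [Group G] {p : ℕ} {K : Cx (ZMod p) G} {J I Q : Rep.{0} ℤ G}
  {D : UCData p K J I Q} {M : Rep.{0} (ZMod p) G} {f : CxHom (Cx.deg0 M) K}
  {E : AddSubgroup J} (h : D.QuotHyp f E) {H : Type} [Group H] (r : H →* G)

include h in
/-- `α¹` is compatible with the quotient maps, after restriction along `r`. -/
lemma rw_rel1α_quot0_res {x : J} {z : T1 (K.res r)} (hrel : (D.res r).Rel1α x z) :
    ((D.quot0 h).res r).Rel1α (h.qJ x)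
      ((fun g => (K.quot0Map f).f0 (z.1 g), (K.quot0Map f).f1 z.2) : T1 ((K.quot0 f).res r)) := by
  obtain ⟨s, hps, ha, hb⟩ := hrel
  have hps' : (p : ℤ) • (s : I) = D.ι x := hps
  have hb' : D.i1 z.2 = D.π s := hb
  refine ⟨h.qI s, ?_, fun g => ?_, ?_⟩
  · have e1 : (p : ℤ) • h.qI s = h.qI ((p : ℤ) • (s : I)) := (map_zsmul h.qI _ _).symm
    have e2 : h.qI (D.ι x) = h.ι' (h.qJ x) := (h.ι'_qJ x).symm
    exact e1.trans ((congrArg h.qI hps').trans e2)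
  · have ha' : D.i0 (z.1 g) = I.ρ (r g) s - s := ha g
    have e1 : h.i0' ((K.quot0Map f).f0 (z.1 g)) = h.qI (D.i0 (z.1 g)) := h.i0'_mk _
    have e2 : h.qI (I.ρ (r g) s - s) = h.IC.ρ (r g) (h.qI s) - h.qI s := by
      rw [map_sub, h.qI_comm]
    exact e1.trans ((congrArg h.qI ha').trans e2)
  · have e1 : h.π' (h.qI s) = D.π s := h.π'_qI s
    exact hb'.trans e1.symm

variable {𝓥 : Levels H} (hI : IsSmooth 𝓥 (Rep.res r I)) (hIC : IsSmooth 𝓥 (Rep.res r h.IC))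

/-- The image of a `H`-invariant of `J` in `C = J / E` is `H`-invariant. -/
lemma rw_qJ_inv (x : ↥(UC.Inv (Rep.res r J))) : h.qJ (x : J) ∈ UC.Inv (Rep.res r h.C) := by
  intro g
  show h.C.ρ (r g) (h.qJ (x : J)) = h.qJ (x : J)
  have hx : J.ρ (r g) (x : J) = (x : J) := x.2 g
  rw [← h.qJ_comm, hx]

/-- **Naturality of `α¹`**: `g_* (α¹_J x) = α¹_C (qJ x)`. -/
theorem rw_α1_natural (gW : CxHom (K.res r) ((K.quot0 f).res r))
    (hg0 : ∀ t, gW.f0 t = (K.quot0Map f).f0 t) (hg1 : ∀ t, gW.f1 t = (K.quot0Map f).f1 t)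
    (x : ↥(UC.Inv (Rep.res r J))) :
    gW.mapHH1 𝓥 ((D.res r).α1 hI x) =
      ((D.quot0 h).res r).α1 hIC ⟨h.qJ (x : J), rw_qJ_inv h r x⟩ := by
  obtain ⟨z, hz, hrel⟩ := UCData.Rel1α.exists (D.res r) hI x.2
  rw [(D.res r).α1_mk hI x ⟨z, hz⟩ hrel]
  have hrel' := rw_rel1α_quot0_res h r hrel
  have hzz : gW.onT1 z = ((fun g => (K.quot0Map f).f0 (z.1 g), (K.quot0Map f).f1 z.2) :
      T1 ((K.quot0 f).res r)) := by
    refine Prod.ext (funext fun g => hg0 _) (hg1 _)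
  rw [← hzz] at hrel'
  symm
  exact ((D.quot0 h).res r).α1_mk hIC ⟨h.qJ (x : J), rw_qJ_inv h r x⟩ (gW.mapZZ1 𝓥 ⟨z, hz⟩) hrel'

end Quot

end Fermat.Agent.S56.EC
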