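/-
S56, wall W2-EC, step (D), seat N4 (reciprocity), leaf (RW) (owner: helper14; stub by helper56).

At the level `W = L.U` (normal, open): `κ₀ = cyKapW : T_W → HH¹(W, KC|_W)`, `t ↦ α¹_W [CMk (diagJ t)]`.
* `cyKapW_rel`      : `κ₀ t` has a cocycle representative `Rel1α`-related to `CMk (diagJ t)`;
* `cyKapW_span`     : `HH¹(W, KC|_W) = κ₀(T_W) + g_W HH¹(W, KJ|_W)`   (`α¹_C` surjective since
                      `H¹(W, C)[p] = 0`, `recipA_surj`, naturality `rel1α_quot0`);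
* `cyKapW_range_iff`: `κ₀ t ∈ g_W HH¹(W, KJ|_W)  ⇔  t ∈ E + Fˣ + p·T_W`   (`α¹_J` surjective by
                      Hilbert 90 for `J`, `α1_eq_zero_iff`, `recipA_ker`).
-/
import Fermat.Agent.S56.W2.EC.Pack
import Fermat.Agent.S56.W2.EC.Cyclic.RecipA
import Fermat.Agent.S56.W2.EC.Cyclic.RecipWAbs
import Fermat.Agent.F4.Dict.JH90

set_option autoImplicit false
set_option synthInstance.maxHeartbeats 400000

namespace Fermat.Agent.S56.EC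

open Fermat.Agent.F4 Fermat.Agent.F4Cf ExtCitation CategoryTheory groupCohomology

variable {p : ℕ} [Fact p.Prime] {S : Finset Nat.Primes} {hpS : pPrime p ∈ S}
  (Pk : ECPack p S hpS) (L : OpenS S)

lemma cyRW_smoothIC : IsSmooth (levelsS S) Pk.quotHyp.IC :=
  Pk.quotHyp.smoothIC (smooth_piCoind (S := S) (fun q => (Pk.P q).I))

/-- `g : KJ → KC`. -/
noncomputable abbrev cyG : CxHom Pk.KJ Pk.KC := coindG Pk.loc (isSmooth_Fp1 S hpS)

lemma cyG_eq : Pk.datum.g = cyG Pk := rfl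

/-- `t ↦ CMk (diagJ t)`, as a map `T_W → C^W`. -/
noncomputable def cyDiagInv : ↥L.TU →+ ↥(UC.Inv (Rep.res L.U.subtype (Crep S))) :=
  (((CMk S).comp (diagJ S)).comp L.TU.subtype).codRestrict (UC.Inv (Rep.res L.U.subtype (Crep S)))
    fun t g => recipA_fix L ⟨_, hpS⟩ t.2 (g : GQ) g.2

lemma cyDiagInv_coe (t : ↥L.TU) :
    ((cyDiagInv (hpS := hpS) L t : ↥(UC.Inv (Rep.res L.U.subtype (Crep S)))) : Crep S) =
      CMk S (diagJ S (t : QSx S)) := rfl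

/-- `κ₀ : T_W → HH¹(W, KC|_W)`, `t ↦ α¹_W [CMk (diagJ t)]`. -/
noncomputable def cyKapW : ↥L.TU →+ HH1 ((levelsS S).sub L.U) (Pk.KC.res L.U.subtype) :=
  ((Pk.datC.res L.U.subtype).α1 (UC.isSmooth_res L.U.subtype (cyRW_smoothIC Pk))).comp
    (cyDiagInv (hpS := hpS) L)

/-- `κ₀ t` is represented by a cocycle `Rel1α`-related to `CMk (diagJ t)`. -/
theorem cyKapW_rel (t : ↥L.TU) :
    ∃ z : ↥(ZZ1 ((levelsS S).sub L.U) (Pk.KC.res L.U.subtype)),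
      cyKapW Pk L t = HH1π _ _ z ∧
        (Pk.datC.res L.U.subtype).Rel1α (CMk S (diagJ S (t : QSx S))) z.1 := by
  obtain ⟨z, hz, hrel⟩ := UCData.Rel1α.exists (Pk.datC.res L.U.subtype)
    (UC.isSmooth_res L.U.subtype (cyRW_smoothIC Pk)) (cyDiagInv (hpS := hpS) L t).2
  exact ⟨⟨z, hz⟩, (Pk.datC.res L.U.subtype).α1_mk
    (UC.isSmooth_res L.U.subtype (cyRW_smoothIC Pk)) (cyDiagInv (hpS := hpS) L t) ⟨z, hz⟩ hrel, hrel⟩

/-- `I_J|_W` is smooth. -/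
lemma cyRW_smoothIJW : IsSmooth ((levelsS S).sub L.U) (Rep.res L.U.subtype
    (cxPiRep fun q : ↥S => coInd (primeLocalToGlobal q.1) (levelsS S) (Pk.P q).I)) :=
  UC.isSmooth_res L.U.subtype (smooth_piCoind (S := S) (fun q => (Pk.P q).I))

/-- `g_* ∘ α¹_J = α¹_C ∘ CMk` over `W`. -/
lemma cyRW_natural (x : ↥(UC.Inv (Rep.res L.U.subtype (Jrep S)))) :
    (rbResHom L.U.subtype (cyG Pk)).mapHH1 ((levelsS S).sub L.U)
        ((Pk.datJ.res L.U.subtype).α1 (cyRW_smoothIJW Pk L) x) =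
      (Pk.datC.res L.U.subtype).α1 (UC.isSmooth_res L.U.subtype (cyRW_smoothIC Pk))
        ⟨CMk S (x : Jrep S), rw_qJ_inv Pk.quotHyp L.U.subtype x⟩ :=
  rw_α1_natural Pk.quotHyp L.U.subtype (cyRW_smoothIJW Pk L)
    (UC.isSmooth_res L.U.subtype (cyRW_smoothIC Pk))
    (rbResHom L.U.subtype (cyG Pk)) (fun _ => rfl) (fun _ => rfl) x

/-- **(RW, span)** every class of `HH¹(W, KC|_W)` is `κ₀ t + g_W η`. -/
theorem cyKapW_span (hL : L.U ∈ (levelsS S).sets)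
    (ξ : HH1 ((levelsS S).sub L.U) (Pk.KC.res L.U.subtype)) :
    ∃ t : ↥L.TU, ∃ η : HH1 ((levelsS S).sub L.U) (Pk.KJ.res L.U.subtype),
      ξ = cyKapW Pk L t + (rbResHom L.U.subtype (cyG Pk)).mapHH1 ((levelsS S).sub L.U) η := by
  have hS : S.Nonempty := ⟨_, hpS⟩
  have h1 : UC.H1p0 p ((levelsS S).sub L.U) (Rep.res L.U.subtype (Crep S)) :=
    (h1slack (Pk.pcf.res L.isOpen)).h1p0
  obtain ⟨c, hcξ⟩ := rw_α1_surj_of_H1p0 (Pk.datC.res L.U.subtype)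
    (UC.isSmooth_res L.U.subtype (cyRW_smoothIC Pk)) h1 ξ
  obtain ⟨t, ht, x, hx, hc⟩ := recipA_surj L hS (c : Crep S) (fun g hg => c.2 ⟨g, hg⟩)
  refine ⟨⟨t, ht⟩, (Pk.datJ.res L.U.subtype).α1 (cyRW_smoothIJW Pk L)
    ⟨x, fun g => hx g.1 g.2⟩, ?_⟩
  have hnat := cyRW_natural Pk L ⟨x, fun g => hx g.1 g.2⟩
  have hsum : c = cyDiagInv (hpS := hpS) L ⟨t, ht⟩ +
      ⟨CMk S x, rw_qJ_inv Pk.quotHyp L.U.subtype ⟨x, fun g => hx g.1 g.2⟩⟩ :=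
    Subtype.ext hc
  have e1 := congrArg ((Pk.datC.res L.U.subtype).α1
    (UC.isSmooth_res L.U.subtype (cyRW_smoothIC Pk))) hsum
  rw [map_add] at e1
  exact hcξ.symm.trans (e1.trans (congrArg (fun y => cyKapW Pk L ⟨t, ht⟩ + y) hnat.symm))

/-- **(RW, kernel)** `κ₀ t ∈ range g_W` iff `t ∈ E + Fˣ + p T_W`. -/
theorem cyKapW_range_iff (hL : L.U ∈ (levelsS S).sets) (t : ↥L.TU) :
    (∃ η : HH1 ((levelsS S).sub L.U) (Pk.KJ.res L.U.subtype),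
        cyKapW Pk L t = (rbResHom L.U.subtype (cyG Pk)).mapHH1 ((levelsS S).sub L.U) η) ↔
      ∃ e ∈ sUnitsAdd S, ∃ a : (L.field)ˣ, ∃ t' ∈ L.TU, (t : QSx S) = e + L.toQS a + p • t' := by
  have hS : S.Nonempty := ⟨_, hpS⟩
  rw [← recipA_ker L hS p (t : QSx S)]
  constructor
  · rintro ⟨η, hη⟩
    obtain ⟨x, rfl⟩ := (Pk.datJ.res L.U.subtype).α1_surjective_of_H1 (cyRW_smoothIJW Pk L)
      (h90_Jrep S L.U L.isOpen) η
    have hnat := cyRW_natural Pk L x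
    have h2 : (Pk.datC.res L.U.subtype).α1 (UC.isSmooth_res L.U.subtype (cyRW_smoothIC Pk))
        (cyDiagInv (hpS := hpS) L t) =
        (Pk.datC.res L.U.subtype).α1 (UC.isSmooth_res L.U.subtype (cyRW_smoothIC Pk))
          ⟨CMk S (x : Jrep S), rw_qJ_inv Pk.quotHyp L.U.subtype x⟩ := hη.trans hnat
    obtain ⟨c, hc⟩ := (rw_α1_eq_iff (Pk.datC.res L.U.subtype)
      (UC.isSmooth_res L.U.subtype (cyRW_smoothIC Pk)) _ _).1 h2
    exact ⟨(x : Jrep S), fun g hg => x.2 ⟨g, hg⟩, (c : Crep S), fun g hg => c.2 ⟨g, hg⟩, hc⟩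
  · rintro ⟨x, hx, c', hc', h⟩
    refine ⟨(Pk.datJ.res L.U.subtype).α1 (cyRW_smoothIJW Pk L) ⟨x, fun g => hx g.1 g.2⟩, ?_⟩
    have hnat := cyRW_natural Pk L ⟨x, fun g => hx g.1 g.2⟩
    have h2 : (Pk.datC.res L.U.subtype).α1 (UC.isSmooth_res L.U.subtype (cyRW_smoothIC Pk))
        (cyDiagInv (hpS := hpS) L t) =
        (Pk.datC.res L.U.subtype).α1 (UC.isSmooth_res L.U.subtype (cyRW_smoothIC Pk))
          ⟨CMk S x, rw_qJ_inv Pk.quotHyp L.U.subtype ⟨x, fun g => hx g.1 g.2⟩⟩ :=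
      (rw_α1_eq_iff (Pk.datC.res L.U.subtype)
        (UC.isSmooth_res L.U.subtype (cyRW_smoothIC Pk)) _ _).2
        ⟨⟨c', fun g => hc' g.1 g.2⟩, h⟩
    exact h2.trans hnat.symm

end Fermat.Agent.S56.EC
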