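/-
S56, wall W2-EC, step (D), seat N4 (reciprocity), leaf (SH) (helper56): Shapiro's lemma for
`HH¹(G, Hom(k[G/U], K)) = HH¹(U, K)` on CLASSES, as a linear bijection natural in `K`.

* `cyShZZ1 U K 𝓤`, `cyShHH1 U K 𝓤 : HH¹(G, Hom(k[G/U], K)) →ₗ HH¹(U, K|_U)` (induced by `shT1`);
* `cyShHH1_bijective (hU : 𝓤.IsOpen U)`;
* `cyShHH1_post φ` : naturality for `φ : K ⟶ K'`.
-/
import Fermat.Agent.F4.Cf.RecipB
import Fermat.Agent.F4.Shapiro.Hyper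

set_option autoImplicit false

namespace Fermat.Agent.S56.EC

open Fermat.Agent.F4 Fermat.Agent.F4Cf

variable {k G : Type} [CommRing k] [Group G] (U : Subgroup G) [Fintype (G ⧸ U)]
  (K : Cx k G) (𝓤 : Levels G)

/-- `shT1` as a linear map. -/
noncomputable def cyShT1 : T1 (homCx (permRep k U) K) →ₗ[k] T1 (K.res U.subtype) where
  toFun := shT1 U K
  map_add' _ _ := rfl
  map_smul' _ _ := rfl

lemma cyShT1_apply (z : T1 (homCx (permRep k U) K)) : cyShT1 U K z = shT1 U K z := rfl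

/-- Shapiro on 1-cocycles. -/
noncomputable def cyShZZ1 :
    ↥(ZZ1 𝓤 (homCx (permRep k U) K)) →ₗ[k] ↥(ZZ1 (𝓤.sub U) (K.res U.subtype)) :=
  ((cyShT1 U K).comp (ZZ1 𝓤 (homCx (permRep k U) K)).subtype).codRestrict _
    fun z => shT1_mem_ZZ1 U K 𝓤 z.2

lemma cyShZZ1_coe (z : ↥(ZZ1 𝓤 (homCx (permRep k U) K))) :
    ((cyShZZ1 U K 𝓤 z : ↥(ZZ1 (𝓤.sub U) (K.res U.subtype))) : T1 (K.res U.subtype)) =
      shT1 U K z.1 := rfl

/-- **Shapiro on classes.** -/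
noncomputable def cyShHH1 :
    HH1 𝓤 (homCx (permRep k U) K) →ₗ[k] HH1 (𝓤.sub U) (K.res U.subtype) :=
  Submodule.mapQ _ _ (cyShZZ1 U K 𝓤) fun z hz => shT1_mem_BB1 U K (z := z.1) hz

lemma cyShHH1_mk (z : ↥(ZZ1 𝓤 (homCx (permRep k U) K))) :
    cyShHH1 U K 𝓤 (HH1π _ _ z) = HH1π _ _ (cyShZZ1 U K 𝓤 z) := rfl

variable {𝓤}

theorem cyShHH1_injective : Function.Injective (cyShHH1 U K 𝓤) := by
  rw [← LinearMap.ker_eq_bot, LinearMap.ker_eq_bot']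
  intro x hx
  obtain ⟨z, rfl⟩ := HH1π_surjective _ _ x
  rw [cyShHH1_mk, HH1π_eq_zero_iff] at hx
  rw [HH1π_eq_zero_iff]
  exact shapiro_inj1 U K z.2 hx

theorem cyShHH1_surjective (hU : 𝓤.IsOpen U) : Function.Surjective (cyShHH1 U K 𝓤) := by
  intro y
  obtain ⟨y, rfl⟩ := HH1π_surjective _ _ y
  obtain ⟨z, hz, hzy⟩ := shapiro_surj1 U K hU y.2
  refine ⟨HH1π _ _ ⟨z, hz⟩, ?_⟩
  rw [cyShHH1_mk]
  congr 1
  exact Subtype.ext hzy

theorem cyShHH1_bijective (hU : 𝓤.IsOpen U) : Function.Bijective (cyShHH1 U K 𝓤) :=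
  ⟨cyShHH1_injective U K, cyShHH1_surjective U K hU⟩

variable (𝓤)

/-- **Shapiro is natural in `K`.** -/
theorem cyShHH1_post {K K' : Cx k G} (φ : CxHom K K') (x : HH1 𝓤 (homCx (permRep k U) K)) :
    cyShHH1 U K' 𝓤 ((homCxPost (permRep k U) φ).mapHH1 𝓤 x) =
      (rbResHom U.subtype φ).mapHH1 (𝓤.sub U) (cyShHH1 U K 𝓤 x) := by
  obtain ⟨z, rfl⟩ := HH1π_surjective _ _ x
  rfl

end Fermat.Agent.S56.EC
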