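/-
S56, wall W2-EC, step (D), sub-seat (SV-P) (helper83): `Ш¹(G_S, 𝔽_p[G/W])` and the locally
trivial characters of `W`.

For `M' = permRep (ZMod p) W` (`W` a level of `G_S`) and a smooth cocycle `y` of `M'`:

* `cyShaPerm_iff`    : the class of `y` lies in `sha1sm S M'`  ⇔  `shN1 W y ∈ cyShaV S W`;
* `cyShaPerm_exists` : every `χ ∈ cyShaV S W` is `shN1 W y` for the smooth cocycle
                       `y = trN1 W χ`, whose class lies in `sha1sm S M'`;
* `cyShaPermEquiv`   : `sha1sm S M' ≃+ cyShaV S W`, `[y] ↦ shN1 W y`.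
-/
import Fermat.Agent.S56.W2.EC.Cyclic.ShaDefs
import Fermat.Agent.S56.W2.EC.Cyclic.ShaPerm.Mackey
import Fermat.Agent.F4.PT.Defs

set_option autoImplicit false

open CategoryTheory groupCohomology

namespace Fermat.Agent.S56.EC

open Fermat.Agent.F4 ExtCitation

variable {p : ℕ} [Fact p.Prime] (S : Finset Nat.Primes) (W : Subgroup GQ)

/-- The Shapiro image `w ↦ y(w)(x₀)` as a function `W → μ_p`. -/
noncomputable def cyShN1 (y : GQ → permRep (ZMod p) W) : ↥W → Fp1 p := shN1 W y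

lemma cyShN1_apply (y : GQ → permRep (ZMod p) W) (w : ↥W) :
    cyShN1 W y w = (y (w : GQ) : (GQ ⧸ W) → ZMod p) (shBase W) := rfl

variable {S W}

lemma cySP_cocycle_of_mem {y : GQ → permRep (ZMod p) W}
    (hy : y ∈ Z1 (levelsS S) (permRep (ZMod p) W)) (g h : GQ) :
    y (g * h) = (permRep (ZMod p) W).ρ g (y h) + y g :=
  (mem_cocycles₁_iff y).1 hy.1 g h

/-- The Shapiro image of a smooth cocycle is a smooth character. -/
lemma cyShN1_mem_cyHomW {y : GQ → permRep (ZMod p) W}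
    (hy : y ∈ Z1 (levelsS S) (permRep (ZMod p) W)) : cyShN1 W y ∈ cyHomW S W := by
  have hZ := shN1_mem_Z1 W (levelsS S) hy
  have hc := (mem_cocycles₁_iff (shN1 W y)).1 hZ.1
  have hadd : ∀ w w' : ↥W, cyShN1 W y (w * w') = cyShN1 W y w + cyShN1 W y w' := by
    intro w w'
    have := hc w w'
    rw [add_comm]
    exact this
  refine ⟨hadd, ?_⟩
  obtain ⟨V', ⟨V, hV, rfl⟩, hV'⟩ := hZ.2
  refine ⟨V, hV, fun w hw => ?_⟩
  have h1 : cyShN1 W y 1 = 0 := by
    have := hadd 1 1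
    rw [mul_one] at this
    exact add_eq_right.mp this.symm
  have := hV' 1 w hw
  rw [one_mul] at this
  exact this.trans h1

/-- The class of `y` is locally trivial at `q` iff `y ∘ r_q` is a coboundary. -/
lemma cySP_locSm1_eq_zero_iff (y : ↥(Z1 (levelsS S) (permRep (ZMod p) W))) (q : Nat.Primes) :
    locSm1 S (permRep (ZMod p) W) q (H1smπ (levelsS S) (permRep (ZMod p) W) y) = 0 ↔
      ∃ n : (GQ ⧸ W) → ZMod p, ∀ d : primeLocalGaloisGroup q,
        (y : GQ → permRep (ZMod p) W) (primeLocalToGlobal q d)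
          = (permRep (ZMod p) W).ρ (primeLocalToGlobal q d) n - n := by
  have h1 : locSm1 S (permRep (ZMod p) W) q (H1smπ (levelsS S) (permRep (ZMod p) W) y)
      = H1smπ (locLevelsS S q) (Rep.res (primeLocalToGlobal q) (permRep (ZMod p) W))
          (Z1res (levelsS S) (permRep (ZMod p) W) (primeLocalToGlobal q) y) := rfl
  rw [h1, Submodule.mkQ_apply, Submodule.Quotient.mk_eq_zero]
  constructor
  · rintro ⟨n, hn⟩
    refine ⟨n, fun d => ?_⟩
    have := congrFun hn d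
    exact this.symm
  · rintro ⟨n, hn⟩
    refine ⟨n, ?_⟩
    funext d
    exact (hn d).symm

/-- **(SV-P)**: the class of a smooth cocycle `y` of `𝔽_p[G/W]` is locally trivial at the primes
of `S` iff its Shapiro image is a locally trivial character. -/
theorem cyShaPerm_iff (y : ↥(Z1 (levelsS S) (permRep (ZMod p) W))) :
    H1smπ (levelsS S) (permRep (ZMod p) W) y ∈ sha1sm S (permRep (ZMod p) W) ↔
      cyShN1 W (y : GQ → permRep (ZMod p) W) ∈ cyShaV S W := by
  have hy := cySP_cocycle_of_mem y.2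
  rw [sha1sm, LinearMap.mem_ker, mem_cyShaV]
  constructor
  · intro h
    refine ⟨cyShN1_mem_cyHomW y.2, fun q g d hw => ?_⟩
    have hq : locSm1 S (permRep (ZMod p) W) q.1
        (H1smπ (levelsS S) (permRep (ZMod p) W) y) = 0 := congrFun h q
    obtain ⟨n, hn⟩ := (cySP_locSm1_eq_zero_iff y q.1).1 hq
    -- `x = g⁻¹ W` is fixed by `r d`
    have hfix : primeLocalToGlobal q.1 d • (((g⁻¹ : GQ)) : GQ ⧸ W) = ((g⁻¹ : GQ) : GQ ⧸ W) := by
      show ((primeLocalToGlobal q.1 d * g⁻¹ : GQ) : GQ ⧸ W) = _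
      rw [QuotientGroup.eq]
      have : (primeLocalToGlobal q.1 d * g⁻¹)⁻¹ * g⁻¹
          = (g * primeLocalToGlobal q.1 d * g⁻¹)⁻¹ := by group
      rw [this]
      exact W.inv_mem hw
    have h0 := cySP_stab_of_coboundary (r := primeLocalToGlobal q.1)
      (z := fun d => (y : GQ → permRep (ZMod p) W) (primeLocalToGlobal q.1 d)) n hn d _ hfix
    have hw' : (g⁻¹)⁻¹ * primeLocalToGlobal q.1 d * g⁻¹ ∈ W := by rwa [inv_inv]
    have h1 := cySP_conj W hy g⁻¹ (primeLocalToGlobal q.1 d) hw'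
    rw [cyShN1_apply]
    show ((y : GQ → permRep (ZMod p) W) (g * primeLocalToGlobal q.1 d * g⁻¹) :
      (GQ ⧸ W) → ZMod p) (shBase W) = 0
    have h2 : (g⁻¹)⁻¹ * primeLocalToGlobal q.1 d * g⁻¹ = g * primeLocalToGlobal q.1 d * g⁻¹ := by
      rw [inv_inv]
    rw [h2] at h1
    rw [← h1]
    exact h0
  · rintro ⟨_, h⟩
    funext q
    refine (cySP_locSm1_eq_zero_iff y q.1).2
      ⟨cySPPrim W (primeLocalToGlobal q.1)
        (fun d => (y : GQ → permRep (ZMod p) W) (primeLocalToGlobal q.1 d)), fun d => ?_⟩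
    refine cySP_coboundary (r := primeLocalToGlobal q.1)
      (z := fun d => (y : GQ → permRep (ZMod p) W) (primeLocalToGlobal q.1 d))
      (fun a b => ?_) (fun s x hs => ?_) d
    · show (y : GQ → permRep (ZMod p) W) (primeLocalToGlobal q.1 (a * b)) = _
      rw [map_mul, hy]
    · induction x using QuotientGroup.induction_on with
      | H g =>
        have hw : g⁻¹ * primeLocalToGlobal q.1 s * g ∈ W := by
          have h1 : ((primeLocalToGlobal q.1 s * g : GQ) : GQ ⧸ W) = ((g : GQ) : GQ ⧸ W) := hs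
          rw [QuotientGroup.eq] at h1
          have h2 : g⁻¹ * primeLocalToGlobal q.1 s * g
              = ((primeLocalToGlobal q.1 s * g)⁻¹ * g)⁻¹ := by group
          rw [h2]
          exact W.inv_mem h1
        have h1 := cySP_conj W hy g (primeLocalToGlobal q.1 s) hw
        show ((y : GQ → permRep (ZMod p) W) (primeLocalToGlobal q.1 s) :
          (GQ ⧸ W) → ZMod p) ((g : GQ) : GQ ⧸ W) = 0
        rw [h1]
        have hw' : g⁻¹ * primeLocalToGlobal q.1 s * (g⁻¹)⁻¹ ∈ W := by rwa [inv_inv]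
        have h3 := h q g⁻¹ s hw'
        rw [cyShN1_apply] at h3
        have h4 : g⁻¹ * primeLocalToGlobal q.1 s * (g⁻¹)⁻¹ = g⁻¹ * primeLocalToGlobal q.1 s * g := by
          rw [inv_inv]
        simp only [h4] at h3
        exact h3

/-- A smooth character of `W` is a smooth cocycle of the trivial module. -/
lemma cySP_mem_Z1_of_cyHomW {χ : ↥W → Fp1 p} (hχ : χ ∈ cyHomW S W) :
    (χ : ↥W → Rep.trivial (ZMod p) ↥W (ZMod p)) ∈
      Z1 ((levelsS S).sub W) (Rep.trivial (ZMod p) ↥W (ZMod p)) := by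
  obtain ⟨hadd, V, hV, hVχ⟩ := hχ
  refine ⟨(mem_cocycles₁_iff _).2 fun w w' => ?_, V.comap W.subtype, ⟨V, hV, rfl⟩,
    fun g s hs => ?_⟩
  · have := hadd w w'
    rw [add_comm] at this
    exact this
  · have h1 := hadd g s
    have h2 : χ s = 0 := hVχ s hs
    rw [h2, add_zero] at h1
    exact h1

/-- **(SV-P)**, second half: every locally trivial character is the Shapiro image of the smooth
cocycle `trN1 W χ`, whose class is locally trivial. -/
theorem cyShaPerm_exists (hW : W ∈ (levelsS S).sets) {χ : ↥W → Fp1 p} (hχ : χ ∈ cyShaV S W) :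
    ∃ y : ↥(Z1 (levelsS S) (permRep (ZMod p) W)),
      (y : GQ → permRep (ZMod p) W) = trN1 W χ ∧
      cyShN1 W (y : GQ → permRep (ZMod p) W) = χ ∧
      H1smπ (levelsS S) (permRep (ZMod p) W) y ∈ sha1sm S (permRep (ZMod p) W) := by
  have hZ : trN1 W χ ∈ Z1 (levelsS S) (permRep (ZMod p) W) :=
    trN1_mem_Z1 W ((levelsS S).isOpen_of_mem hW) (cySP_mem_Z1_of_cyHomW hχ.1)
  have hsh : cyShN1 W (trN1 W χ) = χ := shN1_trN1 W χ
  refine ⟨⟨trN1 W χ, hZ⟩, rfl, hsh, ?_⟩
  rw [cyShaPerm_iff]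
  show cyShN1 W (trN1 W χ) ∈ cyShaV S W
  rw [hsh]
  exact hχ

variable (S W)

/-- The Shapiro map on smooth `H¹(G_S, 𝔽_p[G/W])`, `[y] ↦ (w ↦ y(w)(x₀))`. -/
noncomputable def cyShH1 : H1sm (levelsS S) (permRep (ZMod p) W) →ₗ[ZMod p] (↥W → Fp1 p) :=
  Submodule.liftQ _
    ({ toFun := fun y => cyShN1 W (y : GQ → permRep (ZMod p) W)
       map_add' := fun _ _ => rfl
       map_smul' := fun _ _ => rfl } :
      ↥(Z1 (levelsS S) (permRep (ZMod p) W)) →ₗ[ZMod p] (↥W → Fp1 p))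
    (by
      rintro y ⟨n, hn⟩
      rw [LinearMap.mem_ker]
      show cyShN1 W (y : GQ → permRep (ZMod p) W) = 0
      have h1 : (y : GQ → permRep (ZMod p) W) = δ0 (permRep (ZMod p) W) n := hn.symm
      rw [h1]
      exact shN1_δ0 W n)

variable {S W}

@[simp] lemma cyShH1_mk (y : ↥(Z1 (levelsS S) (permRep (ZMod p) W))) :
    cyShH1 S W (H1smπ (levelsS S) (permRep (ZMod p) W) y)
      = cyShN1 W (y : GQ → permRep (ZMod p) W) := rfl

lemma cyShH1_injective : Function.Injective (cyShH1 (p := p) S W) := by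
  rw [← LinearMap.ker_eq_bot, LinearMap.ker_eq_bot']
  intro x hx
  obtain ⟨y, rfl⟩ := Submodule.mkQ_surjective _ x
  have h1 : shN1 W (y : GQ → permRep (ZMod p) W) = 0 := hx
  have h2 := shapiroN_inj1 W y.2 h1
  exact (Submodule.Quotient.mk_eq_zero _).2 h2

lemma cyShH1_mem_cyShaV_iff (x : H1sm (levelsS S) (permRep (ZMod p) W)) :
    cyShH1 S W x ∈ cyShaV S W ↔ x ∈ sha1sm S (permRep (ZMod p) W) := by
  obtain ⟨y, rfl⟩ := Submodule.mkQ_surjective _ x
  exact (cyShaPerm_iff y).symm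

/-- **(SV-P)** as an isomorphism: `Ш¹(G_S, 𝔽_p[G/W]) ≃ cyShaV S W`, `[y] ↦ shN1 W y`. -/
noncomputable def cyShaPermEquiv (hW : W ∈ (levelsS S).sets) :
    ↥(sha1sm S (permRep (ZMod p) W)) ≃+ ↥(cyShaV (p := p) S W) :=
  AddEquiv.ofBijective
    ({ toFun := fun x => ⟨cyShH1 S W x.1, (cyShH1_mem_cyShaV_iff x.1).2 x.2⟩
       map_zero' := Subtype.ext (map_zero (cyShH1 S W))
       map_add' := fun a b => Subtype.ext (map_add (cyShH1 S W) a.1 b.1) } :
      ↥(sha1sm S (permRep (ZMod p) W)) →+ ↥(cyShaV (p := p) S W))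
    ⟨fun a b hab => Subtype.ext (cyShH1_injective (congrArg Subtype.val hab)),
      fun χ => by
        obtain ⟨y, _, hy, hsha⟩ := cyShaPerm_exists hW χ.2
        exact ⟨⟨H1smπ (levelsS S) (permRep (ZMod p) W) y, hsha⟩, Subtype.ext hy⟩⟩

@[simp] lemma cyShaPermEquiv_apply (hW : W ∈ (levelsS S).sets)
    (x : ↥(sha1sm S (permRep (ZMod p) W))) :
    ((cyShaPermEquiv hW x : ↥(cyShaV (p := p) S W)) : ↥W → Fp1 p) = cyShH1 S W x.1 := rfl

end Fermat.Agent.S56.EC
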