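/-
S56, wall W2-EC, step (D), seat N4 (reciprocity), CORE (helper56).

`W = L.U` a level of `G_S`, `M' = 𝔽_p[G/W]`.  The pairing
  `cyB : Ш_V(W) × T_W → 𝔽_p`,   `B(χ, t) = α(κ t)(x_χ)`,
where `x_χ ∈ Ш¹(G_S, M')` is the class with Shapiro image `χ` (`cyShaPermEquiv`),
`κ t = Sh⁻¹(κ₀ t) ∈ HH¹(G_S, Hom(M', KC))` (`cyShHH1`, `cyKapW`) and `α = ptAlpha` (Poitou–Tate).

* `cyB_left`  : `B(χ, ·) = 0 ⇒ χ = 0`                    (`RecipCoreL.lean`);
* `cyB_right` : `B(·, t) = 0 ⇔ t ∈ E + Fˣ + p·T_W`       (`RecipCoreR.lean`);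
* `cyB_equiv` : `B(γ ⋆ χ, γ t) = ω(γ) B(χ, t)`           (`RecipCoreEq.lean`).
-/
import Fermat.Agent.S56.W2.EC.Cyclic.RecipW
import Fermat.Agent.S56.W2.EC.Cyclic.ShHyper
import Fermat.Agent.S56.W2.EC.Cyclic.ShaPerm
import Fermat.Agent.S56.W2.EC.Cyclic.RecipEq
import Fermat.Agent.F4.PT.Abs

set_option autoImplicit false
set_option synthInstance.maxHeartbeats 400000
set_option linter.style.haveILetI false
set_option linter.unusedSectionVars false

namespace Fermat.Agent.S56.EC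

open Fermat.Agent.F4 Fermat.Agent.F4Cf ExtCitation Module

variable {p : ℕ} [Fact p.Prime] {S : Finset Nat.Primes} {hpS : pPrime p ∈ S}
  (Pk : ECPack p S hpS) (L : OpenS S)

/-- The `Fintype` structure on `G/W`. -/
@[reducible] noncomputable def cyFt : Fintype (GQ ⧸ L.U) :=
  haveI : L.U.FiniteIndex := by
    obtain ⟨V, hV, hVU⟩ := L.isOpen
    haveI := (levelsS S).finiteIndex V hV
    exact Subgroup.finiteIndex_of_le hVU
  Fintype.ofFinite _

lemma cyM_smooth : IsSmooth (levelsS S) (permRep (ZMod p) L.U) := permRep_smooth _ L.isOpen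

lemma cyM_finite : Module.Finite (ZMod p) (permRep (ZMod p) L.U) := permRep_finite _ L.isOpen

/-- Shapiro for `KC`, as a linear equivalence. -/
noncomputable def cyShE : HH1 (levelsS S) (homCx (permRep (ZMod p) L.U) Pk.KC) ≃ₗ[ZMod p]
    HH1 ((levelsS S).sub L.U) (Pk.KC.res L.U.subtype) :=
  letI := cyFt L
  LinearEquiv.ofBijective (cyShHH1 L.U Pk.KC (levelsS S)) (cyShHH1_bijective L.U Pk.KC L.isOpen)

/-- Shapiro for `KJ`, as a linear equivalence. -/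
noncomputable def cyShEJ : HH1 (levelsS S) (homCx (permRep (ZMod p) L.U) Pk.KJ) ≃ₗ[ZMod p]
    HH1 ((levelsS S).sub L.U) (Pk.KJ.res L.U.subtype) :=
  letI := cyFt L
  LinearEquiv.ofBijective (cyShHH1 L.U Pk.KJ (levelsS S)) (cyShHH1_bijective L.U Pk.KJ L.isOpen)

/-- `κ : T_W → HH¹(G_S, Hom(M', KC))`. -/
noncomputable def cyKap : ↥L.TU →+ HH1 (levelsS S) (homCx (permRep (ZMod p) L.U) Pk.KC) :=
  (cyShE Pk L).symm.toLinearMap.toAddMonoidHom.comp (cyKapW Pk L)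

lemma cyShE_cyKap (t : ↥L.TU) : cyShE Pk L (cyKap Pk L t) = cyKapW Pk L t :=
  (cyShE Pk L).apply_symm_apply _

/-- `α : HH¹(G_S, Hom(M', KC)) → H¹(G_S, M')^*`. -/
noncomputable abbrev cyAlpha : HH1 (levelsS S) (homCx (permRep (ZMod p) L.U) Pk.KC) →ₗ[ZMod p]
    Dual (ZMod p) (H1sm (levelsS S) (permRep (ZMod p) L.U)) :=
  ptAlpha Pk.datum (permRep (ZMod p) L.U) (cyM_smooth L) (cyM_finite L)

/-- `β : HH¹(G_S, Hom(M', KJ)) → HH¹(G_S, Hom(M', KC))` (`= ptBeta Pk.datum M'`, stated with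
`Pk.KJ`, `Pk.KC`). -/
noncomputable def cyBetaC : HH1 (levelsS S) (homCx (permRep (ZMod p) L.U) Pk.KJ) →ₗ[ZMod p]
    HH1 (levelsS S) (homCx (permRep (ZMod p) L.U) Pk.KC) :=
  ptBeta Pk.datum (permRep (ZMod p) L.U)

lemma cyBetaC_eq : cyBetaC Pk L = (homCxPost (permRep (ZMod p) L.U) (cyG Pk)).mapHH1 (levelsS S) :=
  rfl

/-- `ι : HH¹(G_S, Hom(M', KJ)) → (∏_q H¹(D_q, M'))^*`. -/
noncomputable abbrev cyIota : HH1 (levelsS S) (homCx (permRep (ZMod p) L.U) Pk.KJ) →ₗ[ZMod p]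
    Dual (ZMod p) ((q : ↥S) → H1sm (locLevelsS S q.1)
      (Rep.res (primeLocalToGlobal q.1) (permRep (ZMod p) L.U))) :=
  ptIota Pk.datum (permRep (ZMod p) L.U) (cyM_smooth L) (cyM_finite L)

/-- `α ∘ β = loc^* ∘ ι`. -/
lemma cyAlpha_cyBetaC (η : HH1 (levelsS S) (homCx (permRep (ZMod p) L.U) Pk.KJ))
    (x : H1sm (levelsS S) (permRep (ZMod p) L.U)) :
    cyAlpha Pk L (cyBetaC Pk L η) x =
      cyIota Pk L η (locSm1Total S (permRep (ZMod p) L.U) x) :=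
  congrArg (fun f => f η x)
    (pt_compat Pk.datum (permRep (ZMod p) L.U) (cyM_smooth L) (cyM_finite L))

/-- Shapiro intertwines `β` and `g_W`. -/
lemma cyShE_cyBetaC (η : HH1 (levelsS S) (homCx (permRep (ZMod p) L.U) Pk.KJ)) :
    cyShE Pk L (cyBetaC Pk L η) =
      (rbResHom L.U.subtype (cyG Pk)).mapHH1 ((levelsS S).sub L.U) (cyShEJ Pk L η) :=
  letI := cyFt L
  cyShHH1_post L.U (levelsS S) (cyG Pk) η

/-- `α` is surjective. -/
theorem cyAlpha_surjective : Function.Surjective (cyAlpha Pk L) :=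
  ptA1_surjective _ _ _ _ _ _
    (ddt_primeTo (levelsS S) Pk.datum.KC Pk.datum.smoothC Pk.datum.inv Pk.datum.a2inj
      Pk.datum.a1surj (permRep (ZMod p) L.U) (cyM_smooth L) (cyM_finite L)).2

/-- `α` is injective. -/
theorem cyAlpha_injective : Function.Injective (cyAlpha Pk L) :=
  ptA1_injective _ _ _ _ _ _
    (ddt_inj_levels (levelsS S) Pk.datum.KC Pk.datum.smoothC Pk.datum.inv Pk.datum.a2inj
      Pk.datum.a1surj Pk.datum.a1inj (permRep (ZMod p) L.U) (cyM_smooth L) (cyM_finite L))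

/-- `ι` is surjective. -/
theorem cyIota_surjective : Function.Surjective (cyIota Pk L) :=
  ptIota_surjective Pk.datum (permRep (ZMod p) L.U) (cyM_smooth L) (cyM_finite L)

/-- **The reciprocity pairing** `B : Ш_V(W) × T_W → 𝔽_p`. -/
noncomputable def cyB (hL : L.U ∈ (levelsS S).sets) : ↥(cyShaV (p := p) S L.U) →+ ↥L.TU →+ ZMod p :=
  AddMonoidHom.mk' (fun χ =>
    ((cyAlpha Pk L).flip (((cyShaPermEquiv hL).symm χ :
      ↥(sha1sm S (permRep (ZMod p) L.U))) : H1sm (levelsS S) (permRep (ZMod p) L.U))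
      ).toAddMonoidHom.comp (cyKap Pk L))
    (fun χ χ' => AddMonoidHom.ext fun t => by
      show (cyAlpha Pk L).flip _ _ = (cyAlpha Pk L).flip _ _ + (cyAlpha Pk L).flip _ _
      rw [map_add, Submodule.coe_add, map_add]
      rfl)

lemma cyB_apply (hL : L.U ∈ (levelsS S).sets) (χ : ↥(cyShaV (p := p) S L.U)) (t : ↥L.TU) :
    cyB Pk L hL χ t = cyAlpha Pk L (cyKap Pk L t)
      (((cyShaPermEquiv hL).symm χ : ↥(sha1sm S (permRep (ZMod p) L.U))) :
        H1sm (levelsS S) (permRep (ZMod p) L.U)) := rfl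

end Fermat.Agent.S56.EC
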