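/-
S56, wall W2-EC, step (D), seat N4 (reciprocity), equivariance of the pairing `cyB`
(owner: helper58; stub by helper56).

`cyB_equiv` : `B(γ ⋆ χ, γ t) = ω(γ) B(χ, t)`, from (EQ) (`RecipEq.lean`, `recipEq_ptA1`) with
`x = CMk (diagJ t)`, `Z`, `Z'` representatives of `κ t`, `κ (γ t)` (`cyKapW_rel`, `cyShHH1_mk`,
`recipA_equivariant`), `y`, `y'` representatives of `x_χ`, `ω(γ)⁻¹ x_{χ'}`.
-/
import Fermat.Agent.S56.W2.EC.Cyclic.RecipCore

set_option autoImplicit false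
set_option synthInstance.maxHeartbeats 400000
set_option linter.unusedSectionVars false

namespace Fermat.Agent.S56.EC

open Fermat.Agent.F4 Fermat.Agent.F4Cf ExtCitation Module

variable {p : ℕ} [Fact p.Prime] {S : Finset Nat.Primes} {hpS : pPrime p ∈ S}
  (Pk : ECPack p S hpS) (L : OpenS S)

/-- **Equivariance** (from (EQ)). -/
theorem cyB_equiv (hL : L.U ∈ (levelsS S).sets) (γ : GQ) (χ χ' : ↥(cyShaV (p := p) S L.U))
    (t t' : ↥L.TU)
    (hχ : (χ' : ↥L.U → Fp1 p) = cyConj L.U ((levelsS S).normal _ hL) γ (χ : ↥L.U → Fp1 p))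
    (ht : (t' : QSx S) = (QSx S).ρ γ (t : QSx S)) :
    cyB Pk L hL χ' t' = (cycloChar p γ : ZMod p) * cyB Pk L hL χ t := by
  let _ := cyFt L
  have hWn : L.U.Normal := (levelsS S).normal _ hL
  -- representatives of `κ t`, `κ t'`
  obtain ⟨z, hz1, hz2⟩ := cyKapW_rel Pk L t
  obtain ⟨z', hz1', hz2'⟩ := cyKapW_rel Pk L t'
  obtain ⟨Z, hZ, hZz⟩ := shapiro_surj1 L.U Pk.KC L.isOpen z.2
  obtain ⟨Z', hZ', hZz'⟩ := shapiro_surj1 L.U Pk.KC L.isOpen z'.2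
  have hK : cyKap Pk L t = HH1π _ _ ⟨Z, hZ⟩ := by
    apply (cyShE Pk L).injective
    rw [cyShE_cyKap, hz1]
    show _ = cyShHH1 L.U Pk.KC (levelsS S) (HH1π _ _ ⟨Z, hZ⟩)
    rw [cyShHH1_mk]
    congr 1
    exact Subtype.ext hZz.symm
  have hK' : cyKap Pk L t' = HH1π _ _ ⟨Z', hZ'⟩ := by
    apply (cyShE Pk L).injective
    rw [cyShE_cyKap, hz1']
    show _ = cyShHH1 L.U Pk.KC (levelsS S) (HH1π _ _ ⟨Z', hZ'⟩)
    rw [cyShHH1_mk]
    congr 1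
    exact Subtype.ext hZz'.symm
  have hrel : (Pk.datC.res L.U.subtype).Rel1α (CMk S (diagJ S (t : QSx S)))
      (shT1 L.U Pk.KC Z) := by
    rw [hZz]
    exact hz2
  have hrel' : (Pk.datC.res L.U.subtype).Rel1α ((Crep S).ρ γ (CMk S (diagJ S (t : QSx S))))
      (shT1 L.U Pk.KC Z') := by
    rw [hZz', ← recipA_equivariant, ← ht]
    exact hz2'
  -- representatives of `x_χ`, `x_χ'`
  obtain ⟨y, hy⟩ := H1smπ_surjective (levelsS S) (permRep (ZMod p) L.U)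
    (((cyShaPermEquiv hL).symm χ : ↥(sha1sm S (permRep (ZMod p) L.U))) :
      H1sm (levelsS S) (permRep (ZMod p) L.U))
  obtain ⟨y', hy'⟩ := H1smπ_surjective (levelsS S) (permRep (ZMod p) L.U)
    (((cyShaPermEquiv hL).symm χ' : ↥(sha1sm S (permRep (ZMod p) L.U))) :
      H1sm (levelsS S) (permRep (ZMod p) L.U))
  have hN : cyShN1 L.U (y : GQ → permRep (ZMod p) L.U) = (χ : ↥L.U → Fp1 p) := by
    have h1 := cyShaPermEquiv_apply hL ((cyShaPermEquiv hL).symm χ)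
    rw [AddEquiv.apply_symm_apply, ← hy, cyShH1_mk] at h1
    exact h1.symm
  have hN' : cyShN1 L.U (y' : GQ → permRep (ZMod p) L.U) = (χ' : ↥L.U → Fp1 p) := by
    have h1 := cyShaPermEquiv_apply hL ((cyShaPermEquiv hL).symm χ')
    rw [AddEquiv.apply_symm_apply, ← hy', cyShH1_mk] at h1
    exact h1.symm
  -- the scaled cocycle
  have hc : ((cycloChar p γ : (ZMod p)ˣ) : ZMod p) ≠ 0 := Units.ne_zero _
  have hN'' : shN1 L.U ((((cycloChar p γ : (ZMod p)ˣ) : ZMod p)⁻¹ • y' :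
        ↥(Z1 (levelsS S) (permRep (ZMod p) L.U))) : GQ → permRep (ZMod p) L.U)
      = rEqConj L.U hWn γ (shN1 L.U (y : GQ → permRep (ZMod p) L.U)) := by
    funext w
    have h1 := congrFun hN' w
    have h2 := congrFun hN ⟨γ⁻¹ * (w : GQ) * γ, rEq_conj_mem L.U hWn γ w⟩
    have h3 := congrFun hχ w
    have h4 : (cyShN1 L.U (y' : GQ → permRep (ZMod p) L.U) w : ZMod p) =
        ((cycloChar p γ : (ZMod p)ˣ) : ZMod p) *
          (cyShN1 L.U (y : GQ → permRep (ZMod p) L.U)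
            ⟨γ⁻¹ * (w : GQ) * γ, rEq_conj_mem L.U hWn γ w⟩ : ZMod p) := by
      rw [h1, h3, h2]
      rfl
    show ((cycloChar p γ : (ZMod p)ˣ) : ZMod p)⁻¹ *
        (cyShN1 L.U (y' : GQ → permRep (ZMod p) L.U) w : ZMod p) =
      (cyShN1 L.U (y : GQ → permRep (ZMod p) L.U)
        ⟨γ⁻¹ * (w : GQ) * γ, rEq_conj_mem L.U hWn γ w⟩ : ZMod p)
    rw [h4, ← mul_assoc, inv_mul_cancel₀ hc, one_mul]
  have e : H1smπ (levelsS S) (permRep (ZMod p) L.U)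
      (((cycloChar p γ : (ZMod p)ˣ) : ZMod p)⁻¹ • y') =
      ((cycloChar p γ : (ZMod p)ˣ) : ZMod p)⁻¹ • H1smπ (levelsS S) (permRep (ZMod p) L.U) y' :=
    map_smul _ _ _
  have key : ((cycloChar p γ : (ZMod p)ˣ) : ZMod p)⁻¹ *
      ptA1 (levelsS S) Pk.KC Pk.datum.inv (permRep (ZMod p) L.U) (cyM_smooth L)
        (cyM_finite L) (HH1π _ _ ⟨Z', hZ'⟩) (H1smπ _ _ y') =
      ptA1 (levelsS S) Pk.KC Pk.datum.inv (permRep (ZMod p) L.U) (cyM_smooth L)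
        (cyM_finite L) (HH1π _ _ ⟨Z, hZ⟩) (H1smπ _ _ y) := by
    have k0 := recipEq_ptA1 (levelsS S) L.U hWn Pk.datC Pk.datum.inv (cyM_smooth L)
      (cyM_finite L) γ (CMk S (diagJ S (t : QSx S))) ⟨Z, hZ⟩ ⟨Z', hZ'⟩ hrel hrel' y
      (((cycloChar p γ : (ZMod p)ˣ) : ZMod p)⁻¹ • y') hN''
    rw [e, map_smul, smul_eq_mul] at k0
    exact k0
  rw [cyB_apply, cyB_apply, hK, hK', ← hy, ← hy']
  have key' : ptA1 (levelsS S) Pk.KC Pk.datum.inv (permRep (ZMod p) L.U) (cyM_smooth L)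
      (cyM_finite L) (HH1π _ _ ⟨Z', hZ'⟩) (H1smπ _ _ y') =
      ((cycloChar p γ : (ZMod p)ˣ) : ZMod p) *
        ptA1 (levelsS S) Pk.KC Pk.datum.inv (permRep (ZMod p) L.U) (cyM_smooth L)
          (cyM_finite L) (HH1π _ _ ⟨Z, hZ⟩) (H1smπ _ _ y) := by
    rw [← key, ← mul_assoc, mul_inv_cancel₀ hc, one_mul]
  exact key'

end Fermat.Agent.S56.EC
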