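/-
S56, wall W2-EC, step (D), seat N4 (reciprocity), left nondegeneracy of `cyB` (helper56).

* `cyKap_span`  : every class of `HH¹(G_S, Hom(M', KC))` is `κ t + β η` (`cyKapW_span` through
                  Shapiro, `cyShE_cyBetaC`);
* `cyAlpha_beta_sha` : `α(β η)` vanishes on `Ш¹(G_S, M')` (`pt_compat`);
* `cyB_left`    : `B(χ, ·) = 0 ⇒ χ = 0` (`ptAlpha` is surjective).
-/
import Fermat.Agent.S56.W2.EC.Cyclic.RecipCore

set_option autoImplicit false
set_option synthInstance.maxHeartbeats 400000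
set_option linter.unusedSectionVars false

namespace Fermat.Agent.S56.EC

open Fermat.Agent.F4 Fermat.Agent.F4Cf ExtCitation Module

variable {p : ℕ} [Fact p.Prime] {S : Finset Nat.Primes} {hpS : pPrime p ∈ S}
  (Pk : ECPack p S hpS) (L : OpenS S)

/-- Every class of `HH¹(G_S, Hom(M', KC))` is `κ t + β η`. -/
theorem cyKap_span (hL : L.U ∈ (levelsS S).sets)
    (ξ : HH1 (levelsS S) (homCx (permRep (ZMod p) L.U) Pk.KC)) :
    ∃ t : ↥L.TU, ∃ η : HH1 (levelsS S) (homCx (permRep (ZMod p) L.U) Pk.KJ),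
      ξ = cyKap Pk L t + cyBetaC Pk L η := by
  obtain ⟨t, η, h⟩ := cyKapW_span Pk L hL (cyShE Pk L ξ)
  refine ⟨t, (cyShEJ Pk L).symm η, (cyShE Pk L).injective ?_⟩
  rw [h, map_add, cyShE_cyKap, cyShE_cyBetaC, LinearEquiv.apply_symm_apply]

/-- `α(β η)` vanishes on `Ш¹`. -/
theorem cyAlpha_beta_sha (η : HH1 (levelsS S) (homCx (permRep (ZMod p) L.U) Pk.KJ))
    (x : H1sm (levelsS S) (permRep (ZMod p) L.U)) (hx : x ∈ sha1sm S (permRep (ZMod p) L.U)) :
    cyAlpha Pk L (cyBetaC Pk L η) x = 0 := by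
  rw [cyAlpha_cyBetaC, show locSm1Total S (permRep (ZMod p) L.U) x = 0 from hx, map_zero]

/-- **Left nondegeneracy.** -/
theorem cyB_left (hL : L.U ∈ (levelsS S).sets) (χ : ↥(cyShaV (p := p) S L.U))
    (h : ∀ t : ↥L.TU, cyB Pk L hL χ t = 0) : χ = 0 := by
  set x : ↥(sha1sm S (permRep (ZMod p) L.U)) := (cyShaPermEquiv hL).symm χ with hx
  have hall : ∀ φ : Dual (ZMod p) (H1sm (levelsS S) (permRep (ZMod p) L.U)),
      φ (x : H1sm (levelsS S) (permRep (ZMod p) L.U)) = 0 := by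
    intro φ
    obtain ⟨ξ, rfl⟩ := cyAlpha_surjective Pk L φ
    obtain ⟨t, η, rfl⟩ := cyKap_span Pk L hL ξ
    rw [map_add, LinearMap.add_apply, cyAlpha_beta_sha Pk L η _ x.2, add_zero]
    exact h t
  have hx0 : (x : H1sm (levelsS S) (permRep (ZMod p) L.U)) = 0 :=
    (Module.forall_dual_apply_eq_zero_iff (ZMod p) _).1 hall
  have hx1 : x = 0 := Subtype.ext hx0
  have : χ = cyShaPermEquiv hL x := by rw [hx, AddEquiv.apply_symm_apply]
  rw [this, hx1, map_zero]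

end Fermat.Agent.S56.EC
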