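import Fermat.Agent.S56.W2.EC.Cyclic.TorsObj
import Fermat.Agent.S56.W2.EC.Cyclic.AObj
import Fermat.Agent.S56.W2.EC.Cyclic.RecipK0

/-!
# S56 / W2 / EC / Cyclic / RecipPair : the reciprocity identity (N4) for the concrete objects,
from a perfect equivariant pairing `Ш_V(W) × T_W → 𝔽_p`
(seat N4-WIRE of the cyclic case; helper86)

`𝒮 : CycSetup p S`.  For **any** bi-additive `B : cyShaV S W × T_W → 𝔽_p` with
* (left)  `B(χ, ·) = 0 ⇒ χ = 0`,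
* (right) `B(·, t) = 0 ⇔ t ∈ E + Fˣ + p T_W`,
* (equiv) `B(u ⋆ χ, u t) = ω(u) B(χ, t)` for `u ∈ U`
(the shapes of `cyB_left`, `cyB_right`, `cyB_equiv` of `RecipCore.lean`, `RecipCoreEq.lean`),
`CycSetup.recip_of_cyB` : `d Sha = d (D (A / p))` for every additive `d`, with `Sha = 𝒮.ShaObj`
(`TorsObj.lean`), `A = 𝒮.A` (`AObj.lean`).

* `𝒮.recB B hker : 𝒮.ShaObj.carrier →+ (modObj 𝒮.A).carrier →+ ZMod p` : the descended pairing,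
  `recB_cls : recB (shaVal.symm χ) [clsA t] = B χ t`.
-/

set_option autoImplicit false
set_option linter.unusedSectionVars false
set_option linter.style.haveILetI false

noncomputable section

open CategoryTheory groupCohomology ExtCitation

namespace Fermat.Agent.S56.EC

open Fermat.Agent.F4

namespace CycSetup

variable {p : ℕ} [Fact p.Prime] {S : Finset Nat.Primes} (𝒮 : CycSetup p S)

/-- The subquotient `A / p A`. -/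
abbrev modA : SubQ p 𝒮.Γ 𝒮.A := (StabSub.top 𝒮.Γ 𝒮.A).modQ p

/-- The class in `A / p` of an element of `T_W`. -/
def clsAp : ↥𝒮.L.TU →+ (modObj (C := 𝒮.Γ) 𝒮.A (NeZero.ne p)).carrier :=
  𝒮.modA.cls.comp
    { toFun := fun t => (⟨𝒮.clsA t, AddSubgroup.mem_top _⟩ : ↥𝒮.modA.top)
      map_zero' := Subtype.ext (map_zero 𝒮.clsA)
      map_add' := fun t t' => Subtype.ext (map_add 𝒮.clsA t t') }

lemma clsAp_surjective : Function.Surjective 𝒮.clsAp := by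
  intro x
  obtain ⟨y, rfl⟩ := 𝒮.modA.cls_surjective x
  obtain ⟨t, ht⟩ := 𝒮.clsA_surjective y.1
  refine ⟨t, ?_⟩
  show 𝒮.modA.cls _ = 𝒮.modA.cls y
  congr 1
  exact Subtype.ext ht

/-- The kernel of `T_W → A / p` is `E + Fˣ + p T_W`. -/
lemma clsAp_eq_zero_iff (t : ↥𝒮.L.TU) :
    𝒮.clsAp t = 0 ↔ ∃ e ∈ sUnitsAdd S, ∃ a : (𝒮.L.field)ˣ, ∃ t' ∈ 𝒮.L.TU,
      (t : QSx S) = e + 𝒮.L.toQS a + p • t' := by
  show 𝒮.modA.cls _ = 0 ↔ _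
  rw [SubQ.cls_eq_zero_iff]
  show 𝒮.clsA t ∈ pMul p (⊤ : AddSubgroup 𝒮.A) ↔ _
  rw [mem_pMul]
  constructor
  · rintro ⟨b, -, hb⟩
    obtain ⟨t', rfl⟩ := 𝒮.clsA_surjective b
    have h0 : 𝒮.clsA (t - p • t') = 0 := by
      rw [map_sub, map_nsmul, hb, sub_self]
    rw [clsA_eq_zero_iff] at h0
    obtain ⟨e, he, f, hf, hef⟩ := AddSubgroup.mem_sup.1 h0
    obtain ⟨a, rfl⟩ := hf
    refine ⟨e, he, a, (t' : QSx S), t'.2, ?_⟩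
    rw [hef]
    show (t : QSx S) = ((t - p • t' : ↥𝒮.L.TU) : QSx S) + p • (t' : QSx S)
    rw [AddSubgroup.coe_sub, AddSubgroup.coe_nsmul]
    abel
  · rintro ⟨e, he, a, t', ht', h⟩
    refine ⟨𝒮.clsA ⟨t', ht'⟩, AddSubgroup.mem_top _, ?_⟩
    rw [← map_nsmul, ← sub_eq_zero, ← map_sub, clsA_eq_zero_iff]
    show ((p • (⟨t', ht'⟩ : ↥𝒮.L.TU) - t : ↥𝒮.L.TU) : QSx S) ∈ 𝒮.L.EF
    rw [AddSubgroup.coe_sub, AddSubgroup.coe_nsmul]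
    show p • t' - (t : QSx S) ∈ 𝒮.L.EF
    rw [h]
    have e1 : p • t' - (e + 𝒮.L.toQS a + p • t') = -(e + 𝒮.L.toQS a) := by abel
    rw [e1]
    exact 𝒮.L.EF.neg_mem (AddSubgroup.add_mem _ (𝒮.L.sUnitsAdd_le_EF he)
      (𝒮.L.Fx_le_EF ⟨a, rfl⟩))

lemma clsAp_smul (u : ↥𝒮.U) (t t' : ↥𝒮.L.TU)
    (h : (t' : QSx S) = (QSx S).ρ (u : GQ) (t : QSx S)) :
    𝒮.clsAp t' = 𝒮.proj u • 𝒮.clsAp t := by
  show 𝒮.modA.cls _ = 𝒮.proj u • 𝒮.modA.cls _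
  rw [SubQ.smul_cls]
  congr 1
  apply Subtype.ext
  exact 𝒮.proj_smul_clsA' u t t' h

section Pairing

variable (B : ↥(cyShaV (p := p) S 𝒮.W) →+ ↥𝒮.L.TU →+ ZMod p)
  (hker : ∀ (χ : ↥(cyShaV (p := p) S 𝒮.W)) (t : ↥𝒮.L.TU), 𝒮.clsAp t = 0 → B χ t = 0)

/-- The pairing `B(χ, ·)` on `A / p`. -/
def recB₁ (χ : ↥(cyShaV (p := p) S 𝒮.W)) :
    (modObj (C := 𝒮.Γ) 𝒮.A (NeZero.ne p)).carrier →+ ZMod p :=
  𝒮.clsAp.liftOfSurjective 𝒮.clsAp_surjective ⟨B χ, fun t ht => by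
    rw [AddMonoidHom.mem_ker] at ht ⊢
    exact hker χ t ht⟩

lemma recB₁_cls (χ : ↥(cyShaV (p := p) S 𝒮.W)) (t : ↥𝒮.L.TU) :
    𝒮.recB₁ B hker χ (𝒮.clsAp t) = B χ t :=
  AddMonoidHom.liftOfRightInverse_comp_apply _ _ _ _ t

/-- **The descended pairing** `Sha × A / p → 𝔽_p`. -/
def recB : (𝒮.ShaObj).carrier →+ (modObj (C := 𝒮.Γ) 𝒮.A (NeZero.ne p)).carrier →+ ZMod p :=
  AddMonoidHom.mk' (fun s => 𝒮.recB₁ B hker (𝒮.shaVal s)) (fun s s' => by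
    refine AddMonoidHom.ext fun a => ?_
    obtain ⟨t, rfl⟩ := 𝒮.clsAp_surjective a
    show 𝒮.recB₁ B hker (𝒮.shaVal (s + s')) (𝒮.clsAp t) =
      𝒮.recB₁ B hker (𝒮.shaVal s) (𝒮.clsAp t) + 𝒮.recB₁ B hker (𝒮.shaVal s') (𝒮.clsAp t)
    rw [recB₁_cls, recB₁_cls, recB₁_cls, map_add, map_add]
    rfl)

lemma recB_cls (s : (𝒮.ShaObj).carrier) (t : ↥𝒮.L.TU) :
    𝒮.recB B hker s (𝒮.clsAp t) = B (𝒮.shaVal s) t :=
  𝒮.recB₁_cls B hker _ t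

end Pairing

/-- **(N4) The reciprocity identity in `K₀`**, from a perfect equivariant pairing
`B : Ш_V(W) × T_W → 𝔽_p`: `d Sha = d (D (A / p))`. -/
theorem recip_of_cyB (B : ↥(cyShaV (p := p) S 𝒮.W) →+ ↥𝒮.L.TU →+ ZMod p)
    (hleft : ∀ χ : ↥(cyShaV (p := p) S 𝒮.W), (∀ t : ↥𝒮.L.TU, B χ t = 0) → χ = 0)
    (hright : ∀ t : ↥𝒮.L.TU, (∀ χ : ↥(cyShaV (p := p) S 𝒮.W), B χ t = 0) ↔
      ∃ e ∈ sUnitsAdd S, ∃ a : (𝒮.L.field)ˣ, ∃ t' ∈ 𝒮.L.TU,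
        (t : QSx S) = e + 𝒮.L.toQS a + p • t')
    (hequiv : ∀ (u : ↥𝒮.U) (χ χ' : ↥(cyShaV (p := p) S 𝒮.W)) (t t' : ↥𝒮.L.TU),
      (χ' : ↥𝒮.W → Fp1 p) = cyConj 𝒮.W 𝒮.normal_W (u : GQ) (χ : ↥𝒮.W → Fp1 p) →
      (t' : QSx S) = (QSx S).ρ (u : GQ) (t : QSx S) →
      B χ' t' = ((cycloChar p (u : GQ) : (ZMod p)ˣ) : ZMod p) * B χ t)
    {d : FinCMod p 𝒮.Γ → ℤ} (hd : IsAdditive d) :
    d 𝒮.ShaObj = d (dualObj 𝒮.ω (modObj (C := 𝒮.Γ) 𝒮.A (NeZero.ne p))) := by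
  have hker : ∀ (χ : ↥(cyShaV (p := p) S 𝒮.W)) (t : ↥𝒮.L.TU), 𝒮.clsAp t = 0 → B χ t = 0 :=
    fun χ t ht => (hright t).2 ((𝒮.clsAp_eq_zero_iff t).1 ht) χ
  refine recip_of_pairing 𝒮.ω 𝒮.ShaObj _ (𝒮.recB B hker) ?_ ?_ ?_ hd
  · -- left
    intro s hs
    have h1 : 𝒮.shaVal s = 0 := hleft _ fun t => by
      rw [← 𝒮.recB_cls B hker]
      exact hs _
    exact 𝒮.shaVal.injective (by rw [h1, map_zero])
  · -- right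
    intro a ha
    obtain ⟨t, rfl⟩ := 𝒮.clsAp_surjective a
    rw [clsAp_eq_zero_iff, ← hright]
    intro χ
    have := ha (𝒮.shaVal.symm χ)
    rwa [recB_cls, AddEquiv.apply_symm_apply] at this
  · -- equivariance
    intro γ s a
    obtain ⟨u, rfl⟩ := 𝒮.proj_surjective γ
    obtain ⟨t, rfl⟩ := 𝒮.clsAp_surjective a
    let t' : ↥𝒮.L.TU := 𝒮.L.actTU (u : GQ) (𝒮.mem_normalizer _) t
    have e1 : 𝒮.proj u • 𝒮.clsAp t = 𝒮.clsAp t' := (𝒮.clsAp_smul u t t' rfl).symm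
    rw [e1, recB_cls, recB_cls]
    exact hequiv u _ _ t t' (𝒮.shaVal_smul u s) rfl

end CycSetup

end Fermat.Agent.S56.EC
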