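/-
S56, wall W2-EC, step (D), seat N4 (reciprocity), WIRING (owner: helper86; stub by helper56).
DONE (helper86): this file is free of gaps; it is `CycSetup.recip_of_cyB` (`RecipPair.lean`) applied
to `cyB`, `cyB_left`, `cyB_right`, `cyB_equiv`.

`CycSetup.recip_field` : the `recip` field of `CycK0 𝒮.ω` for `Sha := 𝒮.ShaObj`, `A := 𝒮.A`:
  `d 𝒮.ShaObj = d (dualObj 𝒮.ω (modObj 𝒮.A _))`.
From `recip_of_pairing` (`RecipK0.lean`) applied to the pairing induced by `cyB Pk 𝒮.L 𝒮.hW`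
(`RecipCore.lean`) on `𝒮.ShaObj × 𝒮.A / p`:
* well defined + right nondegenerate : `cyB_right` (kernel `E + Fˣ + p·T_W`, i.e. `clsA t ∈ p·A`);
* left nondegenerate                 : `cyB_left`;
* equivariant                        : `cyB_equiv` with `shaVal_smul`, `proj_smul_clsA'`.
-/
import Fermat.Agent.S56.W2.EC.Cyclic.RecipCoreL
import Fermat.Agent.S56.W2.EC.Cyclic.RecipCoreR
import Fermat.Agent.S56.W2.EC.Cyclic.RecipCoreEq
import Fermat.Agent.S56.W2.EC.Cyclic.RecipK0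
import Fermat.Agent.S56.W2.EC.Cyclic.TorsObj
import Fermat.Agent.S56.W2.EC.Cyclic.AObj
import Fermat.Agent.S56.W2.EC.Cyclic.RecipPair

set_option autoImplicit false
set_option synthInstance.maxHeartbeats 400000
set_option linter.unusedSectionVars false

namespace Fermat.Agent.S56.EC

open Fermat.Agent.F4 Fermat.Agent.F4Cf ExtCitation

variable {p : ℕ} [Fact p.Prime] {S : Finset Nat.Primes} {hpS : pPrime p ∈ S}

/-- **(N4)** the `recip` field of `CycK0`. -/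
theorem CycSetup.recip_field (𝒮 : CycSetup p S) (Pk : ECPack p S hpS)
    (d : FinCMod p 𝒮.Γ → ℤ) (hd : IsAdditive d) :
    d 𝒮.ShaObj = d (dualObj 𝒮.ω (modObj (C := 𝒮.Γ) 𝒮.A (NeZero.ne p))) :=
  𝒮.recip_of_cyB (cyB Pk 𝒮.L 𝒮.hW) (cyB_left Pk 𝒮.L 𝒮.hW) (cyB_right Pk 𝒮.L 𝒮.hW)
    (fun u χ χ' t t' hχ ht => cyB_equiv Pk 𝒮.L 𝒮.hW (u : GQ) χ χ' t t' hχ ht) hd

end Fermat.Agent.S56.EC
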