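/-
S56, wall W2-EC, leaf (C) + (D) — owner: helper56 (sub-architect of the leaf; Shapiro part:
helper48, `EC/Sh/*.lean`; `S`-units with Galois action: helper54, `EC/Unit*.lean`).
Statement FIXED (helper58).  FINAL WIRING (helper54): `psiCoindZero_of_recip` (`Cyclic/Final.lean`:
Kummer (N1), torsion (N3), units (N6), glue (G1)–(G4)) + reciprocity (N4) `CycSetup.recip_field`
(`Cyclic/RecipObj.lean`).

Tate's formula `Ψ(coInd_U X) = 0` for `W ≤ U` open, `W` a level fixing `μ_p`, `p ∤ [U : W]`, `X` a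
finite `𝔽_p[U/W]`-module.  With `Δ = U/W`, `L = ℚ̄^W`, everything is an exact functor of `Δ`-modules:
  `h^i(U, X) = dim (H^i(W, 𝔽_p) ⊗ X)^Δ`,   `dim Hom_U(X, K_C) = dim Hom_Δ(X, HH⁰(W, K_C))`,
and the formula is the identity in `K₀(𝔽_p[Δ])`
  `[H¹(W, 𝔽_p)^*] - [𝔽_p] - [HH⁰(W, K_C)] = [μ_p ⊗ 𝔽_p[S_∞(L)]]`,
from Kummer theory `0 → E^W/p → H¹(W, μ_p) → H¹(W, E)[p] → 0`, the `S`-unit theorem
`[E^W/p] = [μ_p] + [𝔽_p[S_f(L) ⊔ S_∞(L)]] - [𝔽_p]`, `[HH⁰(W, K_C)] = [J^W[p]] - [μ_p] + [Ш¹_S(W, μ_p)]`,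
and `[Ш¹_S(W, 𝔽_p)^*] = [H¹(W, E)/p] = [H¹(W, E)[p]]` (reciprocity `α¹`, `H¹(W, C)[p] = 0`).
See helper1's note "W2 split + shapes" and helper58's notes.
-/
import Fermat.Agent.S56.W2.EC.Cyclic.Final
import Fermat.Agent.S56.W2.EC.Cyclic.RecipObj

set_option autoImplicit false

namespace Fermat.Agent.S56.EC

open Fermat.Agent.F4 ExtCitation

/-- **(C) + (D)** Tate's formula for modules coinduced from `U ⊇ W`, `p ∤ [U : W]`. -/
theorem psiCoindZero {p : ℕ} [Fact p.Prime] (hp2 : p ≠ 2) {S : Finset Nat.Primes}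
    {hpS : pPrime p ∈ S} (Pk : ECPack p S hpS) : PsiCoindZero S Pk.KC :=
  have _ := hp2
  psiCoindZero_of_recip Pk fun 𝒮 => 𝒮.recip_field Pk

end Fermat.Agent.S56.EC
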