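/-
S56, wall W2-EC, step (D), leaf CY-4 = G4 (helper95): the archimedean term, abstract form.

`G` a group with levels `𝓤`, `W ≤ U ≤ G`, `W` a level, `X` an `𝔽_p[U]`-module on which `W` acts
trivially, `c ∈ G` an involution, `ω : G → 𝔽_p^×` a character with `ω c = -1`, trivial on `W`,
`Ω = ⟨c⟩ \ G / W` (given by `π : G → Ω`), `q : U ↠ Γ` a quotient through which everything factors,
`Γ` acting on `Ω` by `q u • π g = π (g u⁻¹)`.  Then

  `{φ ∈ coInd_U X | c φ = -φ}  ≃  {x : Ω → X | x (u • y) = ω(u)⁻¹ u (x y)}  ≃  Hom_Γ(μ_p[Ω], X̄)`,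
  `φ ↦ (π h ↦ ω(h) φ(h⁻¹))`,   `x ↦ (g ↦ ω(g) x (π g⁻¹))`,   `x ↦ (f ↦ ∑ f(y) x(y))`,

hence `dim (coInd_U X)^{c = -1} = ⟨μ_p[Ω], X̄⟩` (`ArchSetup.finrank_negEig`).
-/
import Fermat.Agent.S56.W2.EC.Cyclic.K0.Defs
import Fermat.Agent.F4.Coind.Basic

set_option autoImplicit false

noncomputable section

namespace Fermat.Agent.S56.EC

open Fermat.Agent.F4

variable {p : ℕ} [Fact p.Prime] {G : Type} [Group G]

/-- `N^{c = -1}`: the `(-1)`-eigenspace of an element `c`. -/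
def negEig (c : G) (N : Rep.{0} (ZMod p) G) : Submodule (ZMod p) N where
  carrier := {n | N.ρ c n = -n}
  add_mem' := fun {a b} ha hb => by
    show N.ρ c (a + b) = -(a + b)
    rw [map_add, show N.ρ c a = -a from ha, show N.ρ c b = -b from hb, neg_add]
  zero_mem' := by
    show N.ρ c 0 = -0
    rw [map_zero, neg_zero]
  smul_mem' := fun r a ha => by
    show N.ρ c (r • a) = -(r • a)
    rw [map_smul, show N.ρ c a = -a from ha, smul_neg]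

lemma mem_negEig {c : G} {N : Rep.{0} (ZMod p) G} (n : N) :
    n ∈ negEig c N ↔ N.ρ c n = -n := Iff.rfl

/-- The data of the archimedean term. -/
structure ArchSetup (𝓤 : Levels G) (U W : Subgroup G) (c : G) (ω : G →* (ZMod p)ˣ)
    (X : Rep.{0} (ZMod p) ↥U) (Ω : Type) (Γ : Type) [Group Γ] where
  hW : W ∈ 𝓤.sets
  hWU : W ≤ U
  hX : ∀ u : ↥U, (u : G) ∈ W → ∀ x : X, X.ρ u x = x
  hc : c * c = 1
  hωc : ω c = -1
  hωW : ∀ w ∈ W, ω w = 1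
  π : G → Ω
  π_surj : Function.Surjective π
  π_eq : ∀ g g', π g = π g' ↔ g⁻¹ * g' ∈ W ∨ g⁻¹ * c * g' ∈ W
  q : ↥U →* Γ
  q_surj : Function.Surjective q
  ωb : Γ →* (ZMod p)ˣ
  ωb_q : ∀ u : ↥U, ωb (q u) = ω (u : G)
  act : Γ →* Equiv.Perm Ω
  act_π : ∀ (u : ↥U) (g : G), act (q u) (π g) = π (g * (u : G)⁻¹)

namespace ArchSetup

variable {𝓤 : Levels G} {U W : Subgroup G} {c : G} {ω : G →* (ZMod p)ˣ}
  {X : Rep.{0} (ZMod p) ↥U} {Ω : Type} {Γ : Type} [Group Γ]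

/-- The twisted equivariant families on `Ω`. -/
def fam (T : ArchSetup 𝓤 U W c ω X Ω Γ) : Set (Ω → X) :=
  {x | ∀ (u : ↥U) (y : Ω), x (T.act (T.q u) y) = ((ω (u : G))⁻¹ : (ZMod p)ˣ).1 • X.ρ u (x y)}

lemma normalW (T : ArchSetup 𝓤 U W c ω X Ω Γ) : W.Normal := 𝓤.normal W T.hW

lemma coe_ω_c (T : ArchSetup 𝓤 U W c ω X Ω Γ) : ((ω c : (ZMod p)ˣ) : ZMod p) = -1 := by
  rw [T.hωc, Units.val_neg, Units.val_one]

lemma c_inv (T : ArchSetup 𝓤 U W c ω X Ω Γ) : c⁻¹ = c := inv_eq_of_mul_eq_one_right T.hc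

/-- An element of the `(-1)`-eigenspace changes sign under right translation by `c`. -/
lemma negEig_apply (_T : ArchSetup 𝓤 U W c ω X Ω Γ) {φ : ↥(coIndSub U.subtype 𝓤 X)}
    (hφ : φ ∈ negEig c (coInd U.subtype 𝓤 X)) (g : G) :
    (φ : G → X) (g * c) = -(φ : G → X) g := by
  have h : (coInd U.subtype 𝓤 X).ρ c φ = -φ := hφ
  have h2 := congrArg (fun ψ : ↥(coIndSub U.subtype 𝓤 X) => (ψ : G → X) g) h
  exact h2

/-- A coinduced function is right invariant under `W`. -/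
lemma coInd_mul_W (T : ArchSetup 𝓤 U W c ω X Ω Γ) (φ : ↥(coIndSub U.subtype 𝓤 X)) (g : G)
    {w : G} (hw : w ∈ W) : (φ : G → X) (g * w) = (φ : G → X) g := by
  have hn := T.normalW
  have hmem : g * w * g⁻¹ ∈ W := hn.conj_mem w hw g
  have e : g * w = (U.subtype ⟨g * w * g⁻¹, T.hWU hmem⟩) * g := by
    show g * w = g * w * g⁻¹ * g
    group
  rw [e, coIndSub_equivariant φ ⟨g * w * g⁻¹, T.hWU hmem⟩ g]
  exact T.hX _ hmem _

/-- The value `ω(h) φ(h⁻¹)` depends only on `π h`. -/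
lemma negEig_wd (T : ArchSetup 𝓤 U W c ω X Ω Γ) {φ : ↥(coIndSub U.subtype 𝓤 X)}
    (hφ : φ ∈ negEig c (coInd U.subtype 𝓤 X)) {h h' : G} (hh : T.π h = T.π h') :
    ((ω h : (ZMod p)ˣ) : ZMod p) • (φ : G → X) h⁻¹ =
      ((ω h' : (ZMod p)ˣ) : ZMod p) • (φ : G → X) h'⁻¹ := by
  have hn := T.normalW
  rcases (T.π_eq h h').1 hh with hw | hw
  · -- `h' = h w`
    have e : h' = h * (h⁻¹ * h') := by group
    have hw' : (h⁻¹ * h')⁻¹ ∈ W := W.inv_mem hw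
    have e2 : h'⁻¹ = h⁻¹ * (h⁻¹⁻¹ * (h⁻¹ * h')⁻¹ * h⁻¹) := by group
    have hw'' : h⁻¹⁻¹ * (h⁻¹ * h')⁻¹ * h⁻¹ ∈ W := by
      have := hn.conj_mem _ hw' h
      simpa using this
    have hω : ω h' = ω h := by
      rw [e, map_mul, T.hωW _ hw, mul_one]
    rw [hω, e2, T.coInd_mul_W φ _ hw'']
  · -- `h' = c h w`
    set w := h⁻¹ * c * h' with hwdef
    have hcinv : c⁻¹ = c := T.c_inv
    have e : h' = c * h * w := by
      rw [hwdef]
      have : c * h * (h⁻¹ * c * h') = c * c * h' := by group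
      rw [this, T.hc, one_mul]
    have hω : ((ω h' : (ZMod p)ˣ) : ZMod p) = -((ω h : (ZMod p)ˣ) : ZMod p) := by
      rw [e, map_mul, map_mul, T.hωW _ hw, mul_one, Units.val_mul, T.coe_ω_c]
      ring
    have e2 : h'⁻¹ = h⁻¹ * c * ((h⁻¹ * c)⁻¹ * w⁻¹ * (h⁻¹ * c)) := by
      rw [e]
      have : (c * h * w)⁻¹ = w⁻¹ * h⁻¹ * c⁻¹ := by group
      rw [this, hcinv]
      group
    have hw'' : (h⁻¹ * c)⁻¹ * w⁻¹ * (h⁻¹ * c) ∈ W := by
      have := hn.conj_mem _ (W.inv_mem hw) (h⁻¹ * c)⁻¹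
      simpa using this
    rw [hω, e2, T.coInd_mul_W φ _ hw'', T.negEig_apply hφ, neg_smul, smul_neg, neg_neg]

/-! ### (I) the `(-1)`-eigenspace as twisted families on `Ω` -/

/-- The family attached to a coinduced function: `π h ↦ ω(h) φ(h⁻¹)`. -/
def toFamFun (T : ArchSetup 𝓤 U W c ω X Ω Γ) (φ : ↥(coIndSub U.subtype 𝓤 X)) (y : Ω) : X :=
  ((ω (Function.surjInv T.π_surj y) : (ZMod p)ˣ) : ZMod p) •
    (φ : G → X) (Function.surjInv T.π_surj y)⁻¹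

lemma toFamFun_π (T : ArchSetup 𝓤 U W c ω X Ω Γ) {φ : ↥(coIndSub U.subtype 𝓤 X)}
    (hφ : φ ∈ negEig c (coInd U.subtype 𝓤 X)) (h : G) :
    T.toFamFun φ (T.π h) = ((ω h : (ZMod p)ˣ) : ZMod p) • (φ : G → X) h⁻¹ :=
  T.negEig_wd hφ (Function.surjInv_eq T.π_surj (T.π h))

lemma toFamFun_mem (T : ArchSetup 𝓤 U W c ω X Ω Γ) {φ : ↥(coIndSub U.subtype 𝓤 X)}
    (hφ : φ ∈ negEig c (coInd U.subtype 𝓤 X)) : T.toFamFun φ ∈ T.fam := by
  intro u y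
  obtain ⟨h, rfl⟩ := T.π_surj y
  rw [T.act_π, T.toFamFun_π hφ, T.toFamFun_π hφ]
  have e : (h * (u : G)⁻¹)⁻¹ = U.subtype u * h⁻¹ := by
    show (h * (u : G)⁻¹)⁻¹ = (u : G) * h⁻¹
    group
  rw [e, coIndSub_equivariant φ u h⁻¹, map_mul, map_inv, map_smul, smul_smul, Units.val_mul,
    mul_comm]

/-- The coinduced function attached to a family: `g ↦ ω(g) x(π g⁻¹)`. -/
def ofFamFun (T : ArchSetup 𝓤 U W c ω X Ω Γ) (x : Ω → X) (g : G) : X :=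
  ((ω g : (ZMod p)ˣ) : ZMod p) • x (T.π g⁻¹)

lemma ofFamFun_mem (T : ArchSetup 𝓤 U W c ω X Ω Γ) {x : Ω → X} (hx : x ∈ T.fam) :
    T.ofFamFun x ∈ coIndSub U.subtype 𝓤 X := by
  have hn := T.normalW
  refine ⟨fun u g => ?_, W, T.hW, fun g w hw => ?_⟩
  · show ((ω (U.subtype u * g) : (ZMod p)ˣ) : ZMod p) • x (T.π (U.subtype u * g)⁻¹) =
      X.ρ u (((ω g : (ZMod p)ˣ) : ZMod p) • x (T.π g⁻¹))
    have e : (U.subtype u * g)⁻¹ = g⁻¹ * (u : G)⁻¹ := by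
      show ((u : G) * g)⁻¹ = g⁻¹ * (u : G)⁻¹
      group
    rw [e, ← T.act_π u g⁻¹, hx u, map_smul, smul_smul]
    congr 1
    show ((ω ((u : G) * g) : (ZMod p)ˣ) : ZMod p) * (((ω (u : G))⁻¹ : (ZMod p)ˣ) : ZMod p) = _
    rw [← Units.val_mul]
    congr 1
    rw [map_mul, mul_comm (ω (u : G)), mul_assoc, mul_inv_cancel, mul_one]
  · show ((ω (g * w) : (ZMod p)ˣ) : ZMod p) • x (T.π (g * w)⁻¹) =
      ((ω g : (ZMod p)ˣ) : ZMod p) • x (T.π g⁻¹)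
    have h1 : T.π (g * w)⁻¹ = T.π g⁻¹ := by
      refine (T.π_eq _ _).2 (Or.inl ?_)
      have := hn.conj_mem w hw g
      have e : ((g * w)⁻¹)⁻¹ * g⁻¹ = g * w * g⁻¹ := by group
      rw [e]
      exact this
    rw [h1, map_mul, T.hωW w hw, mul_one]

lemma ofFamFun_neg (T : ArchSetup 𝓤 U W c ω X Ω Γ) (x : Ω → X) (g : G) :
    T.ofFamFun x (g * c) = -T.ofFamFun x g := by
  show ((ω (g * c) : (ZMod p)ˣ) : ZMod p) • x (T.π (g * c)⁻¹) =
    -(((ω g : (ZMod p)ˣ) : ZMod p) • x (T.π g⁻¹))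
  have h1 : T.π (g * c)⁻¹ = T.π g⁻¹ := by
    refine (T.π_eq _ _).2 (Or.inr ?_)
    have e : ((g * c)⁻¹)⁻¹ * c * g⁻¹ = g * (c * c) * g⁻¹ := by group
    rw [e, T.hc, mul_one, mul_inv_cancel]
    exact W.one_mem
  rw [h1, map_mul, Units.val_mul, T.coe_ω_c, mul_neg, mul_one, neg_smul]

/-- **(I)** `(coInd_U X)^{c = -1} ≃ {twisted equivariant families on Ω}`. -/
def famEquiv (T : ArchSetup 𝓤 U W c ω X Ω Γ) :
    ↥(negEig c (coInd U.subtype 𝓤 X)) ≃ ↥T.fam where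
  toFun φ := ⟨T.toFamFun φ.1, T.toFamFun_mem φ.2⟩
  invFun x := ⟨⟨T.ofFamFun x.1, T.ofFamFun_mem x.2⟩, by
    rw [mem_negEig]
    refine Subtype.ext (funext fun g => ?_)
    exact T.ofFamFun_neg x.1 g⟩
  left_inv φ := by
    refine Subtype.ext (Subtype.ext (funext fun g => ?_))
    show ((ω g : (ZMod p)ˣ) : ZMod p) • T.toFamFun φ.1 (T.π g⁻¹) = (φ.1 : G → X) g
    rw [T.toFamFun_π φ.2, smul_smul, ← Units.val_mul, ← map_mul, mul_inv_cancel, map_one,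
      Units.val_one, one_smul, inv_inv]
  right_inv x := by
    refine Subtype.ext (funext fun y => ?_)
    obtain ⟨h, rfl⟩ := T.π_surj y
    have hmem : (⟨T.ofFamFun x.1, T.ofFamFun_mem x.2⟩ : ↥(coIndSub U.subtype 𝓤 X)) ∈
        negEig c (coInd U.subtype 𝓤 X) := by
      rw [mem_negEig]
      refine Subtype.ext (funext fun g => ?_)
      exact T.ofFamFun_neg x.1 g
    show T.toFamFun ⟨T.ofFamFun x.1, T.ofFamFun_mem x.2⟩ (T.π h) = x.1 (T.π h)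
    rw [T.toFamFun_π hmem]
    show ((ω h : (ZMod p)ˣ) : ZMod p) • (((ω h⁻¹ : (ZMod p)ˣ) : ZMod p) • x.1 (T.π h⁻¹⁻¹)) = _
    rw [smul_smul, ← Units.val_mul, ← map_mul, mul_inv_cancel, map_one, Units.val_one, one_smul,
      inv_inv]

/-! ### (II) twisted families as `Γ`-maps out of `μ_p[Ω]` -/

/-- `Ω → ZMod p` as the carrier of `μ_p[Ω]`. -/
def muOf (ωb : Γ →* (ZMod p)ˣ) (act : Γ →* Equiv.Perm Ω) : (Ω → ZMod p) →+ MuPermMod ωb act :=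
  AddMonoidHom.id _

/-- The carrier of `μ_p[Ω]` as `Ω → ZMod p`. -/
def muVal (ωb : Γ →* (ZMod p)ˣ) (act : Γ →* Equiv.Perm Ω) : MuPermMod ωb act →+ (Ω → ZMod p) :=
  AddMonoidHom.id _

@[simp] lemma muVal_muOf (ωb : Γ →* (ZMod p)ˣ) (act : Γ →* Equiv.Perm Ω) (f : Ω → ZMod p) :
    muVal ωb act (muOf ωb act f) = f := rfl

@[simp] lemma muOf_muVal (ωb : Γ →* (ZMod p)ˣ) (act : Γ →* Equiv.Perm Ω) (f : MuPermMod ωb act) :
    muOf ωb act (muVal ωb act f) = f := rfl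

lemma muVal_smul (ωb : Γ →* (ZMod p)ˣ) (act : Γ →* Equiv.Perm Ω) (γ : Γ) (f : MuPermMod ωb act)
    (z : Ω) : muVal ωb act (γ • f) z = (ωb γ : ZMod p) * muVal ωb act f ((act γ)⁻¹ z) := rfl

section Hom

variable [Fintype Ω]

/-- `f ↦ ∑ f(y) x(y)`. -/
def sumHom (x : Ω → X) : (Ω → ZMod p) →+ X where
  toFun f := ∑ y, f y • x y
  map_zero' := by simp
  map_add' f g := by simp [add_smul, Finset.sum_add_distrib]

lemma sumHom_apply (x : Ω → X) (f : Ω → ZMod p) :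
    sumHom (X := X) x f = ∑ y, f y • x y := rfl

/-- The additive map `μ_p[Ω] → X̄` of a family. -/
def famHom (T : ArchSetup 𝓤 U W c ω X Ω Γ) (Xb : FinCMod p Γ) (e : Xb.carrier ≃+ X)
    (x : Ω → X) : (muPermObj T.ωb T.act).carrier →+ Xb.carrier :=
  (e.symm.toAddMonoidHom.comp (sumHom x)).comp (muVal T.ωb T.act)

lemma famHom_apply (T : ArchSetup 𝓤 U W c ω X Ω Γ) (Xb : FinCMod p Γ) (e : Xb.carrier ≃+ X)
    (x : Ω → X) (f : (muPermObj T.ωb T.act).carrier) :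
    e (T.famHom Xb e x f) = ∑ y, muVal T.ωb T.act f y • x y := by
  show e (e.symm _) = _
  rw [e.apply_symm_apply]
  rfl

lemma famHom_mem (T : ArchSetup 𝓤 U W c ω X Ω Γ) (Xb : FinCMod p Γ) (e : Xb.carrier ≃+ X)
    (he : ∀ (u : ↥U) (a : Xb.carrier), e (T.q u • a) = X.ρ u (e a)) {x : Ω → X}
    (hx : x ∈ T.fam) : T.famHom Xb e x ∈ homC (muPermObj T.ωb T.act) Xb := by
  intro γ f
  obtain ⟨u, rfl⟩ := T.q_surj γ
  apply e.injective
  rw [he, T.famHom_apply, T.famHom_apply, map_sum, ← Equiv.sum_comp (T.act (T.q u))]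
  refine Finset.sum_congr rfl fun z _ => ?_
  have h1 : muVal T.ωb T.act (T.q u • f) (T.act (T.q u) z) =
      (T.ωb (T.q u) : ZMod p) * muVal T.ωb T.act f z := by
    have h2 := muVal_smul T.ωb T.act (T.q u) f (T.act (T.q u) z)
    rw [Equiv.Perm.inv_def, Equiv.symm_apply_apply] at h2
    exact h2
  rw [h1, hx u z, map_smul, smul_smul, T.ωb_q]
  congr 1
  rw [mul_comm, ← mul_assoc, ← Units.val_mul, inv_mul_cancel, Units.val_one, one_mul]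

variable [DecidableEq Ω]

/-- The family of an additive map: `y ↦ Φ(δ_y)`. -/
def homFam (T : ArchSetup 𝓤 U W c ω X Ω Γ) (Xb : FinCMod p Γ) (e : Xb.carrier ≃+ X)
    (Φ : (muPermObj T.ωb T.act).carrier →+ Xb.carrier) (y : Ω) : X :=
  e (Φ (muOf T.ωb T.act (Pi.single y 1)))

/-- `e ∘ Φ` as an additive map on `Ω → ZMod p`. -/
def homPsi (T : ArchSetup 𝓤 U W c ω X Ω Γ) (Xb : FinCMod p Γ) (e : Xb.carrier ≃+ X)
    (Φ : (muPermObj T.ωb T.act).carrier →+ Xb.carrier) : (Ω → ZMod p) →+ X :=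
  (e.toAddMonoidHom.comp Φ).comp (muOf T.ωb T.act)

lemma homPsi_apply (T : ArchSetup 𝓤 U W c ω X Ω Γ) (Xb : FinCMod p Γ) (e : Xb.carrier ≃+ X)
    (Φ : (muPermObj T.ωb T.act).carrier →+ Xb.carrier) (f : Ω → ZMod p) :
    T.homPsi Xb e Φ f = e (Φ (muOf T.ωb T.act f)) := rfl

lemma homPsi_smul (T : ArchSetup 𝓤 U W c ω X Ω Γ) (Xb : FinCMod p Γ) (e : Xb.carrier ≃+ X)
    (Φ : (muPermObj T.ωb T.act).carrier →+ Xb.carrier) (a : ZMod p) (f : Ω → ZMod p) :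
    T.homPsi Xb e Φ (a • f) = a • T.homPsi Xb e Φ f :=
  ZMod.map_smul (T.homPsi Xb e Φ) a f

omit [Fintype Ω] in
lemma smul_delta (ωb : Γ →* (ZMod p)ˣ) (act : Γ →* Equiv.Perm Ω) (γ : Γ) (y : Ω) :
    (γ • muOf ωb act (Pi.single y 1) : MuPermMod ωb act) =
      muOf ωb act ((ωb γ : ZMod p) • Pi.single (act γ y) 1) := by
  funext z
  show (ωb γ : ZMod p) * (Pi.single y (1 : ZMod p) : Ω → ZMod p) ((act γ)⁻¹ z) =
    (ωb γ : ZMod p) * (Pi.single (act γ y) (1 : ZMod p) : Ω → ZMod p) z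
  rw [Pi.single_apply, Pi.single_apply]
  have : ((act γ)⁻¹ z = y) ↔ (z = act γ y) := by
    rw [Equiv.Perm.inv_def, Equiv.symm_apply_eq]
  simp only [this]

lemma homFam_mem (T : ArchSetup 𝓤 U W c ω X Ω Γ) (Xb : FinCMod p Γ) (e : Xb.carrier ≃+ X)
    (he : ∀ (u : ↥U) (a : Xb.carrier), e (T.q u • a) = X.ρ u (e a))
    {Φ : (muPermObj T.ωb T.act).carrier →+ Xb.carrier}
    (hΦ : Φ ∈ homC (muPermObj T.ωb T.act) Xb) : T.homFam Xb e Φ ∈ T.fam := by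
  intro u y
  have h1 := smul_delta T.ωb T.act (T.q u) y
  have h2 : e (Φ (T.q u • muOf T.ωb T.act (Pi.single y 1))) =
      e (Φ (muOf T.ωb T.act ((T.ωb (T.q u) : ZMod p) • Pi.single (T.act (T.q u) y) 1))) :=
    congrArg (fun t => e (Φ t)) h1
  have h3 : X.ρ u (e (Φ (muOf T.ωb T.act (Pi.single y 1)))) =
      T.homPsi Xb e Φ ((T.ωb (T.q u) : ZMod p) • Pi.single (T.act (T.q u) y) 1) := by
    rw [← he, ← hΦ (T.q u)]
    exact h2
  show T.homPsi Xb e Φ (Pi.single (T.act (T.q u) y) 1) =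
    ((ω (u : G))⁻¹ : (ZMod p)ˣ).1 • X.ρ u (e (Φ (muOf T.ωb T.act (Pi.single y 1))))
  rw [h3, T.homPsi_smul, smul_smul, T.ωb_q, ← Units.val_mul, inv_mul_cancel, Units.val_one,
    one_smul]

lemma homFam_famHom (T : ArchSetup 𝓤 U W c ω X Ω Γ) (Xb : FinCMod p Γ) (e : Xb.carrier ≃+ X)
    (x : Ω → X) : T.homFam Xb e (T.famHom Xb e x) = x := by
  funext y
  show e (T.famHom Xb e x (muOf T.ωb T.act (Pi.single y 1))) = x y
  rw [T.famHom_apply, muVal_muOf]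
  simp [Pi.single_apply, ite_smul]

lemma sum_smul_single (f : Ω → ZMod p) :
    ∑ y, f y • (Pi.single y (1 : ZMod p) : Ω → ZMod p) = f := by
  funext z
  rw [Finset.sum_apply]
  simp [Pi.single_apply]

lemma famHom_homFam (T : ArchSetup 𝓤 U W c ω X Ω Γ) (Xb : FinCMod p Γ) (e : Xb.carrier ≃+ X)
    (Φ : (muPermObj T.ωb T.act).carrier →+ Xb.carrier) :
    T.famHom Xb e (T.homFam Xb e Φ) = Φ := by
  refine AddMonoidHom.ext fun f => ?_
  apply e.injective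
  rw [T.famHom_apply]
  have h1 : ∀ y, muVal T.ωb T.act f y • T.homFam Xb e Φ y =
      T.homPsi Xb e Φ (muVal T.ωb T.act f y • Pi.single y 1) := by
    intro y
    rw [T.homPsi_smul]
    rfl
  rw [Finset.sum_congr rfl (fun y _ => h1 y), ← map_sum, sum_smul_single, T.homPsi_apply,
    muOf_muVal]

/-- **(II)** `{twisted equivariant families on Ω} ≃ Hom_Γ(μ_p[Ω], X̄)`. -/
def homEquiv (T : ArchSetup 𝓤 U W c ω X Ω Γ) (Xb : FinCMod p Γ) (e : Xb.carrier ≃+ X)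
    (he : ∀ (u : ↥U) (a : Xb.carrier), e (T.q u • a) = X.ρ u (e a)) :
    ↥T.fam ≃ ↥(homC (muPermObj T.ωb T.act) Xb) where
  toFun x := ⟨T.famHom Xb e x.1, T.famHom_mem Xb e he x.2⟩
  invFun Φ := ⟨T.homFam Xb e Φ.1, T.homFam_mem Xb e he Φ.2⟩
  left_inv x := Subtype.ext (T.homFam_famHom Xb e x.1)
  right_inv Φ := Subtype.ext (T.famHom_homFam Xb e Φ.1)

end Hom

/-! ### (III) the dimension -/

/-- **G4, abstract form**: `dim (coInd_U X)^{c = -1} = ⟨μ_p[Ω], X̄⟩`, `Ω = ⟨c⟩ \ G / W`. -/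
theorem finrank_negEig [Finite Ω] (T : ArchSetup 𝓤 U W c ω X Ω Γ) (Xb : FinCMod p Γ)
    (e : Xb.carrier ≃+ X) (he : ∀ (u : ↥U) (a : Xb.carrier), e (T.q u • a) = X.ρ u (e a)) :
    (Module.finrank (ZMod p) ↥(negEig c (coInd U.subtype 𝓤 X)) : ℤ) =
      pairC (muPermObj T.ωb T.act) Xb := by
  classical
  let _ : Fintype Ω := Fintype.ofFinite Ω
  have E : ↥(negEig c (coInd U.subtype 𝓤 X)) ≃ ↥(homC (muPermObj T.ωb T.act) Xb) :=
    T.famEquiv.trans (T.homEquiv Xb e he)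
  have : Finite ↥(negEig c (coInd U.subtype 𝓤 X)) := Finite.of_equiv _ E.symm
  have : Module.Finite (ZMod p) ↥(negEig c (coInd U.subtype 𝓤 X)) := Module.Finite.of_finite
  have h := Module.natCard_eq_pow_finrank (K := ZMod p)
    (V := ↥(negEig c (coInd U.subtype 𝓤 X)))
  rw [Nat.card_zmod] at h
  unfold pairC
  rw [← Nat.card_congr E, h, Nat.log_pow (Fact.out : p.Prime).one_lt]

end ArchSetup

end Fermat.Agent.S56.EC
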