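/-
S56, wall W2-EC, step (D), leaf D-f / G4 (helper95), part 2: `ω(c) = -1` for the mod `p`
cyclotomic character `ω = cycloChar p` and `c = complexConjugation`.
-/
import Fermat.Agent.F4.Datum
import Fermat.Agent.Lib.Cyclo.ModCharGlobal

set_option autoImplicit false

namespace Fermat.Agent.S56.EC

open Fermat.Agent.F4 ExtCitation

variable (p : ℕ) [Fact p.Prime]

/-- **Complex conjugation**: `ω(c) = -1`. -/
theorem cycloChar_complexConjugation : cycloChar p complexConjugation = -1 := by
  have hp : p.Prime := Fact.out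
  haveI : NeZero p := ⟨hp.ne_zero⟩
  apply Units.ext
  rw [Units.val_neg, Units.val_one]
  symm
  apply modularCyclotomicCharacter.unique (AlgebraicClosure ℚ) (card_rootsOfUnity_eq_self p)
    ((complexConjugation : AlgebraicClosure ℚ ≃ₐ[ℚ] AlgebraicClosure ℚ) :
      AlgebraicClosure ℚ ≃+* AlgebraicClosure ℚ)
  intro t ht
  have ht' : (t : AlgebraicClosure ℚ) ^ p = 1 := by
    have := (mem_rootsOfUnity p t).mp ht
    rw [← Units.val_pow_eq_pow_val, this, Units.val_one]
  show complexConjugation (t : AlgebraicClosure ℚ) = _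
  rw [Fermat.Agent.Cyclo.complexConjugation_root p ht']
  obtain ⟨m, hm⟩ := Nat.exists_eq_succ_of_ne_zero hp.ne_zero
  have hv : (-1 : ZMod p).val = m := by
    subst hm
    exact ZMod.val_neg_one m
  rw [hv]
  have ht'' : (t : AlgebraicClosure ℚ) ^ m * t = 1 := by
    rw [← pow_succ, ← Nat.succ_eq_add_one, ← hm]
    exact ht'
  exact inv_eq_of_mul_eq_one_left ht''

/-- `ω(c) = -1` in `ZMod p`. -/
theorem coe_cycloChar_complexConjugation :
    ((cycloChar p complexConjugation : (ZMod p)ˣ) : ZMod p) = -1 := by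
  rw [cycloChar_complexConjugation, Units.val_neg, Units.val_one]

end Fermat.Agent.S56.EC
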