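/-
S56, wall W2-EC, step (D), leaf D-f (helper95), part 1: the infinite places of a number field
`F ⊂ ℚ̄` in terms of `G_ℚ`.

* `cxEmbAt F g = ι₀ ∘ g|_F` (`ι₀ = complexEmbedding`), `infPlaceAt F g` its infinite place;
* every complex embedding / infinite place of `F` is of this form (`cxEmbAt_surjective`,
  `infPlaceAt_surjective`);
* `cxEmbAt F g = cxEmbAt F g' ↔ g⁻¹ g' ∈ F.fixingSubgroup`;
  `infPlaceAt F g = infPlaceAt F g' ↔ g⁻¹ g' ∈ Fix(F) ∨ g⁻¹ c g' ∈ Fix(F)`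
  (`c = complexConjugation`): `S_∞(F) = ⟨c⟩ \ G_ℚ / Fix(F)`;
* for `F/ℚ` normal: `u|_F • infPlaceAt F g = infPlaceAt F (g u⁻¹)`.
-/
import Fermat.Agent.F4.Datum

set_option autoImplicit false

open NumberField

namespace Fermat.Agent.S56.EC

open Fermat.Agent.F4

variable (F : IntermediateField ℚ (AlgebraicClosure ℚ))

/-- The complex embedding `ι₀ ∘ g|_F` of `F`. -/
noncomputable def cxEmbAt (g : GQ) : F →+* ℂ :=
  (complexEmbedding : AlgebraicClosure ℚ →+* ℂ).comp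
    (((g : AlgebraicClosure ℚ →ₐ[ℚ] AlgebraicClosure ℚ) : AlgebraicClosure ℚ →+*
      AlgebraicClosure ℚ).comp (algebraMap F (AlgebraicClosure ℚ)))

lemma cxEmbAt_apply (g : GQ) (x : F) :
    cxEmbAt F g x = complexEmbedding (g (x : AlgebraicClosure ℚ)) := rfl

/-- The infinite place of `F` attached to `g ∈ G_ℚ`. -/
noncomputable def infPlaceAt [NumberField F] (g : GQ) : InfinitePlace F :=
  InfinitePlace.mk (cxEmbAt F g)

/-- Two elements of `G_ℚ` give the same embedding of `F` iff they agree on `F`. -/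
theorem cxEmbAt_eq_iff (g g' : GQ) :
    cxEmbAt F g = cxEmbAt F g' ↔ g⁻¹ * g' ∈ F.fixingSubgroup := by
  rw [IntermediateField.mem_fixingSubgroup_iff]
  constructor
  · intro h x hx
    have h1 := congrArg (fun φ : F →+* ℂ => φ ⟨x, hx⟩) h
    simp only [cxEmbAt_apply] at h1
    have h2 : g x = g' x := complexEmbedding.toRingHom.injective h1
    show g⁻¹ (g' x) = x
    rw [← h2]
    exact g.symm_apply_apply x
  · intro h
    ext x
    rw [cxEmbAt_apply, cxEmbAt_apply]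
    congr 1
    have h1 : g⁻¹ (g' (x : AlgebraicClosure ℚ)) = x := h x x.2
    have h2 : g (g⁻¹ (g' (x : AlgebraicClosure ℚ))) = g' (x : AlgebraicClosure ℚ) :=
      g.apply_symm_apply _
    rw [← h2, h1]

/-- The conjugate of `ι₀ ∘ g` is `ι₀ ∘ c g`. -/
theorem conjugate_cxEmbAt (g : GQ) :
    ComplexEmbedding.conjugate (cxEmbAt F g) = cxEmbAt F (complexConjugation * g) := by
  ext x
  rw [ComplexEmbedding.conjugate_coe_eq, cxEmbAt_apply, cxEmbAt_apply]
  exact (complexEmbedding_complexConjugation _).symm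

section Surj

/-- Every embedding of `ℚ̄` into `ℂ` is `ι₀ ∘ g` for some `g ∈ G_ℚ`. -/
theorem ip_exists_of_algHom (ψ : AlgebraicClosure ℚ →ₐ[ℚ] ℂ) :
    ∃ g : GQ, ∀ x : AlgebraicClosure ℚ, complexEmbedding (g x) = ψ x := by
  letI : Algebra (AlgebraicClosure ℚ) ℂ := complexEmbedding.toRingHom.toAlgebra
  have : IsScalarTower ℚ (AlgebraicClosure ℚ) ℂ :=
    IsScalarTower.of_algebraMap_eq' (Subsingleton.elim _ _)
  have : Algebra.IsAlgebraic ℚ (AlgebraicClosure ℚ) := AlgebraicClosure.isAlgebraic ℚ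
  have : IsAlgClosure ℚ (AlgebraicClosure ℚ) := ⟨inferInstance, inferInstance⟩
  have : Normal ℚ (AlgebraicClosure ℚ) := IsAlgClosure.normal ℚ (AlgebraicClosure ℚ)
  let e := Normal.algHomEquivAut ℚ ℂ (AlgebraicClosure ℚ)
  refine ⟨e ψ, fun x => ?_⟩
  have h := e.left_inv ψ
  have h1 := congrArg (fun f : AlgebraicClosure ℚ →ₐ[ℚ] ℂ => f x) h
  exact h1

variable [NumberField F]

/-- Every complex embedding of `F` is `ι₀ ∘ g|_F` for some `g ∈ G_ℚ`. -/
theorem cxEmbAt_surjective (φ : F →+* ℂ) : ∃ g : GQ, cxEmbAt F g = φ := by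
  letI : Algebra F ℂ := φ.toAlgebra
  have : Algebra.IsAlgebraic ℚ (AlgebraicClosure ℚ) := AlgebraicClosure.isAlgebraic ℚ
  have : Algebra.IsAlgebraic F (AlgebraicClosure ℚ) :=
    Algebra.IsAlgebraic.tower_top (K := ℚ) F
  let ψ₀ : AlgebraicClosure ℚ →ₐ[F] ℂ := IsAlgClosed.lift
  obtain ⟨g, hg⟩ := ip_exists_of_algHom (ψ₀ : AlgebraicClosure ℚ →+* ℂ).toRatAlgHom
  refine ⟨g, ?_⟩
  ext x
  rw [cxEmbAt_apply, hg]
  exact ψ₀.commutes x

/-- Every infinite place of `F` is `infPlaceAt F g` for some `g ∈ G_ℚ`. -/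
theorem infPlaceAt_surjective (w : InfinitePlace F) : ∃ g : GQ, infPlaceAt F g = w := by
  obtain ⟨g, hg⟩ := cxEmbAt_surjective F w.embedding
  refine ⟨g, ?_⟩
  unfold infPlaceAt
  rw [hg, InfinitePlace.mk_embedding]

/-- `S_∞(F) = ⟨c⟩ \ G_ℚ / Fix(F)`. -/
theorem infPlaceAt_eq_iff (g g' : GQ) :
    infPlaceAt F g = infPlaceAt F g' ↔
      g⁻¹ * g' ∈ F.fixingSubgroup ∨ g⁻¹ * complexConjugation * g' ∈ F.fixingSubgroup := by
  unfold infPlaceAt
  rw [InfinitePlace.mk_eq_iff, conjugate_cxEmbAt, cxEmbAt_eq_iff, cxEmbAt_eq_iff]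
  have hc : (complexConjugation : GQ)⁻¹ = complexConjugation :=
    inv_eq_of_mul_eq_one_right complexConjugation_mul_self
  rw [mul_inv_rev, hc]

/-- The action of `G_ℚ` on the infinite places of a normal `F`: `u|_F • w_g = w_{g u⁻¹}`. -/
theorem smul_infPlaceAt [Normal ℚ F] (u g : GQ) :
    (AlgEquiv.restrictNormalHom F u) • infPlaceAt F g = infPlaceAt F (g * u⁻¹) := by
  unfold infPlaceAt
  rw [InfinitePlace.smul_mk]
  congr 1
  ext x
  rw [RingHom.comp_apply, cxEmbAt_apply, cxEmbAt_apply]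
  congr 1
  have h1 : ((AlgEquiv.restrictNormalHom F u).symm x : F) =
      AlgEquiv.restrictNormalHom F u⁻¹ x := by
    rw [map_inv]
    rfl
  have h2 : (((AlgEquiv.restrictNormalHom F u).symm : F →+* F) x : AlgebraicClosure ℚ) =
      u⁻¹ (x : AlgebraicClosure ℚ) := by
    show (((AlgEquiv.restrictNormalHom F u).symm x : F) : AlgebraicClosure ℚ) = _
    rw [h1]
    exact AlgEquiv.restrictNormal_commutes u⁻¹ F x
  rw [h2]
  rfl

end Surj

end Fermat.Agent.S56.EC
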