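/-
S56, wall W2-EC, step (D), leaf CY-4 = G4 (helper95): the archimedean term for `G_ℚ`.

`W ≤ U ≤ G_ℚ`, `W` a level of `G_S` fixing `μ_p`, `F` a number field with `Fix(F) = W`
(`F = L.field`, `L : OpenS S`, `L.U = W`), `X` an `𝔽_p[U]`-module on which `W` acts trivially,
`q : U ↠ Γ` (`Γ = U ⧸ W`), `ω̄ ∘ q = ω|_U`, `Γ` acting on `S_∞(F)` through `u ↦ u|_F`,
`X̄` the module `X` over `Γ`.  Then

  `dim (coInd_U X)^{c = -1} = ⟨μ_p[S_∞(F)], X̄⟩ = log_p #Hom_Γ(μ_p[S_∞(F)], X̄)`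

(`finrank_negArch_coInd`, `OpenS.finrank_negArch_coInd`).
-/
import Fermat.Agent.S56.W2.EC.Cyclic.Arch
import Fermat.Agent.S56.W2.EC.Cyclic.ArchChar
import Fermat.Agent.S56.W2.EC.Cyclic.InfPlace
import Fermat.Agent.S56.W2.EC.Defs
import Fermat.Agent.F4.Dict.Level

set_option autoImplicit false

noncomputable section

open NumberField

namespace Fermat.Agent.S56.EC

open Fermat.Agent.F4 ExtCitation

variable {p : ℕ} [Fact p.Prime]

lemma negArch_eq_negEig (N : Rep.{0} (ZMod p) GQ) :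
    negArch N = negEig complexConjugation N := rfl

/-- The archimedean setup for `G_ℚ`, `c` = complex conjugation, `ω` = the mod `p` cyclotomic
character, `Ω = S_∞(F)`. -/
def archSetupQ {S : Finset Nat.Primes} {U W : Subgroup GQ} (hW : W ∈ (levelsS S).sets)
    (hWU : W ≤ U) (hWω : W ≤ MonoidHom.ker (cycloChar p)) {X : Rep.{0} (ZMod p) ↥U}
    (hX : ∀ u : ↥U, (u : GQ) ∈ W → ∀ x : X, X.ρ u x = x)
    (F : IntermediateField ℚ (AlgebraicClosure ℚ)) [NumberField F] [Normal ℚ F]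
    (hF : F.fixingSubgroup = W) {Γ : Type} [Group Γ] (q : ↥U →* Γ)
    (hq : Function.Surjective q) (ωb : Γ →* (ZMod p)ˣ)
    (hωb : ∀ u : ↥U, ωb (q u) = cycloChar p (u : GQ))
    (act : Γ →* Equiv.Perm (InfinitePlace F))
    (hact : ∀ (u : ↥U) (v : InfinitePlace F),
      act (q u) v = (AlgEquiv.restrictNormalHom F (u : GQ)) • v) :
    ArchSetup (levelsS S) U W complexConjugation (cycloChar p) X (InfinitePlace F) Γ where
  hW := hW
  hWU := hWU
  hX := hX
  hc := complexConjugation_mul_self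
  hωc := cycloChar_complexConjugation p
  hωW := fun w hw => MonoidHom.mem_ker.1 (hWω hw)
  π := infPlaceAt F
  π_surj := infPlaceAt_surjective F
  π_eq := fun g g' => by
    rw [← hF]
    exact infPlaceAt_eq_iff F g g'
  q := q
  q_surj := hq
  ωb := ωb
  ωb_q := hωb
  act := act
  act_π := fun u g => by
    rw [hact]
    exact smul_infPlaceAt F (u : GQ) g

/-- **G4** (`F` a number field with `Fix(F) = W`):
`dim (coInd_U X)^{c = -1} = ⟨μ_p[S_∞(F)], X̄⟩`. -/
theorem finrank_negArch_coInd {S : Finset Nat.Primes} {U W : Subgroup GQ}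
    (hW : W ∈ (levelsS S).sets) (hWU : W ≤ U) (hWω : W ≤ MonoidHom.ker (cycloChar p))
    {X : Rep.{0} (ZMod p) ↥U} (hX : ∀ u : ↥U, (u : GQ) ∈ W → ∀ x : X, X.ρ u x = x)
    (F : IntermediateField ℚ (AlgebraicClosure ℚ)) [NumberField F] [Normal ℚ F]
    (hF : F.fixingSubgroup = W) {Γ : Type} [Group Γ] (q : ↥U →* Γ)
    (hq : Function.Surjective q) (ωb : Γ →* (ZMod p)ˣ)
    (hωb : ∀ u : ↥U, ωb (q u) = cycloChar p (u : GQ))
    (act : Γ →* Equiv.Perm (InfinitePlace F))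
    (hact : ∀ (u : ↥U) (v : InfinitePlace F),
      act (q u) v = (AlgEquiv.restrictNormalHom F (u : GQ)) • v)
    (Xb : FinCMod p Γ) (e : Xb.carrier ≃+ X)
    (he : ∀ (u : ↥U) (a : Xb.carrier), e (q u • a) = X.ρ u (e a)) :
    (Module.finrank (ZMod p) ↥(negArch (coInd U.subtype (levelsS S) X)) : ℤ) =
      pairC (muPermObj ωb act) Xb :=
  (archSetupQ hW hWU hWω hX F hF q hq ωb hωb act hact).finrank_negEig Xb e he

/-- The fixed field of a level is normal over `ℚ`. -/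
lemma OpenS.normal_field {S : Finset Nat.Primes} (L : OpenS S) (hL : L.U ∈ (levelsS S).sets) :
    Normal ℚ L.field := by
  haveI := isGalois_Qbar
  haveI : L.U.Normal := (levelsS S).normal L.U hL
  exact (IsGalois.of_fixedField_normal_subgroup L.U).to_normal

/-- **G4** (`F = L.field`, `L.U = W` a level). -/
theorem OpenS.finrank_negArch_coInd {S : Finset Nat.Primes} (L : OpenS S) {U : Subgroup GQ}
    (hW : L.U ∈ (levelsS S).sets) (hWU : L.U ≤ U) (hWω : L.U ≤ MonoidHom.ker (cycloChar p))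
    {X : Rep.{0} (ZMod p) ↥U} (hX : ∀ u : ↥U, (u : GQ) ∈ L.U → ∀ x : X, X.ρ u x = x)
    [Normal ℚ L.field] {Γ : Type} [Group Γ] (q : ↥U →* Γ)
    (hq : Function.Surjective q) (ωb : Γ →* (ZMod p)ˣ)
    (hωb : ∀ u : ↥U, ωb (q u) = cycloChar p (u : GQ))
    (act : Γ →* Equiv.Perm (InfinitePlace L.field))
    (hact : ∀ (u : ↥U) (v : InfinitePlace L.field),
      act (q u) v = (AlgEquiv.restrictNormalHom L.field (u : GQ)) • v)
    (Xb : FinCMod p Γ) (e : Xb.carrier ≃+ X)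
    (he : ∀ (u : ↥U) (a : Xb.carrier), e (q u • a) = X.ρ u (e a)) :
    (Module.finrank (ZMod p) ↥(negArch (coInd U.subtype (levelsS S) X)) : ℤ) =
      pairC (muPermObj ωb act) Xb :=
  Fermat.Agent.S56.EC.finrank_negArch_coInd hW hWU hWω hX L.field L.fixingSubgroup_field q hq ωb
    hωb act hact Xb e he

end Fermat.Agent.S56.EC
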