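/-
S56, wall W2-EC, step (D), glue (G4) (helper95): the archimedean term in the setting `CycSetup`.

  `dim (coInd_U X)^{c = -1} = ⟨μ_p[S_∞(L)], X̄⟩`     (`CycSetup.finrank_negArch`).
-/
import Fermat.Agent.S56.W2.EC.Cyclic.ArchQ
import Fermat.Agent.S56.W2.EC.Cyclic.Setup

set_option autoImplicit false

noncomputable section

open NumberField

namespace Fermat.Agent.S56.EC

open Fermat.Agent.F4 ExtCitation

namespace CycSetup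

variable {p : ℕ} [Fact p.Prime] {S : Finset Nat.Primes} (𝒮 : CycSetup p S)

/-- `X̄ ≃ X`. -/
def objEquiv (X : Rep.{0} (ZMod p) ↥𝒮.U) (hfin : Module.Finite (ZMod p) X)
    (htriv : ∀ (u : ↥𝒮.U), (u : GQ) ∈ 𝒮.W → ∀ x : X, X.ρ u x = x) :
    (𝒮.obj X hfin htriv).carrier ≃+ X :=
  { 𝒮.objVal X hfin htriv with
    invFun := 𝒮.objOf X hfin htriv
    left_inv := fun x => 𝒮.objOf_objVal X hfin htriv x
    right_inv := fun x => 𝒮.objVal_objOf X hfin htriv x }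

lemma objEquiv_apply (X : Rep.{0} (ZMod p) ↥𝒮.U) (hfin : Module.Finite (ZMod p) X)
    (htriv : ∀ (u : ↥𝒮.U), (u : GQ) ∈ 𝒮.W → ∀ x : X, X.ρ u x = x)
    (x : (𝒮.obj X hfin htriv).carrier) :
    𝒮.objEquiv X hfin htriv x = 𝒮.objVal X hfin htriv x := rfl

/-- **(G4)** `dim (coInd_U X)^{c = -1} = ⟨μ_p[S_∞(L)], X̄⟩`. -/
theorem finrank_negArch (X : Rep.{0} (ZMod p) ↥𝒮.U) (hfin : Module.Finite (ZMod p) X)
    (htriv : ∀ (u : ↥𝒮.U), (u : GQ) ∈ 𝒮.W → ∀ x : X, X.ρ u x = x) :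
    (Module.finrank (ZMod p) ↥(negArch (coInd 𝒮.U.subtype (levelsS S) X)) : ℤ) =
      pairC (muPermObj 𝒮.ω 𝒮.acti) (𝒮.obj X hfin htriv) :=
  OpenS.finrank_negArch_coInd 𝒮.L 𝒮.hW 𝒮.hWU 𝒮.hω htriv 𝒮.proj 𝒮.proj_surjective 𝒮.ω
    𝒮.ω_proj 𝒮.acti (fun _ _ => rfl) (𝒮.obj X hfin htriv) (𝒮.objEquiv X hfin htriv)
    (fun u a => 𝒮.objVal_smul X hfin htriv u a)

end CycSetup

end Fermat.Agent.S56.EC
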