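import Fermat.Agent.F4.Dict.ExistKummer
import Fermat.Agent.F4.Dict.H90
import Fermat.Agent.F4.Dict.DivFin

/-!
# S56 / W2 / EC / Cyclic / KummerR : Kummer theory at a level of `G_S`, radical form
(seat (D-b) = P2 of the cyclic case of Tate's Euler characteristic; helper86)

`L : OpenS S` (`W = L.U` open in `G_S`, `F = L.field = ℚ̄^W`), `M = QSx S = (ℚ_S)ˣ` written
additively, `E = sUnitsAdd S ⊂ M` the `S`-units.

* `L.Fx` : the image of `Fˣ` in `M`; `mem_Fx_iff` : `t ∈ Fx ↔ t` is fixed by `W`;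
* `L.RW p = {t ∈ M | p • t ∈ Fx}` : the `p`-th roots of the elements of `Fˣ`
  (`Fx ≤ RW`, `RW ≤ TU`, `p • RW ≤ Fx`);
* `kum t g = g t - t` : the Kummer symbol of `t`;
  `kum_p_smul` (values in `M[p] = μ_p` for `t ∈ RW`, `g ∈ W`), `kum_mul` (a homomorphism on `W`
  when `W` fixes `μ_p`), `kum_add`, `kum_eq_zero_iff` (kernel `Fx`), `kum_smooth`,
  `kum_conj` (equivariance), `exists_kum_eq` (**surjectivity**: every smooth 1-cocycle of `W`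
  with values in `M[p]` is the symbol of some `t ∈ RW`; Hilbert 90 for `(ℚ_S)ˣ`).
-/

set_option autoImplicit false
set_option linter.unusedSectionVars false

open CategoryTheory groupCohomology ExtCitation
open NumberField IsDedekindDomain
open scoped Pointwise

namespace Fermat.Agent.F4

namespace OpenS

variable {S : Finset Nat.Primes} (L : OpenS S)

/-- The image of `Fˣ` in `(ℚ_S)ˣ`. -/
noncomputable def Fx : AddSubgroup (QSx S) where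
  carrier := Set.range L.toQS
  zero_mem' := ⟨1, L.toQS_one⟩
  add_mem' := by
    rintro _ _ ⟨a, rfl⟩ ⟨b, rfl⟩
    exact ⟨a * b, L.toQS_mul a b⟩
  neg_mem' := by
    rintro _ ⟨a, rfl⟩
    exact ⟨a⁻¹, L.toQS_inv a⟩

lemma toQS_mem_Fx (a : (L.field)ˣ) : L.toQS a ∈ L.Fx := ⟨a, rfl⟩

/-- `Fx` is the group of `W`-invariants of `(ℚ_S)ˣ`. -/
lemma mem_Fx_iff (t : QSx S) : t ∈ L.Fx ↔ ∀ g ∈ L.U, (QSx S).ρ g t = t := by
  constructor
  · rintro ⟨a, rfl⟩ g hg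
    exact L.toQS_fixed a g hg
  · intro h
    exact L.exists_toQS_of_fixed t h

/-- `Fx` is stable under the normaliser of `W`. -/
lemma Fx_stable (u : GQ) (hu : u ∈ Subgroup.normalizer (L.U : Set GQ)) (t : QSx S)
    (ht : t ∈ L.Fx) : (QSx S).ρ u t ∈ L.Fx := by
  rw [mem_Fx_iff] at ht ⊢
  intro g hg
  have h1 : u⁻¹ * g * u ∈ L.U := by
    rw [Subgroup.mem_normalizer_iff] at hu
    rw [hu]
    have e : u * (u⁻¹ * g * u) * u⁻¹ = g := by group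
    rw [e]
    exact hg
  have h2 := ht _ h1
  have h3 : (QSx S).ρ g ((QSx S).ρ u t) = (QSx S).ρ u ((QSx S).ρ (u⁻¹ * g * u) t) := by
    rw [← Module.End.mul_apply, ← Module.End.mul_apply, ← map_mul, ← map_mul]
    congr 2
    group
  rw [h3, h2]

/-- `R_W`: the elements of `(ℚ_S)ˣ` whose `p`-th power lies in `Fˣ`. -/
noncomputable def RW (p : ℕ) : AddSubgroup (QSx S) where
  carrier := {t | p • t ∈ L.Fx}
  zero_mem' := by
    show p • (0 : QSx S) ∈ L.Fx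
    rw [smul_zero]
    exact L.Fx.zero_mem
  add_mem' := fun {a b} ha hb => by
    show p • (a + b) ∈ L.Fx
    rw [nsmul_add]
    exact L.Fx.add_mem ha hb
  neg_mem' := fun {a} ha => by
    show p • (-a) ∈ L.Fx
    rw [neg_nsmul]
    exact L.Fx.neg_mem ha

lemma mem_RW (p : ℕ) (t : QSx S) : t ∈ L.RW p ↔ p • t ∈ L.Fx := Iff.rfl

lemma Fx_le_RW (p : ℕ) : L.Fx ≤ L.RW p := fun _ ht => L.Fx.nsmul_mem ht p

lemma nsmul_mem_Fx {p : ℕ} {t : QSx S} (ht : t ∈ L.RW p) : p • t ∈ L.Fx := ht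

/-- `R_W` is stable under the normaliser of `W`. -/
lemma RW_stable (p : ℕ) (u : GQ) (hu : u ∈ Subgroup.normalizer (L.U : Set GQ)) (t : QSx S)
    (ht : t ∈ L.RW p) : (QSx S).ρ u t ∈ L.RW p := by
  show p • (QSx S).ρ u t ∈ L.Fx
  rw [← map_nsmul]
  exact L.Fx_stable u hu _ ht

/-- The Kummer symbol `g t - t`. -/
noncomputable def kum (t : QSx S) (g : GQ) : QSx S := (QSx S).ρ g t - t

lemma kum_def (t : QSx S) (g : GQ) : kum t g = (QSx S).ρ g t - t := rfl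

lemma kum_add (t t' : QSx S) (g : GQ) : kum (t + t') g = kum t g + kum t' g := by
  rw [kum_def, kum_def, kum_def, map_add]
  abel

lemma kum_neg (t : QSx S) (g : GQ) : kum (-t) g = - kum t g := by
  rw [kum_def, kum_def, map_neg]
  abel

lemma kum_zero (g : GQ) : kum (0 : QSx S) g = 0 := by
  rw [kum_def, map_zero, sub_zero]

lemma kum_nsmul (n : ℕ) (t : QSx S) (g : GQ) : kum (n • t) g = n • kum t g := by
  rw [kum_def, kum_def, map_nsmul, nsmul_sub]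

lemma kum_one (t : QSx S) : kum t 1 = 0 := by
  rw [kum_def, map_one, Module.End.one_apply, sub_self]

/-- The cocycle relation. -/
lemma kum_mul' (t : QSx S) (g h : GQ) : kum t (g * h) = (QSx S).ρ g (kum t h) + kum t g := by
  rw [kum_def, kum_def, kum_def, map_mul, Module.End.mul_apply, map_sub]
  abel

/-- Equivariance of the symbol. -/
lemma kum_conj (t : QSx S) (u g : GQ) :
    kum ((QSx S).ρ u t) (u * g * u⁻¹) = (QSx S).ρ u (kum t g) := by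
  rw [kum_def, kum_def, map_sub]
  congr 1
  rw [← Module.End.mul_apply, ← map_mul]
  have e : u * g * u⁻¹ * u = u * g := by group
  rw [e, map_mul, Module.End.mul_apply]

/-- The symbol of `t ∈ R_W` has values in `M[p]` on `W`. -/
lemma kum_p_smul {p : ℕ} {t : QSx S} (ht : t ∈ L.RW p) {g : GQ} (hg : g ∈ L.U) :
    p • kum t g = 0 := by
  rw [← kum_nsmul, kum_def, (L.mem_Fx_iff _).1 ht g hg, sub_self]

/-- The symbol of `t` is trivial on `W` iff `t ∈ Fˣ`. -/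
lemma kum_eq_zero_iff (t : QSx S) : (∀ g ∈ L.U, kum t g = 0) ↔ t ∈ L.Fx := by
  rw [mem_Fx_iff]
  exact forall₂_congr fun g _ => by rw [kum_def, sub_eq_zero]

/-- The symbol of every `t` is smooth: trivial on a level. -/
lemma kum_smooth (t : QSx S) : ∃ V ∈ (levelsS S).sets, ∀ g ∈ V, kum t g = 0 := by
  obtain ⟨V, hV, h⟩ := (smUnits_smooth (𝓛 := levelsS S) (act := galAct)) t
  exact ⟨V, hV, fun g hg => by rw [kum_def, h g hg, sub_self]⟩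

/-! ### The `p`-torsion of `(ℚ_S)ˣ` -/

/-- An element of `(ℚ_S)ˣ` killed by `p` is a `p`-th root of unity. -/
lemma val_pow_of_nsmul_eq_zero {p : ℕ} {x : QSx S} (hx : p • x = 0) :
    ((smUnits.val x : (AlgebraicClosure ℚ)ˣ) : AlgebraicClosure ℚ) ^ p = 1 := by
  have h := congrArg (fun y : QSx S => (smUnits.val y : (AlgebraicClosure ℚ)ˣ)) hx
  beta_reduce at h
  rw [smUnits.val_nsmul, smUnits.val_zero] at h
  rw [← Units.val_pow_eq_pow_val, h, Units.val_one]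

/-- The `p`-torsion of `(ℚ_S)ˣ` consists of `S`-units. -/
lemma mem_sUnitsAdd_of_nsmul_eq_zero {p : ℕ} (hp : p ≠ 0) {x : QSx S} (hx : p • x = 0) :
    x ∈ sUnitsAdd S := by
  rw [mem_sUnitsAdd_iff]
  exact capit_isSUnit_of_pow_eq_one S hp (val_pow_of_nsmul_eq_zero hx)

/-- If `W` fixes `μ_p`, it fixes the `p`-torsion of `(ℚ_S)ˣ`. -/
lemma ρ_eq_of_nsmul_eq_zero {p : ℕ}
    (hμ : ∀ g ∈ L.U, ∀ t : AlgebraicClosure ℚ, t ^ p = 1 → g t = t)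
    {x : QSx S} (hx : p • x = 0) {g : GQ} (hg : g ∈ L.U) : (QSx S).ρ g x = x := by
  rw [smUnits.ρ_eq_iff]
  exact hμ g hg _ (val_pow_of_nsmul_eq_zero hx)

/-- If `W` fixes `μ_p`, the `p`-torsion of `(ℚ_S)ˣ` lies in `Fˣ`. -/
lemma mem_Fx_of_nsmul_eq_zero {p : ℕ}
    (hμ : ∀ g ∈ L.U, ∀ t : AlgebraicClosure ℚ, t ^ p = 1 → g t = t)
    {x : QSx S} (hx : p • x = 0) : x ∈ L.Fx :=
  (L.mem_Fx_iff x).2 fun _ hg => L.ρ_eq_of_nsmul_eq_zero hμ hx hg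

/-- `R_W ≤ T_W`. -/
lemma RW_le_TU {p : ℕ} (hp : p ≠ 0) : L.RW p ≤ L.TU := fun _ ht _ hg =>
  mem_sUnitsAdd_of_nsmul_eq_zero hp (L.kum_p_smul ht hg)

/-- The symbol of `t ∈ R_W` is a homomorphism on `W`, if `W` fixes `μ_p`. -/
lemma kum_mul {p : ℕ} (hμ : ∀ g ∈ L.U, ∀ t : AlgebraicClosure ℚ, t ^ p = 1 → g t = t)
    {t : QSx S} (ht : t ∈ L.RW p) {g h : GQ} (hg : g ∈ L.U) (hh : h ∈ L.U) :
    kum t (g * h) = kum t g + kum t h := by
  rw [kum_mul', L.ρ_eq_of_nsmul_eq_zero hμ (L.kum_p_smul ht hh) hg, add_comm]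

/-- **Surjectivity of the Kummer map** (Hilbert 90 for `(ℚ_S)ˣ`): every smooth homomorphism
`χ : W → M[p]` is the symbol of some `t ∈ R_W`. -/
theorem exists_kum_eq {p : ℕ}
    (hμ : ∀ g ∈ L.U, ∀ t : AlgebraicClosure ℚ, t ^ p = 1 → g t = t)
    (χ : GQ → QSx S) (hmul : ∀ g ∈ L.U, ∀ h ∈ L.U, χ (g * h) = χ g + χ h)
    (hχp : ∀ g ∈ L.U, p • χ g = 0)
    (hsm : ∃ V ∈ (levelsS S).sets, ∀ g ∈ V, g ∈ L.U → χ g = 0) :
    ∃ t ∈ L.RW p, ∀ g ∈ L.U, χ g = kum t g := by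
  set A : Rep.{0} ℤ ↥L.U := Rep.res L.U.subtype (QSx S) with hA
  let c : ↥L.U → A := fun w => χ (w : GQ)
  have hc : c ∈ Z1 ((levelsS S).sub L.U) A := by
    refine (UC.mem_Z1 ((levelsS S).sub L.U) A c).2 ⟨funext fun q => ?_, ?_⟩
    · rw [δ1_apply]
      show (QSx S).ρ (q.1 : GQ) (χ (q.2 : GQ)) - χ ((q.1 : GQ) * (q.2 : GQ)) + χ (q.1 : GQ) = 0
      rw [hmul _ q.1.2 _ q.2.2, L.ρ_eq_of_nsmul_eq_zero hμ (hχp _ q.2.2) q.1.2]
      abel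
    · obtain ⟨V, hV, h⟩ := hsm
      refine ⟨V.comap L.U.subtype, ⟨V, hV, rfl⟩, fun g s hs => ?_⟩
      show χ ((g : GQ) * (s : GQ)) = χ (g : GQ)
      have hs' : (s : GQ) ∈ V := hs
      rw [hmul _ g.2 _ s.2, h _ hs' s.2, add_zero]
  obtain ⟨t, ht⟩ := (UC.mem_B1 A c).1 (h90_QSx S L.U L.isOpen c hc)
  have hk : ∀ g (hg : g ∈ L.U), χ g = kum t g := by
    intro g hg
    have := congrFun ht ⟨g, hg⟩
    rw [δ0_apply] at this
    exact this.symm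
  refine ⟨t, ?_, hk⟩
  rw [mem_RW, mem_Fx_iff]
  intro g hg
  have h1 : kum (p • t) g = 0 := by rw [kum_nsmul, ← hk g hg, hχp g hg]
  rwa [kum_def, sub_eq_zero] at h1

/-! ### The chain `Fx ≤ (R_W ∩ E) + Fx ≤ R_W` -/

/-- `E^W = E ∩ Fˣ`: the `S`-units of `F`. -/
noncomputable def EW : AddSubgroup (QSx S) := sUnitsAdd S ⊓ L.Fx

lemma mem_EW (t : QSx S) : t ∈ L.EW ↔ t ∈ sUnitsAdd S ∧ t ∈ L.Fx := Iff.rfl

/-- `R_W ∩ E`: the `p`-th roots of the `S`-units of `F`. -/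
noncomputable def RE (p : ℕ) : AddSubgroup (QSx S) := L.RW p ⊓ sUnitsAdd S

lemma mem_RE (p : ℕ) (t : QSx S) : t ∈ L.RE p ↔ t ∈ L.RW p ∧ t ∈ sUnitsAdd S := Iff.rfl

lemma EW_le_RE (p : ℕ) : L.EW ≤ L.RE p := fun _ ht => ⟨L.Fx_le_RW p ht.2, ht.1⟩

/-- (F1) `(R_W ∩ E) ∩ Fˣ = E^W`. -/
lemma RE_inf_Fx (p : ℕ) : L.RE p ⊓ L.Fx = L.EW := by
  ext t
  constructor
  · rintro ⟨⟨-, h2⟩, h3⟩
    exact ⟨h2, h3⟩
  · rintro ⟨h1, h2⟩
    exact ⟨⟨L.Fx_le_RW p h2, h1⟩, h2⟩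

/-- (F2a) `p • (R_W ∩ E) ≤ E^W`. -/
lemma nsmul_mem_EW {p : ℕ} {t : QSx S} (ht : t ∈ L.RE p) : p • t ∈ L.EW :=
  ⟨(sUnitsAdd S).nsmul_mem ht.2 p, ht.1⟩

/-- `E` is `p`-divisible, subgroup form. -/
lemma exists_nsmul_eq_of_mem_sUnitsAdd {p : ℕ} [Fact p.Prime] (hpS : pPrime p ∈ S) {e : QSx S}
    (he : e ∈ sUnitsAdd S) : ∃ y ∈ sUnitsAdd S, p • y = e := by
  obtain ⟨y, hy⟩ := EsRep_div S hpS (⟨e, he⟩ : EsRep S)
  refine ⟨y.1, y.2, ?_⟩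
  have h : (((p : ℤ) • y : EsRep S) : QSx S) = e := congrArg Subtype.val hy
  have h2 : (((p : ℤ) • y : EsRep S) : QSx S) = (p : ℤ) • (y.1 : QSx S) := rfl
  rw [← h, h2, natCast_zsmul]

/-- (F2b) every element of `E^W` is `p • t` with `t ∈ R_W ∩ E` (`E` is `p`-divisible). -/
lemma exists_nsmul_eq_of_mem_EW {p : ℕ} [Fact p.Prime] (hpS : pPrime p ∈ S) {e : QSx S}
    (he : e ∈ L.EW) : ∃ t ∈ L.RE p, p • t = e := by
  obtain ⟨y, hy, hye⟩ := exists_nsmul_eq_of_mem_sUnitsAdd hpS he.1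
  refine ⟨y, ⟨?_, hy⟩, hye⟩
  show p • y ∈ L.Fx
  rw [hye]
  exact he.2

/-- (F3) for `t ∈ R_W ∩ E`: `p • t ∈ p • E^W` iff `t ∈ E^W` (if `W` fixes `μ_p`). -/
lemma mem_EW_of_nsmul_eq {p : ℕ}
    (hμ : ∀ g ∈ L.U, ∀ t : AlgebraicClosure ℚ, t ^ p = 1 → g t = t)
    {t e : QSx S} (ht : t ∈ sUnitsAdd S) (he : e ∈ L.EW) (h : p • t = p • e) : t ∈ L.EW := by
  have h0 : p • (t - e) = 0 := by rw [nsmul_sub, h, sub_self]
  have h1 : t - e ∈ L.Fx := L.mem_Fx_of_nsmul_eq_zero hμ h0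
  have h2 : t = (t - e) + e := by abel
  refine ⟨ht, ?_⟩
  rw [h2]
  exact L.Fx.add_mem h1 he.2

/-- (F4) `R_W ∩ (E + Fˣ) = (R_W ∩ E) + Fˣ`. -/
lemma RW_inf_sup (p : ℕ) : L.RW p ⊓ (sUnitsAdd S ⊔ L.Fx) = L.RE p ⊔ L.Fx := by
  apply le_antisymm
  · rintro t ⟨h1, h2⟩
    obtain ⟨e, he, a, ha, rfl⟩ := AddSubgroup.mem_sup.1 h2
    refine AddSubgroup.mem_sup.2 ⟨e, ⟨?_, he⟩, a, ha, rfl⟩
    have : e = (e + a) - a := by abel
    rw [this]
    exact (L.RW p).sub_mem h1 (L.Fx_le_RW p ha)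
  · refine le_inf (sup_le inf_le_left (L.Fx_le_RW p)) (sup_le_sup_right inf_le_right _)

/-- (F5) if `t ∈ T_W` (any `t`) has `p • t ∈ E + Fˣ`, then `t ∈ R_W + E`. -/
lemma mem_RW_sup_of_nsmul_mem {p : ℕ} [Fact p.Prime] (hpS : pPrime p ∈ S) {t : QSx S}
    (h : p • t ∈ sUnitsAdd S ⊔ L.Fx) : t ∈ L.RW p ⊔ sUnitsAdd S := by
  obtain ⟨e, he, a, ha, hea⟩ := AddSubgroup.mem_sup.1 h
  obtain ⟨y, hy, hy'⟩ := exists_nsmul_eq_of_mem_sUnitsAdd hpS he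
  refine AddSubgroup.mem_sup.2 ⟨t - y, ?_, y, hy, by abel⟩
  rw [mem_RW, nsmul_sub, hy', ← hea, add_sub_cancel_left]
  exact ha

end OpenS

end Fermat.Agent.F4
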