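/-
S56, wall W2-EC, step (D), seat N4 (reciprocity), leaf N4-WIRE (helper54).

* `modObjMk M hp : M →+ (modObj M hp).carrier` : the class modulo `p` (`modObjMk_surjective`,
  `modObjMk_smul`, `modObjMk_eq_zero_iff`);
* `CycSetup.recipField_of_pairing` : the reciprocity identity `𝒮.RecipField`
  (`d(Ш) = d(D(A/p))`) from a pairing `B : Ш × T_W → 𝔽_p` which
  - vanishes on `E + Fˣ` (`hB0`),
  - is left nondegenerate (`hl`),
  - has right kernel `E + Fˣ + p T_W` (`hr`),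
  - is `ω`-equivariant (`he`).
* `CycSetup.recipField_of_pairingV` : the same for a pairing on `cyShaV S W`.
-/
import Fermat.Agent.S56.W2.EC.Cyclic.Final
import Fermat.Agent.S56.W2.EC.Cyclic.RecipK0

set_option autoImplicit false
set_option linter.unusedSectionVars false

noncomputable section

namespace Fermat.Agent.S56.EC

open Fermat.Agent.F4 ExtCitation

section ModMk

variable {p : ℕ} {C : Type} [Group C] (M : Type) [AddCommGroup M] [DistribMulAction C M]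
  [Module.Finite ℤ M]

/-- The class modulo `p`, `M → M / p M`. -/
def modObjMk (hp : p ≠ 0) : M →+ (modObj (C := C) M hp).carrier :=
  (((StabSub.top C M).modQ p).cls).comp
    ((AddMonoidHom.id M).codRestrict ((StabSub.top C M).modQ p).top
      (fun _ => AddSubgroup.mem_top _))

lemma modObjMk_surjective (hp : p ≠ 0) : Function.Surjective (modObjMk (C := C) M hp) := by
  intro y
  obtain ⟨x, rfl⟩ := ((StabSub.top C M).modQ p).cls_surjective y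
  exact ⟨(x : M), rfl⟩

lemma modObjMk_smul (hp : p ≠ 0) (c : C) (x : M) :
    modObjMk (C := C) M hp (c • x) = c • modObjMk (C := C) M hp x := rfl

lemma modObjMk_eq_zero_iff (hp : p ≠ 0) (x : M) :
    modObjMk (C := C) M hp x = 0 ↔ ∃ y : M, p • y = x := by
  show ((StabSub.top C M).modQ p).cls ⟨x, AddSubgroup.mem_top _⟩ = 0 ↔ _
  rw [SubQ.cls_eq_zero_iff]
  constructor
  · intro h
    obtain ⟨y, -, hy⟩ := mem_pMul.mp h
    exact ⟨y, hy⟩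
  · rintro ⟨y, hy⟩
    exact mem_pMul.mpr ⟨y, AddSubgroup.mem_top _, hy⟩

end ModMk

namespace CycSetup

variable {p : ℕ} [Fact p.Prime] {S : Finset Nat.Primes} (𝒮 : CycSetup p S)

/-- The class of an element of `T_W` in `A / p`. -/
def clsAp : ↥𝒮.L.TU →+ (modObj (C := 𝒮.Γ) 𝒮.A (NeZero.ne p)).carrier :=
  (modObjMk (C := 𝒮.Γ) 𝒮.A (NeZero.ne p)).comp 𝒮.clsA

lemma clsAp_surjective : Function.Surjective 𝒮.clsAp :=
  (modObjMk_surjective (C := 𝒮.Γ) 𝒮.A (NeZero.ne p)).comp 𝒮.clsA_surjective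

lemma clsAp_eq_zero_iff (t : ↥𝒮.L.TU) :
    𝒮.clsAp t = 0 ↔ ∃ t' : ↥𝒮.L.TU, (t : QSx S) - p • (t' : QSx S) ∈ 𝒮.L.EF := by
  show modObjMk (C := 𝒮.Γ) 𝒮.A (NeZero.ne p) (𝒮.clsA t) = 0 ↔ _
  rw [modObjMk_eq_zero_iff]
  constructor
  · rintro ⟨a, ha⟩
    obtain ⟨t', rfl⟩ := 𝒮.clsA_surjective a
    refine ⟨t', ?_⟩
    have h1 : 𝒮.clsA (t - p • t') = 0 := by
      rw [map_sub, map_nsmul, ha, sub_self]
    exact (𝒮.clsA_eq_zero_iff _).mp h1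
  · rintro ⟨t', ht'⟩
    refine ⟨𝒮.clsA t', ?_⟩
    have h1 : 𝒮.clsA (t - p • t') = 0 := (𝒮.clsA_eq_zero_iff _).mpr ht'
    rw [map_sub, map_nsmul, sub_eq_zero] at h1
    exact h1.symm

lemma clsAp_smul (u : ↥𝒮.U) (t t' : ↥𝒮.L.TU)
    (h : (t' : QSx S) = (QSx S).ρ (u : GQ) (t : QSx S)) :
    𝒮.clsAp t' = 𝒮.proj u • 𝒮.clsAp t := by
  show modObjMk (C := 𝒮.Γ) 𝒮.A (NeZero.ne p) (𝒮.clsA t') =
    𝒮.proj u • modObjMk (C := 𝒮.Γ) 𝒮.A (NeZero.ne p) (𝒮.clsA t)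
  rw [𝒮.proj_smul_clsA' u t t' h, modObjMk_smul]

/-- **N4-WIRE**: the reciprocity identity from a perfect equivariant pairing
`Ш × T_W / (E + Fˣ + p T_W) → 𝔽_p`. -/
theorem recipField_of_pairing (B : (𝒮.ShaObj).carrier →+ ↥𝒮.L.TU →+ ZMod p)
    (hB0 : ∀ (s : (𝒮.ShaObj).carrier) (t : ↥𝒮.L.TU), (t : QSx S) ∈ 𝒮.L.EF → B s t = 0)
    (hl : ∀ s : (𝒮.ShaObj).carrier, (∀ t : ↥𝒮.L.TU, B s t = 0) → s = 0)
    (hr : ∀ t : ↥𝒮.L.TU, (∀ s : (𝒮.ShaObj).carrier, B s t = 0) →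
      ∃ t' : ↥𝒮.L.TU, (t : QSx S) - p • (t' : QSx S) ∈ 𝒮.L.EF)
    (he : ∀ (u : ↥𝒮.U) (s : (𝒮.ShaObj).carrier) (t t' : ↥𝒮.L.TU),
      (t' : QSx S) = (QSx S).ρ (u : GQ) (t : QSx S) →
        B (𝒮.proj u • s) t' = ((cycloChar p (u : GQ) : (ZMod p)ˣ) : ZMod p) * B s t) :
    𝒮.RecipField := by
  intro d hd
  have hp : p ≠ 0 := NeZero.ne p
  -- the pairing descends to `A / p`
  have hker : 𝒮.clsAp.ker ≤ (B.flip).ker := by
    intro t ht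
    rw [AddMonoidHom.mem_ker] at ht ⊢
    obtain ⟨t', ht'⟩ := (𝒮.clsAp_eq_zero_iff t).mp ht
    refine AddMonoidHom.ext fun s => ?_
    show B s t = 0
    have h1 : t = (t - p • t') + p • t' := (sub_add_cancel t _).symm
    have h2 : B s (t - p • t') = 0 := hB0 s _ ht'
    have h3 : B s (p • t') = 0 := by
      rw [map_nsmul, nsmul_eq_mul, ZMod.natCast_self, zero_mul]
    rw [h1, map_add, h2, h3, add_zero]
  let Bf : (modObj (C := 𝒮.Γ) 𝒮.A hp).carrier →+ ((𝒮.ShaObj).carrier →+ ZMod p) :=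
    𝒮.clsAp.liftOfSurjective 𝒮.clsAp_surjective ⟨B.flip, hker⟩
  have hBf : ∀ (t : ↥𝒮.L.TU) (s : (𝒮.ShaObj).carrier), Bf (𝒮.clsAp t) s = B s t := by
    intro t s
    have h := AddMonoidHom.liftOfRightInverse_comp_apply 𝒮.clsAp _
      (Function.rightInverse_surjInv 𝒮.clsAp_surjective) ⟨B.flip, hker⟩ t
    exact congrArg (fun f : (𝒮.ShaObj).carrier →+ ZMod p => f s) h
  refine recip_of_pairing 𝒮.ω 𝒮.ShaObj (modObj (C := 𝒮.Γ) 𝒮.A hp) Bf.flip ?_ ?_ ?_ hd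
  · intro s hs
    refine hl s fun t => ?_
    rw [← hBf t s]
    exact hs (𝒮.clsAp t)
  · intro a ha
    obtain ⟨t, rfl⟩ := 𝒮.clsAp_surjective a
    rw [clsAp_eq_zero_iff]
    refine hr t fun s => ?_
    rw [← hBf t s]
    exact ha s
  · intro γ s a
    obtain ⟨u, rfl⟩ := 𝒮.proj_surjective γ
    obtain ⟨t, rfl⟩ := 𝒮.clsAp_surjective a
    have h1 : 𝒮.proj u • 𝒮.clsAp t =
        𝒮.clsAp (𝒮.L.actTU (u : GQ) (𝒮.mem_normalizer _) t) :=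
      (𝒮.clsAp_smul u t _ rfl).symm
    show Bf (𝒮.proj u • 𝒮.clsAp t) (𝒮.proj u • s) = (𝒮.ω (𝒮.proj u) : ZMod p) * Bf (𝒮.clsAp t) s
    rw [h1, hBf, hBf]
    exact he u s t _ rfl

/-- **N4-WIRE**, for a pairing on `cyShaV S W`. -/
theorem recipField_of_pairingV (B : ↥(cyShaV (p := p) S 𝒮.W) →+ ↥𝒮.L.TU →+ ZMod p)
    (hB0 : ∀ (χ : ↥(cyShaV (p := p) S 𝒮.W)) (t : ↥𝒮.L.TU), (t : QSx S) ∈ 𝒮.L.EF → B χ t = 0)
    (hl : ∀ χ : ↥(cyShaV (p := p) S 𝒮.W), (∀ t : ↥𝒮.L.TU, B χ t = 0) → χ = 0)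
    (hr : ∀ t : ↥𝒮.L.TU, (∀ χ : ↥(cyShaV (p := p) S 𝒮.W), B χ t = 0) →
      ∃ t' : ↥𝒮.L.TU, (t : QSx S) - p • (t' : QSx S) ∈ 𝒮.L.EF)
    (he : ∀ (u : ↥𝒮.U) (χ χ' : ↥(cyShaV (p := p) S 𝒮.W)) (t t' : ↥𝒮.L.TU),
      (χ' : ↥𝒮.W → Fp1 p) = cyConj 𝒮.W 𝒮.normal_W (u : GQ) (χ : ↥𝒮.W → Fp1 p) →
      (t' : QSx S) = (QSx S).ρ (u : GQ) (t : QSx S) →
        B χ' t' = ((cycloChar p (u : GQ) : (ZMod p)ˣ) : ZMod p) * B χ t) :
    𝒮.RecipField := by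
  refine 𝒮.recipField_of_pairing (B.comp 𝒮.shaVal.toAddMonoidHom)
    (fun s t ht => hB0 _ t ht) (fun s hs => ?_) (fun t ht => ?_) (fun u s t t' h => ?_)
  · have h := hl (𝒮.shaVal s) hs
    exact 𝒮.shaVal.injective (h.trans (map_zero 𝒮.shaVal).symm)
  · refine hr t fun χ => ?_
    have h := ht (𝒮.shaVal.symm χ)
    have e : B (𝒮.shaVal (𝒮.shaVal.symm χ)) t = 0 := h
    rwa [AddEquiv.apply_symm_apply] at e
  · exact he u (𝒮.shaVal s) (𝒮.shaVal (𝒮.proj u • s)) t t' (𝒮.shaVal_smul u s) h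

end CycSetup

end Fermat.Agent.S56.EC
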