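/-
S56, wall W2-EC, step (D), sub-seat (SV-J) (helper74; architect of N3/N4: helper56).

The locally trivial characters of a level `W ≤ ker ω`: `J`-form = `V`-form.

* `cyShaJ Pk W` (`J`-form, `Cyclic/TorsDefs.lean`): `∃ j ∈ ker d_{KJ}, ∀ w ∈ W, ε (χ w) = w • j - j`;
* `shaJV_exists_primitive` : (double cosets `r(D) \ G / W`) a character of `W` which vanishes on
  all `W ∩ g r(D) g⁻¹` is `w ↦ x⁻¹ • (m (x w) - m x)` for a function `m` with `m (r d x) = r d • m x`;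
* `cyShaJ_eq_cyShaV`       : `cyShaJ Pk W = cyShaV S W` (`W` a level, `W ≤ ker ω`).
-/
import Fermat.Agent.S56.W2.EC.Pack
import Fermat.Agent.S56.W2.EC.Cyclic.ShaDefs
import Fermat.Agent.S56.W2.EC.Cyclic.TorsDefs
import Fermat.Agent.S56.W2.EC.Rich.LocH0

set_option autoImplicit false

namespace Fermat.Agent.S56.EC

open Fermat.Agent.F4 Fermat.Agent.F4Cf ExtCitation

section Abstract

variable {k G D : Type} [CommRing k] [Group G] [Group D]

/-- **Primitive of a locally trivial character** (double cosets `r(D) \ G / W`).  For a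
homomorphism `χ : W → A` (`W` acting trivially on `A`) which vanishes on `W ∩ g r(D) g⁻¹` for all
`g`, there is `m : G → A` with `m (r d x) = r d • m x` and `m (x w) = m x + x • χ w`. -/
theorem shaJV_exists_primitive (r : D →* G) (W : Subgroup G) {A : Type} [AddCommGroup A]
    [Module k A] (ρ : Representation k G A) (χ : ↥W → A)
    (hχ : ∀ w w' : ↥W, χ (w * w') = χ w + χ w')
    (hW : ∀ (w : ↥W) (a : A), ρ (w : G) a = a)
    (hvan : ∀ (g : G) (d : D) (h : g * r d * g⁻¹ ∈ W), χ ⟨_, h⟩ = 0) :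
    ∃ m : G → A, (∀ d x, m (r d * x) = ρ (r d) (m x)) ∧
      ∀ (x : G) (w : ↥W), m (x * w) = m x + ρ x (χ w) := by
  classical
  let rep : G → G := fun x => (DoubleCoset.mk r.range W x).out
  have hrep : ∀ x, ∃ d : D, ∃ w : ↥W, x = r d * rep x * w := by
    intro x
    obtain ⟨h, hh, k', hk, e⟩ :=
      (DoubleCoset.eq r.range W (rep x) x).1 (DoubleCoset.out_eq' r.range W _)
    obtain ⟨d, rfl⟩ := hh
    exact ⟨d, ⟨k', hk⟩, e⟩
  choose dx wx hx using hrep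
  have hrep1 : ∀ d x, rep (r d * x) = rep x := by
    intro d x
    have : DoubleCoset.mk r.range W (r d * x) = DoubleCoset.mk r.range W x :=
      ((DoubleCoset.eq r.range W x (r d * x)).2
        ⟨r d, ⟨d, rfl⟩, 1, W.one_mem, by rw [mul_one]⟩).symm
    show (DoubleCoset.mk r.range W (r d * x)).out = (DoubleCoset.mk r.range W x).out
    rw [this]
  have hrep2 : ∀ (x : G) (w : ↥W), rep (x * w) = rep x := by
    intro x w
    have : DoubleCoset.mk r.range W (x * w) = DoubleCoset.mk r.range W x :=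
      ((DoubleCoset.eq r.range W x (x * w)).2
        ⟨1, (r.range).one_mem, w, w.2, by rw [one_mul]⟩).symm
    show (DoubleCoset.mk r.range W (x * w)).out = (DoubleCoset.mk r.range W x).out
    rw [this]
  -- well-definedness
  have key : ∀ (g₀ : G) (d d' : D) (w w' : ↥W),
      r d * g₀ * w = r d' * g₀ * w' → χ w = χ w' := by
    intro g₀ d d' w w' e
    have h1 : g₀⁻¹ * r (d'⁻¹ * d) * g₀⁻¹⁻¹ = ((w' * w⁻¹ : ↥W) : G) := by
      rw [inv_inv, map_mul, map_inv, Subgroup.coe_mul, Subgroup.coe_inv]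
      have e2 : r d * g₀ = r d' * g₀ * w' * (w : G)⁻¹ := by
        rw [← e, mul_inv_cancel_right]
      calc g₀⁻¹ * ((r d')⁻¹ * r d) * g₀ = g₀⁻¹ * ((r d')⁻¹ * (r d * g₀)) := by group
        _ = g₀⁻¹ * ((r d')⁻¹ * (r d' * g₀ * w' * (w : G)⁻¹)) := by rw [e2]
        _ = w' * (w : G)⁻¹ := by group
    have h2 : g₀⁻¹ * r (d'⁻¹ * d) * g₀⁻¹⁻¹ ∈ W := h1 ▸ (w' * w⁻¹).2
    have h3 := hvan g₀⁻¹ (d'⁻¹ * d) h2
    have h4 : (⟨_, h2⟩ : ↥W) = w' * w⁻¹ := Subtype.ext h1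
    rw [h4] at h3
    have h5 : χ w' = χ (w' * w⁻¹ * w) := by rw [inv_mul_cancel_right]
    rw [h5, hχ, h3, zero_add]
  refine ⟨fun x => ρ x (χ (wx x)), ?_, ?_⟩
  · intro d x
    have e : r (dx (r d * x)) * rep x * wx (r d * x) = r (d * dx x) * rep x * wx x := by
      have h1 := hx (r d * x)
      rw [hrep1 d x] at h1
      rw [← h1, map_mul, mul_assoc (r d), mul_assoc (r d), ← hx x]
    show ρ (r d * x) (χ (wx (r d * x))) = ρ (r d) (ρ x (χ (wx x)))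
    rw [key _ _ _ _ _ e, map_mul]
    rfl
  · intro x w
    have e : r (dx (x * w)) * rep x * wx (x * w) = r (dx x) * rep x * (wx x * w : ↥W) := by
      have h1 := hx (x * w)
      rw [hrep2 x w] at h1
      rw [← h1, Subgroup.coe_mul, ← mul_assoc, ← hx x]
    show ρ (x * w) (χ (wx (x * w))) = ρ x (χ (wx x)) + ρ x (χ w)
    rw [key _ _ _ _ _ e, hχ, map_mul, Module.End.mul_apply, hW w, map_add]

end Abstract

variable {p : ℕ} [Fact p.Prime] {S : Finset Nat.Primes} {hpS : pPrime p ∈ S}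

/-- The `q`-component of an element of `KJ⁰`, as a function on `G_ℚ`. -/
noncomputable abbrev shaJVFun (Pk : ECPack p S hpS) (j : Pk.KJ.K0) (q : ↥S) :
    GQ → (Pk.loc q).K.K0 :=
  coindPiFun0 (fun q : ↥S => primeLocalToGlobal q.1) (levelsS S) (fun q => (Pk.loc q).K) j q

section Lemmas

variable (Pk : ECPack p S hpS)

/-- `ε_q : μ_p → K_q⁰`. -/
noncomputable def shaJVEpsQ (q : ↥S) : Fp1 p →ₗ[ZMod p] (Pk.loc q).K.K0 := (Pk.loc q).ε.f0

lemma shaJVEpsQ_injective (q : ↥S) : Function.Injective (shaJVEpsQ Pk q) := (Pk.loc q).ε_inj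

lemma shaJVEpsQ_comm (q : ↥S) (d : primeLocalGaloisGroup q.1) (m : Fp1 p) :
    shaJVEpsQ Pk q ((Fp1 p).ρ (primeLocalToGlobal q.1 d) m) =
      (Pk.loc q).K.K0.ρ d (shaJVEpsQ Pk q m) := (Pk.loc q).ε.comm0 d m

lemma shaJVEpsQ_d (q : ↥S) (m : Fp1 p) : (Pk.loc q).K.d (shaJVEpsQ Pk q m) = 0 :=
  ecR3_d_eps (Pk.P q) m

lemma shaJVEpsQ_surj (q : ↥S) (t : (Pk.loc q).K.K0) (ht : (Pk.loc q).K.d t = 0) :
    ∃ m : Fp1 p, shaJVEpsQ Pk q m = t := ecR3_ker_d Pk.hφ (Pk.P q) t ht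

lemma shaJVFun_eps (x : Fp1 p) (q : ↥S) (g : GQ) :
    shaJVFun Pk (cyEps Pk x) q g = shaJVEpsQ Pk q ((Fp1 p).ρ g x) := rfl

lemma shaJVFun_ρ (j : Pk.KJ.K0) (w : GQ) (q : ↥S) (g : GQ) :
    shaJVFun Pk (Pk.KJ.K0.ρ w j) q g = shaJVFun Pk j q (g * w) := rfl

lemma shaJVFun_sub (j j' : Pk.KJ.K0) (q : ↥S) (g : GQ) :
    shaJVFun Pk (j - j') q g = shaJVFun Pk j q g - shaJVFun Pk j' q g := rfl

lemma shaJVFun_equivariant (j : Pk.KJ.K0) (q : ↥S) (d : primeLocalGaloisGroup q.1) (g : GQ) :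
    shaJVFun Pk j q (primeLocalToGlobal q.1 d * g) = (Pk.loc q).K.K0.ρ d (shaJVFun Pk j q g) :=
  coIndSub_equivariant
    ((show ∀ q : ↥S, ↥(coIndSub (primeLocalToGlobal q.1) (levelsS S) (Pk.loc q).K.K0) from j) q)
    d g

lemma shaJVFun_d {j : Pk.KJ.K0} (hj : Pk.KJ.d j = 0) (q : ↥S) (g : GQ) :
    (Pk.loc q).K.d (shaJVFun Pk j q g) = 0 :=
  congrFun (congrArg Subtype.val (congrFun hj q)) g

lemma shaJV_ext {j j' : Pk.KJ.K0} (h : ∀ q g, shaJVFun Pk j q g = shaJVFun Pk j' q g) :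
    j = j' :=
  funext fun q => Subtype.ext (funext fun g => h q g)

/-- `W ≤ ker ω` acts trivially on `μ_p`. -/
lemma shaJV_ρ_of_mem_ker {g : GQ} (hg : g ∈ MonoidHom.ker (cycloChar p)) (m : Fp1 p) :
    (Fp1 p).ρ g m = m := by
  rw [br_smooth_Fp1_ρ, MonoidHom.mem_ker.1 hg, Units.val_one, one_smul]

/-- The action of `G_ℚ` on `μ_p` is injective. -/
lemma shaJV_ρ_injective (g : GQ) : Function.Injective ((Fp1 p).ρ g) := by
  intro a b h
  have := congrArg ((Fp1 p).ρ g⁻¹) h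
  rwa [← Module.End.mul_apply, ← Module.End.mul_apply, ← map_mul, inv_mul_cancel, map_one] at this

end Lemmas

/-- **(SV-J), `⇒`.** -/
theorem cyShaV_of_mem_cyShaJ (Pk : ECPack p S hpS) (W : Subgroup GQ)
    (hWω : W ≤ MonoidHom.ker (cycloChar p)) {χ : ↥W → Fp1 p} (h : χ ∈ cyShaJ Pk W) :
    χ ∈ cyShaV S W := by
  obtain ⟨j, hd, hj⟩ := (mem_cyShaJ Pk W χ).1 h
  -- the relation in components
  have hrel : ∀ (q : ↥S) (g : GQ) (w : ↥W),
      shaJVEpsQ Pk q ((Fp1 p).ρ g (χ w)) = shaJVFun Pk j q (g * w) - shaJVFun Pk j q g := by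
    intro q g w
    rw [← shaJVFun_eps, hj w, shaJVFun_sub, shaJVFun_ρ]
  let q₀ : ↥S := ⟨pPrime p, hpS⟩
  have hone : ∀ m : Fp1 p, (Fp1 p).ρ 1 m = m := fun m => by rw [map_one]; rfl
  refine ⟨⟨fun w w' => ?_, ?_⟩, fun q g d h => ?_⟩
  · -- additivity
    apply shaJVEpsQ_injective Pk q₀
    have h1 := hrel q₀ 1 (w * w')
    have h2 := hrel q₀ (w : GQ) w'
    have h3 := hrel q₀ 1 w
    rw [hone] at h1 h3
    rw [shaJV_ρ_of_mem_ker (hWω w.2)] at h2
    rw [map_add, h1, h2, h3, Subgroup.coe_mul, one_mul, one_mul]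
    abel
  · -- smoothness
    obtain ⟨V, hV, hVj⟩ := (coind_smoothJ Pk.loc).1 j
    refine ⟨V, hV, fun w hw => ?_⟩
    apply shaJVEpsQ_injective Pk q₀
    have h3 := hrel q₀ 1 w
    rw [hone, one_mul] at h3
    rw [h3, ← one_mul (w : GQ), ← shaJVFun_ρ, hVj _ hw, sub_self, map_zero]
  · -- local triviality
    have h1 := hrel q g⁻¹ ⟨_, h⟩
    have e : g⁻¹ * (g * primeLocalToGlobal q.1 d * g⁻¹) = primeLocalToGlobal q.1 d * g⁻¹ := by
      group
    rw [show ((⟨g * primeLocalToGlobal q.1 d * g⁻¹, h⟩ : ↥W) : GQ) =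
      g * primeLocalToGlobal q.1 d * g⁻¹ from rfl, e, shaJVFun_equivariant] at h1
    obtain ⟨m, hm⟩ := shaJVEpsQ_surj Pk q _ (shaJVFun_d Pk hd q g⁻¹)
    have hker : primeLocalToGlobal q.1 d ∈ MonoidHom.ker (cycloChar p) := by
      have h2 := hWω h
      rw [MonoidHom.mem_ker] at h2 ⊢
      rw [map_mul, map_mul, map_inv, mul_comm (cycloChar p g), mul_assoc, mul_inv_cancel,
        mul_one] at h2
      exact h2
    have h4 : (Pk.loc q).K.K0.ρ d (shaJVFun Pk j q g⁻¹) = shaJVFun Pk j q g⁻¹ := by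
      rw [← hm, ← shaJVEpsQ_comm, shaJV_ρ_of_mem_ker hker m]
    rw [h4, sub_self] at h1
    have h5 : (Fp1 p).ρ g⁻¹ (χ ⟨_, h⟩) = 0 :=
      shaJVEpsQ_injective Pk q (h1.trans (map_zero _).symm)
    exact shaJV_ρ_injective g⁻¹ (h5.trans (map_zero _).symm)

/-- **(SV-J), `⇐`.** -/
theorem mem_cyShaJ_of_cyShaV (Pk : ECPack p S hpS) (W : Subgroup GQ)
    (hW : W ∈ (levelsS S).sets) (hWω : W ≤ MonoidHom.ker (cycloChar p)) {χ : ↥W → Fp1 p}
    (h : χ ∈ cyShaV S W) : χ ∈ cyShaJ Pk W := by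
  rw [mem_cyShaJ]
  obtain ⟨⟨hadd, V, hV, hVχ⟩, hvan⟩ := h
  -- the primitives
  have hprim : ∀ q : ↥S, ∃ m : GQ → Fp1 p,
      (∀ d x, m (primeLocalToGlobal q.1 d * x) =
        (Fp1 p).ρ (primeLocalToGlobal q.1 d) (m x)) ∧
      ∀ (x : GQ) (w : ↥W), m (x * w) = m x + (Fp1 p).ρ x (χ w) := fun q =>
    shaJV_exists_primitive (primeLocalToGlobal q.1) W (Fp1 p).ρ χ hadd
      (fun w a => shaJV_ρ_of_mem_ker (hWω w.2) a) (fun g d h => hvan q g d h)
  choose m hm1 hm2 using hprim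
  -- a common level
  obtain ⟨U, hU, hUle⟩ := (levelsS S).directed W hW V hV
  have hmU : ∀ (q : ↥S) (x s : GQ), s ∈ U → m q (x * s) = m q x := by
    intro q x s hs
    have := hm2 q x ⟨s, (hUle hs).1⟩
    rw [hVχ ⟨s, (hUle hs).1⟩ (hUle hs).2, map_zero, add_zero] at this
    exact this
  -- the element `j`
  let j : Pk.KJ.K0 := fun q => ⟨fun x => shaJVEpsQ Pk q (m q x), ⟨fun d x => by
      show shaJVEpsQ Pk q (m q (primeLocalToGlobal q.1 d * x)) = _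
      rw [hm1, shaJVEpsQ_comm], ⟨U, hU, fun x s hs => by
      show shaJVEpsQ Pk q (m q (x * s)) = shaJVEpsQ Pk q (m q x)
      rw [hmU q x s hs]⟩⟩⟩
  have hjfun : ∀ q g, shaJVFun Pk j q g = shaJVEpsQ Pk q (m q g) := fun _ _ => rfl
  refine ⟨j, ?_, fun w => ?_⟩
  · funext q
    apply Subtype.ext
    funext x
    exact shaJVEpsQ_d Pk q (m q x)
  · apply shaJV_ext Pk
    intro q g
    rw [shaJVFun_eps, shaJVFun_sub, shaJVFun_ρ, hjfun, hjfun, hm2, map_add, add_sub_cancel_left]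

/-- **(SV-J)**: the `J`-form and the `V`-form of the locally trivial characters agree. -/
theorem cyShaJ_eq_cyShaV (Pk : ECPack p S hpS) (W : Subgroup GQ) (hW : W ∈ (levelsS S).sets)
    (hWω : W ≤ MonoidHom.ker (cycloChar p)) : cyShaJ Pk W = cyShaV S W :=
  le_antisymm (fun _ h => cyShaV_of_mem_cyShaJ Pk W hWω h)
    (fun _ h => mem_cyShaJ_of_cyShaV Pk W hW hWω h)

end Fermat.Agent.S56.EC
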